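import Fermat.Agent.S21.Defs

/-! # S21 module PARABOLIC: elements of `SL(2,ℤ)` of trace `±2` are `± δ Tᵐ δ⁻¹`. -/

set_option autoImplicit false

open UpperHalfPlane ModularForm CongruenceSubgroup Filter Topology
open scoped MatrixGroups ModularForm Manifold

namespace Fermat.Agent.S21

/-- If `γ δ = δ Tᵐ` entrywise then `γ = δ Tᵐ δ⁻¹`. -/
theorem eq_conj_T_zpow_of_entries (γ δ : SL(2, ℤ)) (m : ℤ)
    (h00 : γ 0 0 * δ 0 0 + γ 0 1 * δ 1 0 = δ 0 0)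
    (h10 : γ 1 0 * δ 0 0 + γ 1 1 * δ 1 0 = δ 1 0)
    (h01 : γ 0 0 * δ 0 1 + γ 0 1 * δ 1 1 = δ 0 0 * m + δ 0 1)
    (h11 : γ 1 0 * δ 0 1 + γ 1 1 * δ 1 1 = δ 1 0 * m + δ 1 1) :
    γ = δ * ModularGroup.T ^ m * δ⁻¹ := by
  rw [eq_mul_inv_iff_mul_eq]
  ext i j
  fin_cases i <;> fin_cases j <;>
    simp [Matrix.SpecialLinearGroup.coe_mul, ModularGroup.coe_T_zpow, Matrix.mul_apply,
      Fin.sum_univ_two, h00, h10, h01, h11]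

theorem exists_conj_T_zpow_of_trace_two (γ : SL(2, ℤ))
    (h : (γ : Matrix (Fin 2) (Fin 2) ℤ).trace = 2) :
    ∃ (δ : SL(2, ℤ)) (m : ℤ), γ = δ * ModularGroup.T ^ m * δ⁻¹ := by
  have htr : γ 0 0 + γ 1 1 = 2 := by
    simpa [Matrix.trace_fin_two] using h
  have hdet : γ 0 0 * γ 1 1 - γ 0 1 * γ 1 0 = 1 := by
    have := γ.det_coe
    rwa [Matrix.det_fin_two] at this
  by_cases hg : γ 0 0 - 1 = 0 ∧ γ 1 0 = 0
  · obtain ⟨ha, hc⟩ := hg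
    refine ⟨1, γ 0 1, eq_conj_T_zpow_of_entries γ 1 _ ?_ ?_ ?_ ?_⟩ <;>
      simp [hc] <;> lia
  · -- the primitive fixed vector
    obtain ⟨g, hgdef⟩ : ∃ g : ℤ, g = (Int.gcd (γ 0 0 - 1) (γ 1 0) : ℤ) := ⟨_, rfl⟩
    have hg0 : g ≠ 0 := by
      intro h0
      apply hg
      rw [hgdef] at h0
      exact Int.gcd_eq_zero_iff.mp (by exact_mod_cast h0)
    obtain ⟨p, hp⟩ : g ∣ γ 0 0 - 1 := hgdef ▸ Int.gcd_dvd_left _ _
    obtain ⟨q, hq⟩ : g ∣ γ 1 0 := hgdef ▸ Int.gcd_dvd_right _ _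
    have hcop : IsCoprime p q := by
      obtain ⟨u, v, huv⟩ : ∃ u v : ℤ, g = (γ 0 0 - 1) * u + γ 1 0 * v :=
        ⟨_, _, hgdef.trans (Int.gcd_eq_gcd_ab _ _)⟩
      refine ⟨u, v, ?_⟩
      apply mul_left_cancel₀ hg0
      rw [hp, hq] at huv
      linear_combination -huv
    obtain ⟨δ, hδ0, hδ1⟩ := hcop.exists_SL2_col 0
    have hδdet : δ 0 0 * δ 1 1 - δ 0 1 * δ 1 0 = 1 := by
      have := δ.det_coe
      rwa [Matrix.det_fin_two] at this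
    have e00 : γ 0 0 * δ 0 0 + γ 0 1 * δ 1 0 = δ 0 0 := by
      apply mul_left_cancel₀ hg0
      rw [hδ0, hδ1]
      have h1 : g * p = γ 0 0 - 1 := hp.symm
      have h2 : g * q = γ 1 0 := hq.symm
      linear_combination (γ 0 0 - 1) * h1 + γ 0 1 * h2 + γ 0 0 * htr - hdet
    have e10 : γ 1 0 * δ 0 0 + γ 1 1 * δ 1 0 = δ 1 0 := by
      apply mul_left_cancel₀ hg0
      rw [hδ0, hδ1]
      have h1 : g * p = γ 0 0 - 1 := hp.symm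
      have h2 : g * q = γ 1 0 := hq.symm
      linear_combination γ 1 0 * h1 + (γ 1 1 - 1) * h2 + γ 1 0 * htr
    refine ⟨δ, δ 1 1 * (γ 0 0 * δ 0 1 + γ 0 1 * δ 1 1) - δ 0 1 * (γ 1 0 * δ 0 1 + γ 1 1 * δ 1 1),
      eq_conj_T_zpow_of_entries γ δ _ e00 e10 ?_ ?_⟩
    · linear_combination (-(γ 0 0 * δ 0 1 + γ 0 1 * δ 1 1) + δ 0 1) * hδdet
        - δ 0 1 * δ 1 1 * e00 + δ 0 1 * δ 0 1 * e10
        - δ 0 1 * (δ 0 1 * δ 1 0 - δ 1 1 * δ 0 0) * htr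
    · linear_combination (-(γ 1 0 * δ 0 1 + γ 1 1 * δ 1 1) + δ 1 1) * hδdet
        - δ 1 1 * δ 1 1 * e00 + δ 1 1 * δ 0 1 * e10
        - δ 1 1 * (δ 0 1 * δ 1 0 - δ 1 1 * δ 0 0) * htr

theorem exists_conj_T_zpow (γ : SL(2, ℤ))
    (h : (γ : Matrix (Fin 2) (Fin 2) ℤ).trace ^ 2 = 4) :
    ∃ (δ : SL(2, ℤ)) (m : ℤ), γ = δ * ModularGroup.T ^ m * δ⁻¹ ∨
      γ = -(δ * ModularGroup.T ^ m * δ⁻¹) := by
  have h2 : (γ : Matrix (Fin 2) (Fin 2) ℤ).trace = 2 ∨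
      (γ : Matrix (Fin 2) (Fin 2) ℤ).trace = -2 := by
    have : ((γ : Matrix (Fin 2) (Fin 2) ℤ).trace - 2) *
        ((γ : Matrix (Fin 2) (Fin 2) ℤ).trace + 2) = 0 := by linear_combination h
    rcases mul_eq_zero.mp this with h | h
    · left; lia
    · right; lia
  rcases h2 with h2 | h2
  · obtain ⟨δ, m, hm⟩ := exists_conj_T_zpow_of_trace_two γ h2
    exact ⟨δ, m, Or.inl hm⟩
  · obtain ⟨δ, m, hm⟩ := exists_conj_T_zpow_of_trace_two (-γ) (by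
      simp [Matrix.trace_neg, h2])
    exact ⟨δ, m, Or.inr (by rw [← hm, neg_neg])⟩

end Fermat.Agent.S21
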