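import Fermat.Agent.S21.Basic

/-! # S21 module EISENSTEIN: a form on `Γ₀(N)` nonzero at the cusp `∞`, vanishing at all translates
by `g ∉ Γ₀(N)`.  (Take `∑_{u ∈ (ℤ/N)ˣ} eisensteinSeries (0,u) 4`.) -/

set_option autoImplicit false

open UpperHalfPlane ModularForm CongruenceSubgroup Filter Topology
open scoped MatrixGroups ModularForm Manifold

namespace Fermat.Agent.S21

open EisensteinSeries

/-- termwise limit of the Eisenstein summand at `i∞` -/
theorem tendsto_eisSummand_atImInfty (v : Fin 2 → ℤ) :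
    Tendsto (fun z : ℍ => eisSummand 4 v z) atImInfty
      (𝓝 (if v 0 = 0 then ((v 1 : ℂ)) ^ (-4 : ℤ) else 0)) := by
  by_cases h : v 0 = 0
  · simp only [h, if_true, eisSummand, Int.cast_zero, zero_mul, zero_add]
    exact tendsto_const_nhds
  · simp only [h, if_false]
    have h1 : ∀ z : ℍ, ‖eisSummand 4 v z‖ ≤ (z.im ^ 4)⁻¹ := by
      intro z
      have hc : (1 : ℝ) ≤ |(v 0 : ℝ)| := by exact_mod_cast Int.one_le_abs h
      have h2 : z.im ≤ ‖(v 0 : ℂ) * z + v 1‖ := by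
        calc z.im ≤ |(v 0 : ℝ)| * z.im := le_mul_of_one_le_left z.im_pos.le hc
          _ = |((v 0 : ℂ) * z + v 1).im| := by simp [abs_mul, abs_of_pos z.im_pos]
          _ ≤ _ := Complex.abs_im_le_norm _
      have h3 : ‖eisSummand 4 v z‖ = (‖(v 0 : ℂ) * z + v 1‖ ^ 4)⁻¹ := by
        rw [eisSummand, zpow_neg, norm_inv, norm_zpow]
        norm_cast
      rw [h3]
      have := z.im_pos
      gcongr
    have h4 : Tendsto (fun z : ℍ => (z.im ^ 4)⁻¹) atImInfty (𝓝 0) :=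
      tendsto_inv_atTop_zero.comp ((tendsto_pow_atTop (by norm_num)).comp tendsto_comap)
    exact squeeze_zero_norm h1 h4

/-- The limit at `i∞` of a weight 4 Eisenstein series of level `Γ(N)`. -/
theorem tendsto_eisensteinSeries_atImInfty (N : ℕ) [NeZero N] (a : Fin 2 → ZMod N) :
    Tendsto (eisensteinSeries a 4) atImInfty
      (𝓝 (∑' x : gammaSet N 1 a, if x.1 0 = 0 then ((x.1 1 : ℂ)) ^ (-4 : ℤ) else 0)) := by
  set L : ℂ := ∑' x : gammaSet N 1 a, if x.1 0 = 0 then ((x.1 1 : ℂ)) ^ (-4 : ℤ) else 0 with hL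
  have key : Tendsto (fun z : ℍ => ∑' x : gammaSet N 1 a, eisSummand 4 x z)
      (atImInfty ⊓ 𝓟 {z : ℍ | |z.re| ≤ N}) (𝓝 L) := by
    refine tendsto_tsum_of_dominated_convergence
      (bound := fun x : gammaSet N 1 a =>
        r ⟨⟨N, 1⟩, one_pos⟩ ^ (-4 : ℝ) * ‖x.1‖ ^ (-4 : ℝ)) ?_ ?_ ?_
    · exact ((summable_one_div_norm_rpow (by norm_num)).mul_left _).subtype _
    · intro x
      exact (tendsto_eisSummand_atImInfty x.1).mono_left inf_le_left
    · have h1 : ∀ᶠ z : ℍ in atImInfty, 1 ≤ z.im :=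
        (atImInfty_basis.mem_of_mem (i := 1) trivial)
      filter_upwards [h1.filter_mono inf_le_left, mem_inf_of_right (mem_principal_self _)]
        with z hz1 hz2 x
      have hz : z ∈ verticalStrip N 1 := ⟨hz2, hz1⟩
      have := summand_bound_of_mem_verticalStrip (k := 4) (by norm_num) x.1 one_pos hz
      simp only [eisSummand, norm_zpow]
      exact_mod_cast this
  rw [atImInfty_basis.tendsto_iff Metric.nhds_basis_ball]
  intro ε hε
  have h2 := key (Metric.ball_mem_nhds L hε)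
  rw [mem_map, mem_inf_principal, atImInfty_basis.mem_iff] at h2
  obtain ⟨A, -, hA⟩ := h2
  refine ⟨A, trivial, fun z hz => ?_⟩
  obtain ⟨n, hn⟩ := ModularGroup_T_zpow_mem_verticalStrip z (NeZero.pos N)
  have h3 := SlashInvariantForm.T_zpow_width_invariant N 4 n (eisensteinSeriesSIF a 4) z
  rw [eisensteinSeriesSIF_apply, eisensteinSeriesSIF_apply] at h3
  rw [← h3]
  exact hA (le_trans hz hn.2) hn.1

/-- The separating form `∑_{u ∈ (ℤ/N)ˣ} G₄^{(0,u)}`. -/
noncomputable def sepForm (N : ℕ) [NeZero N] : ℍ → ℂ :=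
  ∑ u : (ZMod N)ˣ, eisensteinSeries ![0, (u : ZMod N)] 4

theorem vecMul_zero_unit (N : ℕ) (u : ZMod N) (g : SL(2, ℤ)) :
    Matrix.vecMul (![0, u] : Fin 2 → ZMod N)
        (Matrix.SpecialLinearGroup.map (Int.castRingHom (ZMod N)) g).1 =
      ![u * (g 1 0 : ZMod N), u * (g 1 1 : ZMod N)] := by
  ext i
  fin_cases i <;> simp [Matrix.vecMul, Matrix.vecHead, Matrix.vecTail]

theorem sepForm_slash (N : ℕ) [NeZero N] (g : SL(2, ℤ)) :
    sepForm N ∣[(4 : ℤ)] g =
      ∑ u : (ZMod N)ˣ, eisensteinSeries ![(u : ZMod N) * (g 1 0 : ZMod N), u * (g 1 1 : ZMod N)] 4 := by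
  rw [sepForm, SlashAction.sum_slash]
  refine Finset.sum_congr rfl fun u _ => ?_
  rw [eisensteinSeries_slash_apply, vecMul_zero_unit]

theorem eisensteinSeries_mem_MF (N : ℕ) [NeZero N] (a : Fin 2 → ZMod N) :
    eisensteinSeries a 4 ∈ MF (Gamma N) 4 := by
  refine mem_MF_iff.mpr ⟨eisensteinSeriesSIF_mdifferentiable (by norm_num) a, fun γ hγ => ?_,
    fun δ => isBoundedAtImInfty_eisensteinSeriesSIF a (by norm_num) δ⟩
  rw [eisensteinSeries_slash_apply, Gamma_mem'.mp hγ]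
  simp

theorem sepForm_mem_MF_Gamma (N : ℕ) [NeZero N] : sepForm N ∈ MF (Gamma N) 4 :=
  Submodule.sum_mem _ fun _ _ => eisensteinSeries_mem_MF N _

theorem sepForm_slash_of_mem (N : ℕ) [NeZero N] (γ : SL(2, ℤ)) (hγ : γ ∈ Gamma0 N) :
    sepForm N ∣[(4 : ℤ)] γ = sepForm N := by
  have h10 : ((γ 1 0 : ℤ) : ZMod N) = 0 := Gamma0_mem.mp hγ
  have hdet : ((γ 1 1 : ℤ) : ZMod N) * ((γ 0 0 : ℤ) : ZMod N) = 1 := by
    have h := γ.det_coe
    rw [Matrix.det_fin_two] at h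
    have h' := congrArg (Int.cast : ℤ → ZMod N) h
    push_cast at h'
    rw [h10, mul_zero, sub_zero] at h'
    rw [mul_comm]
    exact h'
  let d : (ZMod N)ˣ := Units.mkOfMulEqOne _ _ hdet
  rw [sepForm_slash, sepForm]
  refine Fintype.sum_equiv (Equiv.mulRight d) _ _ fun u => ?_
  simp [h10, d]

theorem sepForm_mem_MF (N : ℕ) [NeZero N] : sepForm N ∈ MF (Gamma0 N) 4 := by
  obtain ⟨h1, -, h3⟩ := mem_MF_iff.mp (sepForm_mem_MF_Gamma N)
  exact mem_MF_iff.mpr ⟨h1, sepForm_slash_of_mem N, h3⟩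

/-- the limit of `eisensteinSeries a 4` at `i∞` -/
noncomputable def eisLim (N : ℕ) (a : Fin 2 → ZMod N) : ℂ :=
  ∑' x : gammaSet N 1 a, if x.1 0 = 0 then ((x.1 1 : ℂ)) ^ (-4 : ℤ) else 0

theorem eisLim_eq_zero (N : ℕ) (a : Fin 2 → ZMod N) (ha : a 0 ≠ 0) : eisLim N a = 0 := by
  rw [eisLim]
  convert tsum_zero with x
  rw [if_neg]
  intro hx
  apply ha
  have := congr_fun x.2.1 0
  simp only [Function.comp_apply, hx, Int.cast_zero] at this
  exact this.symm

/-- real version of the limit -/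
noncomputable def eisLimR (N : ℕ) (a : Fin 2 → ZMod N) : ℝ :=
  ∑' x : gammaSet N 1 a, if x.1 0 = 0 then (1 : ℝ) else 0

theorem gammaSet_snd_of_fst_eq_zero {N : ℕ} {a : Fin 2 → ZMod N} (x : gammaSet N 1 a)
    (hx : x.1 0 = 0) : x.1 1 = 1 ∨ x.1 1 = -1 := by
  have := x.2.2
  rw [hx, Int.gcd_zero_left] at this
  exact Int.natAbs_eq_iff.mp this

theorem eisLim_eq_ofReal (N : ℕ) (a : Fin 2 → ZMod N) : eisLim N a = (eisLimR N a : ℂ) := by
  rw [eisLim, eisLimR, Complex.ofReal_tsum]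
  refine tsum_congr fun x => ?_
  by_cases hx : x.1 0 = 0
  · rcases gammaSet_snd_of_fst_eq_zero x hx with h | h
    · simp [hx, h]
    · simp only [hx, h, if_true]
      norm_num
  · simp [hx]

theorem summable_eisLimR (N : ℕ) (a : Fin 2 → ZMod N) :
    Summable fun x : gammaSet N 1 a => if x.1 0 = 0 then (1 : ℝ) else 0 := by
  refine Summable.of_nonneg_of_le (fun x => by split_ifs <;> norm_num) (fun x => ?_)
    ((summable_norm_eisSummand (k := 4) (by norm_num) UpperHalfPlane.I).subtype (gammaSet N 1 a))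
  by_cases hx : x.1 0 = 0
  · rcases gammaSet_snd_of_fst_eq_zero x hx with h | h
    · simp [hx, h, eisSummand]
    · simp only [hx, h, if_true, Function.comp_apply, eisSummand]
      norm_num
  · simp [hx]

theorem eisLimR_nonneg (N : ℕ) (a : Fin 2 → ZMod N) : 0 ≤ eisLimR N a :=
  tsum_nonneg fun x => by split_ifs <;> norm_num

theorem one_le_eisLimR (N : ℕ) : 1 ≤ eisLimR N ![0, 1] := by
  have hmem : (![0, 1] : Fin 2 → ℤ) ∈ gammaSet N 1 ![0, 1] := by
    refine ⟨?_, by simp⟩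
    ext i
    fin_cases i <;> simp
  have := (summable_eisLimR N ![0, 1]).le_tsum ⟨![0, 1], hmem⟩
    (fun x _ => by split_ifs <;> norm_num)
  simpa [eisLimR] using this

theorem exists_separating_form (N : ℕ) [NeZero N] :
    ∃ (w : ℤ) (f : ℍ → ℂ) (c : ℂ), c ≠ 0 ∧ f ∈ MF (Gamma0 N) w ∧ Tendsto f atImInfty (𝓝 c) ∧
      ∀ g : SL(2, ℤ), g ∉ Gamma0 N → Tendsto (f ∣[w] g) atImInfty (𝓝 0) := by
  refine ⟨4, sepForm N, ∑ u : (ZMod N)ˣ, eisLim N ![0, (u : ZMod N)], ?_, sepForm_mem_MF N, ?_, ?_⟩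
  · simp_rw [eisLim_eq_ofReal]
    rw [← Complex.ofReal_sum, Complex.ofReal_ne_zero]
    have h1 : eisLimR N ![0, ((1 : (ZMod N)ˣ) : ZMod N)] ≤
        ∑ u : (ZMod N)ˣ, eisLimR N ![0, (u : ZMod N)] :=
      Finset.single_le_sum (f := fun u : (ZMod N)ˣ => eisLimR N ![0, (u : ZMod N)])
        (fun u _ => eisLimR_nonneg N _) (Finset.mem_univ 1)
    have h2 := one_le_eisLimR N
    rw [Units.val_one] at h1
    linarith
  · have : sepForm N = fun z => ∑ u : (ZMod N)ˣ, eisensteinSeries ![0, (u : ZMod N)] 4 z := by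
      ext z
      simp [sepForm]
    rw [this]
    exact tendsto_finsetSum _ fun u _ => tendsto_eisensteinSeries_atImInfty N _
  · intro g hg
    have hg' : ((g 1 0 : ℤ) : ZMod N) ≠ 0 := fun h => hg (Gamma0_mem.mpr h)
    have : sepForm N ∣[(4 : ℤ)] g = fun z => ∑ u : (ZMod N)ˣ,
        eisensteinSeries ![(u : ZMod N) * (g 1 0 : ZMod N), u * (g 1 1 : ZMod N)] 4 z := by
      ext z
      simp [sepForm_slash]
    rw [this]
    have h0 : (0 : ℂ) = ∑ u : (ZMod N)ˣ,
        eisLim N ![(u : ZMod N) * (g 1 0 : ZMod N), u * (g 1 1 : ZMod N)] := by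
      symm
      refine Finset.sum_eq_zero fun u _ => eisLim_eq_zero N _ ?_
      simpa using hg'
    rw [h0]
    exact tendsto_finsetSum _ fun u _ => tendsto_eisensteinSeries_atImInfty N _

end Fermat.Agent.S21
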