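import Fermat.Agent.S21.Serre
import Fermat.Agent.S21.Eisenstein

/-! # S21 module GLOBALGEN: at every point `τ` the vectors `(vec f x τ)_x`, `f` a modular form,
span `X → ℂ`. -/

set_option autoImplicit false

open UpperHalfPlane ModularForm CongruenceSubgroup Filter Topology
open scoped MatrixGroups ModularForm Manifold

namespace Fermat.Agent.S21

section Functional

variable {Γ : Subgroup SL(2, ℤ)} [Γ.FiniteIndex]

/-- The scalar function `∑ₓ lₓ · (f ∣ x)` attached to a functional `l` and a form `f`. -/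
noncomputable def fnl (l : X Γ → ℂ) (w : ℤ) (f : ℍ → ℂ) : ℍ → ℂ :=
  fun τ => ∑ x, l x * vec Γ w f x τ

theorem hasDerivAt_fnl (l : X Γ → ℂ) {w : ℤ} {f : ℍ → ℂ} (hf : f ∈ MF Γ w) (τ : ℍ) :
    HasDerivAt (fnl l w f ∘ ofComplex)
      (2 * Real.pi * Complex.I * (fnl l (w + 2) (Derivative.serreDerivative (w : ℂ) f) τ
        + w * 12⁻¹ * EisensteinSeries.E2 τ * fnl l w f τ)) ↑τ := by
  have h : HasDerivAt (fun z : ℂ => ∑ x, l x * (vec Γ w f x ∘ ofComplex) z)
      (∑ x, l x * (2 * Real.pi * Complex.I *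
        (vec Γ (w + 2) (Derivative.serreDerivative (w : ℂ) f) x τ
        + w * 12⁻¹ * EisensteinSeries.E2 τ * vec Γ w f x τ))) ↑τ :=
    HasDerivAt.fun_sum fun x _ => (hasDerivAt_vec hf x τ).const_mul (l x)
  have e : (∑ x, l x * (2 * Real.pi * Complex.I *
        (vec Γ (w + 2) (Derivative.serreDerivative (w : ℂ) f) x τ
        + w * 12⁻¹ * EisensteinSeries.E2 τ * vec Γ w f x τ))) =
      2 * Real.pi * Complex.I * (fnl l (w + 2) (Derivative.serreDerivative (w : ℂ) f) τ
        + w * 12⁻¹ * EisensteinSeries.E2 τ * fnl l w f τ) := by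
    simp only [fnl, Finset.mul_sum, ← Finset.sum_add_distrib]
    refine Finset.sum_congr rfl fun x _ => ?_
    ring
  rw [← e]
  exact h

theorem upperHalfPlaneSet_mem_nhds (τ : ℍ) : {z : ℂ | 0 < z.im} ∈ 𝓝 (τ : ℂ) :=
  (isOpen_lt continuous_const Complex.continuous_im).mem_nhds τ.im_pos

theorem differentiableOn_fnl (l : X Γ → ℂ) {w : ℤ} {f : ℍ → ℂ} (hf : f ∈ MF Γ w) :
    DifferentiableOn ℂ (fnl l w f ∘ ofComplex) {z : ℂ | 0 < z.im} := by
  intro z hz
  have := hasDerivAt_fnl l hf ⟨z, hz⟩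
  exact this.differentiableAt.differentiableWithinAt

theorem analyticAt_fnl (l : X Γ → ℂ) {w : ℤ} {f : ℍ → ℂ} (hf : f ∈ MF Γ w) (τ : ℍ) :
    AnalyticAt ℂ (fnl l w f ∘ ofComplex) ↑τ :=
  (differentiableOn_fnl l hf).analyticAt (upperHalfPlaneSet_mem_nhds τ)

theorem analyticAt_E2 (τ : ℍ) : AnalyticAt ℂ (EisensteinSeries.E2 ∘ ofComplex) ↑τ :=
  (UpperHalfPlane.mdifferentiable_iff.mp E2_mdifferentiable).analyticAt
    (upperHalfPlaneSet_mem_nhds τ)

theorem deriv_fnl_eventuallyEq (l : X Γ → ℂ) {w : ℤ} {f : ℍ → ℂ} (hf : f ∈ MF Γ w) (τ : ℍ) :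
    deriv (fnl l w f ∘ ofComplex) =ᶠ[𝓝 (τ : ℂ)]
      (fun _ => 2 * Real.pi * Complex.I) *
        ((fnl l (w + 2) (Derivative.serreDerivative (w : ℂ) f) ∘ ofComplex)
        + ((fun _ => (w : ℂ) * 12⁻¹) * (EisensteinSeries.E2 ∘ ofComplex)) *
          (fnl l w f ∘ ofComplex)) := by
  filter_upwards [upperHalfPlaneSet_mem_nhds τ] with z hz
  have := (hasDerivAt_fnl l hf ⟨z, hz⟩).deriv
  rw [this]
  simp only [Pi.mul_apply, Pi.add_apply, Function.comp_apply, ofComplex_apply_of_im_pos hz]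

theorem le_analyticOrderAt_fnl (τ₀ : ℍ) (l : X Γ → ℂ)
    (h : ∀ (w : ℤ), ∀ f ∈ MF Γ w, ∑ x, l x * vec Γ w f x τ₀ = 0) (n : ℕ) :
    ∀ (w : ℤ), ∀ f ∈ MF Γ w, (n : ℕ∞) ≤ analyticOrderAt (fnl l w f ∘ ofComplex) ↑τ₀ := by
  induction n with
  | zero => intro w f _; simp
  | succ n ih =>
    intro w f hf
    have hz : (fnl l w f ∘ ofComplex) ↑τ₀ = 0 := by
      simp only [Function.comp_apply, ofComplex_apply]
      exact h w f hf
    have key := (analyticOrderAt_deriv_ge_iff (analyticAt_fnl l hf τ₀) hz (n := n)).mp ?_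
    · simpa using key
    rw [analyticOrderAt_congr (deriv_fnl_eventuallyEq l hf τ₀)]
    have hs := serre_mem_MF hf
    have a1 := analyticAt_fnl l hf τ₀
    have a2 := analyticAt_fnl l hs τ₀
    have a3 : AnalyticAt ℂ ((fun _ : ℂ => (w : ℂ) * 12⁻¹) * (EisensteinSeries.E2 ∘ ofComplex))
        (τ₀ : ℂ) :=
      analyticAt_const.mul (analyticAt_E2 τ₀)
    rw [analyticOrderAt_mul analyticAt_const (a2.add (a3.mul a1))]
    refine le_trans ?_ le_add_self
    refine le_trans (le_min (ih _ _ hs) ?_) le_analyticOrderAt_add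
    rw [analyticOrderAt_mul a3 a1]
    exact le_trans (ih _ _ hf) le_add_self

end Functional

/-- propagation: a linear functional killing all forms at one point kills them everywhere
(order-of-vanishing argument with `hasDerivAt_vec` + identity theorem). -/
theorem functional_vanishes {Γ : Subgroup SL(2, ℤ)} [Γ.FiniteIndex] (τ₀ : ℍ) (l : X Γ → ℂ)
    (h : ∀ (w : ℤ), ∀ f ∈ MF Γ w, ∑ x, l x * vec Γ w f x τ₀ = 0) :
    ∀ (w : ℤ), ∀ f ∈ MF Γ w, ∀ τ : ℍ, ∑ x, l x * vec Γ w f x τ = 0 := by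
  intro w f hf τ
  have htop : analyticOrderAt (fnl l w f ∘ ofComplex) ↑τ₀ = ⊤ :=
    ENat.eq_top_iff_forall_ge.mpr fun n => le_analyticOrderAt_fnl τ₀ l h n w f hf
  rw [analyticOrderAt_eq_top] at htop
  have hopen : IsOpen {z : ℂ | 0 < z.im} := isOpen_lt continuous_const Complex.continuous_im
  have han : AnalyticOnNhd ℂ (fnl l w f ∘ ofComplex) {z : ℂ | 0 < z.im} :=
    (differentiableOn_fnl l hf).analyticOnNhd hopen
  have hconv : IsPreconnected {z : ℂ | 0 < z.im} :=
    (convex_halfSpace_im_gt 0).isPreconnected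
  have := han.eqOn_zero_of_preconnected_of_eventuallyEq_zero hconv τ₀.im_pos htop τ.im_pos
  simpa [fnl] using this

theorem global_generation (N : ℕ) [NeZero N] (τ₀ : ℍ) (l : X (Gamma0 N) → ℂ)
    (h : ∀ (w : ℤ), ∀ f ∈ MF (Gamma0 N) w, ∑ x, l x * vec (Gamma0 N) w f x τ₀ = 0) : l = 0 := by
  classical
  obtain ⟨w, f, c, hc, hf, hlim, hlim0⟩ := exists_separating_form N
  have hinv : ∀ γ ∈ Gamma0 N, f ∣[w] γ = f := hf.2.1
  have hall := functional_vanishes τ₀ l h w f hf
  funext x₀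
  induction x₀ using QuotientGroup.induction_on with
  | H g =>
  -- translate by `g`
  have h1 : ∀ τ : ℍ, ∑ x, l x * vec (Gamma0 N) w f (g⁻¹ • x) τ = 0 := by
    intro τ
    have := hall (g • τ)
    simp only [vec_smul_apply hinv] at this
    have hd : denom g τ ^ w ≠ 0 := zpow_ne_zero _ (denom_ne_zero _ _)
    have e : ∑ x, l x * (denom g τ ^ w * vec (Gamma0 N) w f (g⁻¹ • x) τ) =
        denom g τ ^ w * ∑ x, l x * vec (Gamma0 N) w f (g⁻¹ • x) τ := by
      rw [Finset.mul_sum]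
      exact Finset.sum_congr rfl fun x _ => by ring
    rw [e] at this
    exact (mul_eq_zero.mp this).resolve_left hd
  -- limits of the translates
  have hl : ∀ y : X (Gamma0 N), Tendsto (vec (Gamma0 N) w f y) atImInfty
      (𝓝 (if y = (QuotientGroup.mk 1 : X (Gamma0 N)) then c else 0)) := by
    intro y
    induction y using QuotientGroup.induction_on with
    | H a =>
    rw [vec_mk hinv]
    by_cases ha : a ∈ Gamma0 N
    · have : (QuotientGroup.mk a : X (Gamma0 N)) = QuotientGroup.mk 1 := by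
        rw [QuotientGroup.eq]
        simpa using ha
      rw [if_pos this, hinv _ (inv_mem ha)]
      exact hlim
    · have : (QuotientGroup.mk a : X (Gamma0 N)) ≠ QuotientGroup.mk 1 := by
        rw [Ne, QuotientGroup.eq]
        simpa using ha
      rw [if_neg this]
      exact hlim0 _ (fun h' => ha (by simpa using inv_mem h'))
  have h2 : Tendsto (fun τ : ℍ => ∑ x, l x * vec (Gamma0 N) w f (g⁻¹ • x) τ) atImInfty
      (𝓝 (∑ x, l x * (if g⁻¹ • x = (QuotientGroup.mk 1 : X (Gamma0 N)) then c else 0))) :=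
    tendsto_finsetSum _ fun x _ => (hl _).const_mul _
  have h3 : (∑ x, l x * (if g⁻¹ • x = (QuotientGroup.mk 1 : X (Gamma0 N)) then c else 0)) = 0 := by
    refine tendsto_nhds_unique h2 ?_
    simp only [h1]
    exact tendsto_const_nhds
  have h4 : ∀ x : X (Gamma0 N), (g⁻¹ • x = (QuotientGroup.mk 1 : X (Gamma0 N))) ↔
      x = QuotientGroup.mk g := by
    intro x
    rw [inv_smul_eq_iff]
    have : g • (QuotientGroup.mk 1 : X (Gamma0 N)) = QuotientGroup.mk g := by
      rw [MulAction.Quotient.smul_mk]; simp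
    rw [this]
  simp only [h4] at h3
  rw [Finset.sum_eq_single (QuotientGroup.mk g : X (Gamma0 N))] at h3
  · simpa [hc] using h3
  · intro b _ hb; simp [hb]
  · intro hb; exact absurd (Finset.mem_univ _) hb

end Fermat.Agent.S21
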