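import Fermat.Agent.S21.HomBasis
import Fermat.Agent.S21.GlobalGen

/-! # S21 module CRAMER: the homogeneous basis has exactly `[SL(2,ℤ):Γ]` elements and its matrix of
translates is invertible everywhere. -/

set_option autoImplicit false

open UpperHalfPlane ModularForm CongruenceSubgroup Filter Topology
open scoped MatrixGroups ModularForm Manifold

namespace Fermat.Agent.S21

/-- holomorphic functions on `ℍ` bounded at `i∞`, as a subalgebra of all functions -/
def HolBdd : Subalgebra ℂ (ℍ → ℂ) where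
  carrier := {f | MDiff f ∧ IsBoundedAtImInfty f}
  mul_mem' := by
    rintro f g ⟨hf1, hf2⟩ ⟨hg1, hg2⟩
    exact ⟨hf1.mul hg1, hf2.mul hg2⟩
  add_mem' := by
    rintro f g ⟨hf1, hf2⟩ ⟨hg1, hg2⟩
    exact ⟨hf1.add hg1, hf2.add hg2⟩
  algebraMap_mem' := by
    intro c
    refine ⟨mdifferentiable_const, ?_⟩
    exact const_boundedAtFilter _ c

theorem det_mem_HolBdd {n : Type} [Fintype n] [DecidableEq n] (M : Matrix n n (ℍ → ℂ))
    (h : ∀ i j, M i j ∈ HolBdd) : M.det ∈ HolBdd := by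
  rw [Matrix.det_apply]
  refine Subalgebra.sum_mem _ fun σ _ => ?_
  refine Subalgebra.zsmul_mem _ ?_ _ 
  exact Subalgebra.prod_mem _ fun i _ => h _ _

theorem det_apply_pt {n : Type} [Fintype n] [DecidableEq n] (M : Matrix n n (ℍ → ℂ)) (τ : ℍ) :
    M.det τ = (Matrix.of fun i j => M i j τ).det := by
  exact RingHom.map_det (Pi.evalRingHom (fun _ : ℍ => ℂ) τ) M


theorem prod_zpow_eq_zpow_sum {ι : Type} (s : Finset ι) (d : ℂ) (hd : d ≠ 0) (a : ι → ℤ) :
    ∏ j ∈ s, d ^ (a j) = d ^ (∑ j ∈ s, a j) := by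
  classical
  induction s using Finset.induction_on with
  | empty => simp
  | insert i s hi ih => rw [Finset.prod_insert hi, Finset.sum_insert hi, ih, zpow_add₀ hd]

/-- transformation law of a single determinant of translates -/
theorem det_vec_smul {Γ : Subgroup SL(2, ℤ)} [Γ.FiniteIndex] [DecidableEq (X Γ)]
    (a : X Γ → ℤ) (A : X Γ → ℍ → ℂ) (hA : ∀ j, A j ∈ MF Γ (a j)) (g : SL(2, ℤ)) (τ : ℍ) :
    (Matrix.of fun x j => vec Γ (a j) (A j) x (g • τ)).det =
      (Equiv.Perm.sign (MulAction.toPerm g⁻¹ : Equiv.Perm (X Γ)) : ℤ) * denom g τ ^ (∑ j, a j) *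
        (Matrix.of fun x j => vec Γ (a j) (A j) x τ).det := by
  have h1 : (Matrix.of fun x j => vec Γ (a j) (A j) x (g • τ)) =
      Matrix.of fun x j => denom g τ ^ (a j) *
        ((Matrix.of fun x j => vec Γ (a j) (A j) x τ).submatrix
          (MulAction.toPerm g⁻¹ : Equiv.Perm (X Γ)) id) x j := by
    ext x j
    simp only [Matrix.of_apply, Matrix.submatrix_apply, id, MulAction.toPerm_apply]
    exact vec_smul_apply (hA j).2.1 x g τ
  rw [h1, Matrix.det_mul_row, Matrix.det_permute, prod_zpow_eq_zpow_sum _ _ (denom_ne_zero g τ)]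
  ring

theorem detVec_mem_HolBdd {Γ : Subgroup SL(2, ℤ)} [Γ.FiniteIndex] [DecidableEq (X Γ)]
    (a : X Γ → ℤ) (A : X Γ → ℍ → ℂ) (hA : ∀ j, A j ∈ MF Γ (a j)) :
    (fun τ => (Matrix.of fun x j => vec Γ (a j) (A j) x τ).det) ∈ HolBdd := by
  have h := det_mem_HolBdd (Matrix.of fun x j => vec Γ (a j) (A j) x)
    (fun x j => ⟨vec_mdiff (hA j).1 _ _, vec_isBoundedAtImInfty (hA j) x⟩)
  convert h using 1
  ext τ
  rw [det_apply_pt]
  rfl

/-- The product of two "Wronskian-type" determinants is a level one modular form. -/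
theorem det_mul_det_mem {Γ : Subgroup SL(2, ℤ)} [Γ.FiniteIndex] [DecidableEq (X Γ)]
    (a b : X Γ → ℤ) (A B : X Γ → ℍ → ℂ)
    (hA : ∀ j, A j ∈ MF Γ (a j)) (hB : ∀ j, B j ∈ MF Γ (b j)) :
    (fun τ => (Matrix.of fun x j => vec Γ (a j) (A j) x τ).det *
      (Matrix.of fun x j => vec Γ (b j) (B j) x τ).det) ∈ MF ⊤ (∑ j, a j + ∑ j, b j) := by
  have hmem := HolBdd.mul_mem (detVec_mem_HolBdd a A hA) (detVec_mem_HolBdd b B hB)
  have hinv : ∀ γ : SL(2, ℤ), (fun τ => (Matrix.of fun x j => vec Γ (a j) (A j) x τ).det *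
      (Matrix.of fun x j => vec Γ (b j) (B j) x τ).det) ∣[∑ j, a j + ∑ j, b j] γ =
      (fun τ => (Matrix.of fun x j => vec Γ (a j) (A j) x τ).det *
      (Matrix.of fun x j => vec Γ (b j) (B j) x τ).det) := by
    intro γ
    ext τ
    rw [SL_slash_apply, det_vec_smul a A hA, det_vec_smul b B hB, zpow_neg,
      zpow_add₀ (denom_ne_zero γ τ)]
    have hd1 : denom γ τ ^ (∑ j, a j) ≠ 0 := zpow_ne_zero _ (denom_ne_zero γ τ)
    have hd2 : denom γ τ ^ (∑ j, b j) ≠ 0 := zpow_ne_zero _ (denom_ne_zero γ τ)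
    have hs : ((Equiv.Perm.sign (MulAction.toPerm γ⁻¹ : Equiv.Perm (X Γ)) : ℤ) : ℂ) *
        ((Equiv.Perm.sign (MulAction.toPerm γ⁻¹ : Equiv.Perm (X Γ)) : ℤ) : ℂ) = 1 := by
      rcases Int.units_eq_one_or (Equiv.Perm.sign (MulAction.toPerm γ⁻¹ : Equiv.Perm (X Γ))) with
        h | h <;> simp [h]
    field_simp
    linear_combination ((Matrix.of fun x j => vec Γ (a j) (A j) x τ).det *
      (Matrix.of fun x j => vec Γ (b j) (B j) x τ).det) * hs
  refine ⟨hmem.1, fun γ _ => hinv γ, fun δ => ?_⟩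
  rw [hinv δ]
  exact hmem.2


theorem vec_zero_fun {Γ : Subgroup SL(2, ℤ)} (k : ℤ) (x : X Γ) : vec Γ k 0 x = 0 := by
  simp [vec]

theorem vec_finset_sum {Γ : Subgroup SL(2, ℤ)} {ι : Type} (s : Finset ι) (k : ℤ)
    (f : ι → ℍ → ℂ) (x : X Γ) : vec Γ k (∑ i ∈ s, f i) x = ∑ i ∈ s, vec Γ k (f i) x := by
  classical
  induction s using Finset.induction_on with
  | empty => simp [vec_zero_fun]
  | insert i s hi ih => rw [Finset.sum_insert hi, Finset.sum_insert hi, vec_add, ih]

theorem vec_mul_levelOne_sub {Γ : Subgroup SL(2, ℤ)} {r : ℍ → ℂ} {w l : ℤ}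
    (hr : r ∈ MF ⊤ (w - l)) (f : ℍ → ℂ) (x : X Γ) : vec Γ w (r * f) x = r * vec Γ l f x := by
  have := vec_mul_levelOne (Γ := Γ) hr l f x
  rwa [sub_add_cancel] at this

theorem vec_linearCombination {Γ : Subgroup SL(2, ℤ)} {J : Type} (k : J → ℤ) (F : J → ℍ → ℂ)
    (w : ℤ) (r : J →₀ (ℍ → ℂ)) (hr : ∀ j, r j ∈ MF ⊤ (w - k j)) (x : X Γ) :
    vec Γ w (Finsupp.linearCombination (ℍ → ℂ) F r) x =
      ∑ j ∈ r.support, r j * vec Γ (k j) (F j) x := by
  rw [Finsupp.linearCombination_apply, Finsupp.sum, vec_finset_sum]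
  refine Finset.sum_congr rfl fun j _ => ?_
  rw [smul_eq_mul, vec_mul_levelOne_sub (hr j)]

/-- the vectors of translates of a generating family span `X → ℂ` at every point -/
theorem span_vec_eq_top {Γ : Subgroup SL(2, ℤ)} [Γ.FiniteIndex]
    (hgg : ∀ (τ₀ : ℍ) (l : X Γ → ℂ),
      (∀ (w : ℤ), ∀ f ∈ MF Γ w, ∑ x, l x * vec Γ w f x τ₀ = 0) → l = 0)
    {J : Type} (k : J → ℤ) (F : J → ℍ → ℂ)
    (hgen : ∀ (w : ℤ), ∀ f ∈ MF Γ w, ∃ r : J →₀ (ℍ → ℂ), (∀ j, r j ∈ MF ⊤ (w - k j)) ∧
        Finsupp.linearCombination (ℍ → ℂ) F r = f) (τ : ℍ) :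
    Submodule.span ℂ (Set.range fun j : J => fun x : X Γ => vec Γ (k j) (F j) x τ) = ⊤ := by
  classical
  by_contra hne
  obtain ⟨φ, hφ, hle⟩ := Submodule.exists_le_ker_of_lt_top _ (lt_top_iff_ne_top.mpr hne)
  apply hφ
  have hφv : ∀ v : X Γ → ℂ, φ v = ∑ x, φ (Pi.single x 1) * v x := by
    intro v
    rw [LinearMap.pi_apply_eq_sum_univ φ v]
    refine Finset.sum_congr rfl fun x _ => ?_
    rw [smul_eq_mul, mul_comm]
    congr 2
    ext y
    simp [Pi.single_apply, eq_comm]
  have hl : (fun x => φ (Pi.single x 1)) = 0 := by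
    apply hgg τ
    intro w f hf
    obtain ⟨r, hr, rfl⟩ := hgen w f hf
    rw [← hφv (fun x => vec Γ w (Finsupp.linearCombination (ℍ → ℂ) F r) x τ)]
    apply hle
    have : (fun x => vec Γ w (Finsupp.linearCombination (ℍ → ℂ) F r) x τ) =
        ∑ j ∈ r.support, r j τ • (fun x : X Γ => vec Γ (k j) (F j) x τ) := by
      ext x
      rw [vec_linearCombination k F w r hr]
      simp
    rw [this]
    exact Submodule.sum_mem _ fun j _ => Submodule.smul_mem _ _ (Submodule.subset_span ⟨j, rfl⟩)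
  ext x
  simpa using congrFun hl x


/-- Cramer step: a subfamily indexed by `X Γ` which is linearly independent at one point
exhausts a homogeneous basis. -/
theorem surjective_of_linearIndependent {Γ : Subgroup SL(2, ℤ)} [Γ.FiniteIndex] {J : Type}
    (k : J → ℤ) (F : J → ℍ → ℂ) (hmem : ∀ j, F j ∈ MF Γ (k j))
    (hind : ∀ (w : ℤ) (r : J →₀ (ℍ → ℂ)), (∀ j, r j ∈ MF ⊤ (w - k j)) →
        Finsupp.linearCombination (ℍ → ℂ) F r = 0 → r = 0)
    (e : X Γ → J) (τ₀ : ℍ)
    (hli : LinearIndependent ℂ (fun y : X Γ => fun x : X Γ => vec Γ (k (e y)) (F (e y)) x τ₀)) :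
    Function.Surjective e := by
  classical
  intro j'
  by_contra hj'
  push Not at hj'
  set Φ : ℍ → Matrix (X Γ) (X Γ) ℂ :=
    fun τ => Matrix.of fun x y => vec Γ (k (e y)) (F (e y)) x τ with hΦ
  set D : ℍ → ℂ := fun τ => (Φ τ).det with hD
  have hD0 : D τ₀ ≠ 0 := by
    have h1 : IsUnit (Φ τ₀) := Matrix.linearIndependent_cols_iff_isUnit.mp hli
    exact ((Matrix.isUnit_iff_isUnit_det _).mp h1).ne_zero
  set c : X Γ → ℍ → ℂ :=
    fun y τ => Matrix.cramer (Φ τ) (fun x => vec Γ (k j') (F j') x τ) y with hc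
  set w : ℤ := ∑ y, k (e y) + ∑ y, k (e y) + k j' with hw
  have hDD : D * D ∈ MF ⊤ (w - k j') := by
    have := det_mul_det_mem (fun y => k (e y)) (fun y => k (e y)) (fun y => F (e y))
      (fun y => F (e y)) (fun y => hmem _) (fun y => hmem _)
    have hw' : w - k j' = ∑ y, k (e y) + ∑ y, k (e y) := by rw [hw]; ring
    rw [hw']
    exact this
  have hDc : ∀ y, D * c y ∈ MF ⊤ (w - k (e y)) := by
    intro y
    have := det_mul_det_mem (fun y => k (e y)) (Function.update (fun y => k (e y)) y (k j'))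
      (fun y => F (e y)) (Function.update (fun y => F (e y)) y (F j')) (fun y => hmem _)
      (fun z => by
        by_cases hz : z = y
        · subst hz; simpa using hmem j'
        · simpa [Function.update_of_ne hz] using hmem (e z))
    have hw' : w - k (e y) = ∑ y, k (e y) + ∑ z, Function.update (fun y => k (e y)) y (k j') z := by
      rw [Finset.sum_update_of_mem (Finset.mem_univ y), Finset.sdiff_singleton_eq_erase,
        Finset.sum_erase_eq_sub (Finset.mem_univ y), hw]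
      ring
    rw [hw']
    convert this using 1
    ext τ
    simp only [Pi.mul_apply, hD, hc, Matrix.cramer_apply]
    congr 2
    ext x z
    by_cases hz : z = y
    · subst hz; simp [hΦ]
    · simp [hΦ, hz]
  have hrel : ∀ τ, ∑ y, F (e y) τ * c y τ = D τ * F j' τ := by
    intro τ
    have h1 := congrFun (Matrix.mulVec_cramer (Φ τ) (fun x => vec Γ (k j') (F j') x τ))
      (QuotientGroup.mk 1 : X Γ)
    simp only [Matrix.mulVec, dotProduct, Pi.smul_apply, smul_eq_mul] at h1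
    rw [vec_one (hmem j').2.1] at h1
    rw [← h1]
    refine Finset.sum_congr rfl fun y _ => ?_
    simp only [hΦ, Matrix.of_apply, hc]
    rw [vec_one (hmem (e y)).2.1]
  let r : J →₀ (ℍ → ℂ) := ∑ y, Finsupp.single (e y) (D * c y) - Finsupp.single j' (D * D)
  have hr0 : r = 0 := by
    apply hind w
    · intro j
      simp only [r, Finsupp.coe_sub, Finsupp.coe_finsetSum, Pi.sub_apply, Finset.sum_apply]
      refine Submodule.sub_mem _ (Submodule.sum_mem _ fun y _ => ?_) ?_
      · by_cases h : e y = j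
        · subst h; simpa using hDc y
        · simp [Finsupp.single_eq_of_ne' h]
      · by_cases h : j' = j
        · subst h; simpa using hDD
        · simp [Finsupp.single_eq_of_ne' h]
    · simp only [r, map_sub, map_sum, Finsupp.linearCombination_single]
      ext τ
      simp only [Pi.sub_apply, Finset.sum_apply, Pi.mul_apply, smul_eq_mul, Pi.zero_apply]
      have := hrel τ
      have h2 : ∑ y, D τ * c y τ * F (e y) τ = D τ * ∑ y, F (e y) τ * c y τ := by
        rw [Finset.mul_sum]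
        exact Finset.sum_congr rfl fun y _ => by ring
      rw [h2, this]
      ring
  have h3 : r j' = 0 := by rw [hr0]; rfl
  simp only [r, Finsupp.coe_sub, Finsupp.coe_finsetSum, Pi.sub_apply, Finset.sum_apply,
    Finsupp.single_eq_same] at h3
  rw [Finset.sum_eq_zero (fun y _ => Finsupp.single_eq_of_ne' (hj' y)), zero_sub, neg_eq_zero] at h3
  have h4 := congrFun h3 τ₀
  simp only [Pi.mul_apply, Pi.zero_apply, mul_self_eq_zero] at h4
  exact hD0 h4

/-- General form: global generation implies the existence of a `FreeBasis`. -/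
theorem nonempty_freeBasis_of_globalGen (Γ : Subgroup SL(2, ℤ)) [Γ.FiniteIndex]
    (hgg : ∀ (τ₀ : ℍ) (l : X Γ → ℂ),
      (∀ (w : ℤ), ∀ f ∈ MF Γ w, ∑ x, l x * vec Γ w f x τ₀ = 0) → l = 0) :
    Nonempty (FreeBasis Γ) := by
  classical
  obtain ⟨J, k, F, hmem, hgen, hind⟩ := exists_hom_basis Γ
  have hspan := span_vec_eq_top hgg k F hgen
  obtain ⟨κ, a, ha, hsp, hli⟩ := exists_linearIndependent' ℂ
    (fun j : J => fun x : X Γ => vec Γ (k j) (F j) x UpperHalfPlane.I)
  let b : Module.Basis κ ℂ (X Γ → ℂ) := Module.Basis.mk hli (by rw [hsp, hspan])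
  have : Fintype κ := FiniteDimensional.fintypeBasisIndex b
  have hcard : Fintype.card κ = Fintype.card (X Γ) := by
    rw [← Module.finrank_eq_card_basis b, Module.finrank_fintype_fun_eq_card]
  let ε : X Γ ≃ κ := (Fintype.equivOfCardEq hcard).symm
  let e : X Γ → J := a ∘ ε
  have hli' : LinearIndependent ℂ
      (fun y : X Γ => fun x : X Γ => vec Γ (k (e y)) (F (e y)) x UpperHalfPlane.I) :=
    hli.comp ε ε.injective
  have hsurj := surjective_of_linearIndependent k F hmem hind e UpperHalfPlane.I hli'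
  have hinj : Function.Injective e := ha.comp ε.injective
  let E : X Γ ≃ J := Equiv.ofBijective e ⟨hinj, hsurj⟩
  refine ⟨⟨fun y => k (e y), fun y => F (e y), fun y => hmem _, ?_, ?_⟩⟩
  · intro w f hf
    obtain ⟨r, hr, rfl⟩ := hgen w f hf
    refine ⟨fun y => r (e y), fun y => hr _, ?_⟩
    have : Fintype J := Fintype.ofEquiv _ E
    rw [Finsupp.linearCombination_apply, Finsupp.sum_fintype _ _ (by simp), ← E.sum_comp]
    rfl
  · intro τ
    apply linearIndependent_of_top_le_span_of_card_eq_finrank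
    · rw [← hspan τ]
      apply Submodule.span_mono
      rintro _ ⟨j, rfl⟩
      obtain ⟨y, rfl⟩ := hsurj j
      exact ⟨y, rfl⟩
    · simp

theorem nonempty_freeBasis (N : ℕ) [NeZero N] : Nonempty (FreeBasis (Gamma0 N)) :=
  nonempty_freeBasis_of_globalGen (Gamma0 N) (global_generation N)

end Fermat.Agent.S21
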