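import Fermat.Agent.S21.LevelOne
import Fermat.Agent.S21.CuspDual.Limit

/-! # S21 module CUSPDUAL: `Δ · Φ⁻¹` is a matrix of cusp forms. -/

set_option autoImplicit false

open UpperHalfPlane ModularForm CongruenceSubgroup Filter Topology
open scoped MatrixGroups ModularForm Manifold

namespace Fermat.Agent.S21

namespace CuspDual

theorem mdiff_inv {f : ℍ → ℂ} (hf : MDiff f) (h0 : ∀ τ, f τ ≠ 0) : MDiff (fun τ => (f τ)⁻¹) := by
  rw [UpperHalfPlane.mdifferentiable_iff] at hf ⊢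
  exact hf.inv fun z _ => h0 _

theorem mdiff_det {n : Type} [Fintype n] [DecidableEq n] (A : ℍ → Matrix n n ℂ)
    (hA : ∀ i j, MDiff (fun τ => A τ i j)) : MDiff (fun τ => (A τ).det) := by
  have h : (fun τ => (A τ).det) = ∑ σ : Equiv.Perm n,
      ((Equiv.Perm.sign σ : ℤ) : ℂ) • ∏ i, fun τ => A τ (σ i) i := by
    ext τ
    rw [Matrix.det_apply]
    simp [Finset.prod_apply, zsmul_eq_mul, Units.smul_def]
  rw [h]
  refine MDifferentiable.sum ?_
  intro σ _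
  refine MDifferentiable.const_smul _ ?_
  exact MDifferentiable.prod fun i _ => hA _ _

theorem mdiff_nonsing_inv {n : Type} [Fintype n] [DecidableEq n] (A : ℍ → Matrix n n ℂ)
    (hA : ∀ i j, MDiff (fun τ => A τ i j)) (hu : ∀ τ, IsUnit (A τ)) (i j : n) :
    MDiff (fun τ => (A τ)⁻¹ i j) := by
  have h : (fun τ => (A τ)⁻¹ i j) = fun τ => ((A τ).det)⁻¹ *
      ((A τ).updateRow j (Pi.single i 1)).det := by
    ext τ
    rw [Matrix.inv_def, Ring.inverse_eq_inv', Matrix.smul_apply, Matrix.adjugate_apply,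
      smul_eq_mul]
  rw [h]
  refine MDifferentiable.mul (mdiff_inv (mdiff_det A hA) fun τ => ?_) (mdiff_det _ ?_)
  · exact ((Matrix.isUnit_iff_isUnit_det _).mp (hu τ)).ne_zero
  · intro a b
    by_cases hab : a = j
    · subst hab
      simp only [Matrix.updateRow_self]
      exact mdifferentiable_const
    · simp only [Matrix.updateRow_ne hab]
      exact hA a b

variable {N : ℕ} [NeZero N] (B : FreeBasis (Gamma0 N))

theorem Phi_smul (g : SL(2, ℤ)) (τ : ℍ) (x j : X (Gamma0 N)) :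
    Phi B (g • τ) x j = denom g τ ^ (B.k j) * Phi B τ (g⁻¹ • x) j :=
  vec_smul_apply (mem_MF_iff.mp (B.mem j)).2.1 x g τ

theorem Phi_inv_smul [DecidableEq (X (Gamma0 N))] (g : SL(2, ℤ)) (τ : ℍ) (j x : X (Gamma0 N)) :
    (Phi B (g • τ))⁻¹ j x = denom g τ ^ (-(B.k j)) * (Phi B τ)⁻¹ j (g⁻¹ • x) := by
  have hd : denom g τ ≠ 0 := denom_ne_zero _ τ
  have h : (Phi B (g • τ))⁻¹ =
      Matrix.of fun j x => denom g τ ^ (-(B.k j)) * (Phi B τ)⁻¹ j (g⁻¹ • x) := by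
    apply Matrix.inv_eq_left_inv
    ext j i
    rw [Matrix.mul_apply]
    simp only [Matrix.of_apply, Phi_smul]
    have h1 := Equiv.sum_comp (MulAction.toPerm g⁻¹ : Equiv.Perm (X (Gamma0 N)))
      (fun y => denom g τ ^ (-(B.k j)) * (Phi B τ)⁻¹ j y * (denom g τ ^ (B.k i) * Phi B τ y i))
    simp only [MulAction.toPerm_apply] at h1
    rw [h1]
    have h2 : ∑ y, denom g τ ^ (-(B.k j)) * (Phi B τ)⁻¹ j y * (denom g τ ^ (B.k i) * Phi B τ y i)
        = denom g τ ^ (-(B.k j)) * denom g τ ^ (B.k i) * ((Phi B τ)⁻¹ * Phi B τ) j i := by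
      rw [Matrix.mul_apply, Finset.mul_sum]
      refine Finset.sum_congr rfl fun y _ => ?_
      ring
    rw [h2, Matrix.nonsing_inv_mul _ ((Matrix.isUnit_iff_isUnit_det _).mp (isUnit_Phi B τ))]
    by_cases hji : j = i
    · subst hji
      rw [Matrix.one_apply_eq, mul_one, ← zpow_add₀ hd]
      simp
    · rw [Matrix.one_apply_ne hji, mul_zero]
  rw [h, Matrix.of_apply]

theorem Dl_smul (g : SL(2, ℤ)) (τ : ℍ) : Dl (g • τ) = denom g τ ^ (12 : ℤ) * Dl τ := by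
  have hd : denom g τ ≠ 0 := denom_ne_zero _ τ
  have h := congrFun ((mem_CF_iff.mp Dl_mem).2.1 g (Subgroup.mem_top g)) τ
  rw [SL_slash_apply] at h
  rw [← h, mul_comm, mul_assoc, ← zpow_add₀ hd]
  simp

/-- the entries of `Δ · Φ⁻¹` -/
noncomputable def HH [DecidableEq (X (Gamma0 N))] (j x : X (Gamma0 N)) : ℍ → ℂ :=
  fun τ => Dl τ * (Phi B τ)⁻¹ j x

theorem HH_slash [DecidableEq (X (Gamma0 N))] (j x : X (Gamma0 N)) (g : SL(2, ℤ)) :
    (HH B j x) ∣[12 - B.k j] g = HH B j (g⁻¹ • x) := by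
  ext τ
  have hd : denom g τ ≠ 0 := denom_ne_zero _ τ
  rw [SL_slash_apply]
  unfold HH
  rw [Dl_smul, Phi_inv_smul]
  have h1 : denom g τ ^ (12 : ℤ) * denom g τ ^ (-(B.k j)) * denom g τ ^ (-(12 - B.k j)) = 1 := by
    rw [← zpow_add₀ hd, ← zpow_add₀ hd]
    have : (12 : ℤ) + -(B.k j) + -(12 - B.k j) = 0 := by ring
    rw [this, zpow_zero]
  linear_combination (Dl τ * (Phi B τ)⁻¹ j (g⁻¹ • x)) * h1

theorem HH_mdiff [DecidableEq (X (Gamma0 N))] (j x : X (Gamma0 N)) : MDiff (HH B j x) := by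
  refine MDifferentiable.mul mdiff_Dl (mdiff_nonsing_inv (Phi B) ?_ (isUnit_Phi B) j x)
  intro a b
  exact vec_mdiff (mem_MF_iff.mp (B.mem b)).1 _ a

theorem HH_zero [DecidableEq (X (Gamma0 N))] (j x : X (Gamma0 N)) :
    IsZeroAtImInfty (HH B j x) := by
  have h := Dl_smul_Phi_inv_tendsto B
  have h1 := (tendsto_pi_nhds.mp ((tendsto_pi_nhds.mp h) j)) x
  exact h1

theorem HH_mem [DecidableEq (X (Gamma0 N))] (j : X (Gamma0 N)) :
    HH B j (QuotientGroup.mk 1 : X (Gamma0 N)) ∈ CF (Gamma0 N) (12 - B.k j) := by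
  refine mem_CF_iff.mpr ⟨HH_mdiff B j _, fun γ hγ => ?_, fun δ => ?_⟩
  · rw [HH_slash]
    congr 1
    rw [MulAction.Quotient.smul_mk, QuotientGroup.eq]
    simpa using hγ
  · rw [HH_slash]
    exact HH_zero B j _

theorem vec_HH [DecidableEq (X (Gamma0 N))] (j x : X (Gamma0 N)) :
    vec (Gamma0 N) (12 - B.k j) (HH B j (QuotientGroup.mk 1 : X (Gamma0 N))) x = HH B j x := by
  unfold vec
  rw [HH_slash, inv_inv, MulAction.Quotient.smul_mk, smul_eq_mul, mul_one]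
  congr 1
  exact Quotient.out_eq x

end CuspDual

open CuspDual in
theorem exists_dual_cusp (N : ℕ) [NeZero N] (B : FreeBasis (Gamma0 N)) :
    ∃ G : X (Gamma0 N) → ℍ → ℂ, (∀ j, G j ∈ CF (Gamma0 N) (12 - B.k j)) ∧
      ∀ τ : ℍ, LinearIndependent ℂ
        (fun j : X (Gamma0 N) => fun x : X (Gamma0 N) => vec (Gamma0 N) (12 - B.k j) (G j) x τ) := by
  classical
  refine ⟨fun j => HH B j (QuotientGroup.mk 1 : X (Gamma0 N)), HH_mem B, fun τ => ?_⟩
  simp only [vec_HH]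
  have hu : IsUnit (Dl τ • (Phi B τ)⁻¹) := by
    have h1 : IsUnit ((Phi B τ)⁻¹) := (Matrix.isUnit_nonsing_inv_iff).mpr (isUnit_Phi B τ)
    rw [Matrix.isUnit_iff_isUnit_det] at h1 ⊢
    rw [Matrix.det_smul]
    exact ((Dl_ne_zero τ).isUnit.pow _).mul h1
  exact Matrix.linearIndependent_rows_iff_isUnit.mpr hu

end Fermat.Agent.S21
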