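import Fermat.Agent.S21.Basic

/-! # S21 module ELLIPTIC: evaluating a free basis at `i` and `ρ` diagonalises `S` and `U = ST` on
`X → ℂ`. -/

set_option autoImplicit false

open UpperHalfPlane ModularForm CongruenceSubgroup Filter Topology
open scoped MatrixGroups ModularForm Manifold

namespace Fermat.Agent.S21

namespace Elliptic

/-! ### linear algebra -/

/-- If a linearly independent family `v` of `#Y` vectors of `Y → ℂ` consists of eigenvectors of
`L` with eigenvalues `c j`, the kernel of `L` has dimension at most `#{j | c j = 0}`. -/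
theorem finrank_ker_le_of_eigen {Y : Type} [Fintype Y] (v : Y → Y → ℂ)
    (hv : LinearIndependent ℂ v) (L : (Y → ℂ) →ₗ[ℂ] (Y → ℂ)) (c : Y → ℂ)
    (hL : ∀ j, L (v j) = c j • v j) :
    Module.finrank ℂ (LinearMap.ker L) ≤ Nat.card {j : Y // c j = 0} := by
  classical
  have hcard : Fintype.card Y = Module.finrank ℂ (Y → ℂ) := by simp
  let b : Module.Basis Y ℂ (Y → ℂ) :=
    Module.Basis.mk hv (hv.span_eq_top_of_card_eq_finrank' hcard).ge
  have hb : ∀ j, b j = v j := fun j => by
    simp [b]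
  have hle : LinearMap.ker L ≤
      Submodule.span ℂ (Set.range (fun j : {j : Y // c j = 0} => v j)) := by
    intro a ha
    rw [LinearMap.mem_ker] at ha
    have hsum : a = ∑ j, b.repr a j • v j := by
      conv_lhs => rw [← b.sum_repr a]
      simp only [hb]
    have h0 : ∑ j, (b.repr a j * c j) • v j = 0 := by
      rw [hsum, map_sum] at ha
      rw [← ha]
      refine Finset.sum_congr rfl fun j _ => ?_
      rw [map_smul, hL, smul_smul]
    have h1 : ∀ j, b.repr a j * c j = 0 := by
      intro j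
      exact Fintype.linearIndependent_iff.mp hv _ h0 j
    rw [hsum]
    refine Submodule.sum_mem _ fun j _ => ?_
    by_cases hj : c j = 0
    · exact Submodule.smul_mem _ _ (Submodule.subset_span ⟨⟨j, hj⟩, rfl⟩)
    · have : b.repr a j = 0 := by
        rcases mul_eq_zero.mp (h1 j) with h | h
        · exact h
        · exact absurd h hj
      rw [this, zero_smul]
      exact Submodule.zero_mem _
  calc Module.finrank ℂ (LinearMap.ker L)
      ≤ Module.finrank ℂ
          (Submodule.span ℂ (Set.range (fun j : {j : Y // c j = 0} => v j))) :=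
        Submodule.finrank_mono hle
    _ ≤ Fintype.card {j : Y // c j = 0} := finrank_range_le_card _
    _ = Nat.card {j : Y // c j = 0} := (Nat.card_eq_fintype_card).symm

/-! ### roots of unity -/

theorem I_zpow_add_one_eq_zero {k : ℤ} (h : Complex.I ^ k + 1 = 0) : k % 4 = 2 := by
  have hk : k = 4 * (k / 4) + k % 4 := (Int.mul_ediv_add_emod k 4).symm
  have h4 : (Complex.I : ℂ) ^ (4 : ℤ) = 1 := by
    have : (Complex.I : ℂ) ^ (4 : ℕ) = 1 := Complex.I_pow_four
    exact_mod_cast this
  have hred : Complex.I ^ k = Complex.I ^ (k % 4) := by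
    conv_lhs => rw [hk]
    rw [zpow_add₀ Complex.I_ne_zero, zpow_mul, h4, one_zpow, one_mul]
  rw [hred] at h
  have h1 : 0 ≤ k % 4 := Int.emod_nonneg _ (by norm_num)
  have h2 : k % 4 < 4 := Int.emod_lt_of_pos _ (by norm_num)
  generalize k % 4 = r at h h1 h2 ⊢
  interval_cases r
  · exfalso
    norm_num at h
  · exfalso
    rw [zpow_one] at h
    have := congrArg Complex.im h
    simp at this
  · rfl
  · exfalso
    have h3 : (Complex.I : ℂ) ^ (3 : ℤ) = -Complex.I := by
      have : (Complex.I : ℂ) ^ (3 : ℕ) = -Complex.I := Complex.I_pow_three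
      exact_mod_cast this
    rw [h3] at h
    have := congrArg Complex.im h
    simp at this

theorem zpow_cyclotomic_three {z : ℂ} (hz : z ^ 2 = z - 1) {k : ℤ}
    (h : 1 + z ^ k + z ^ k * z ^ k = 0) : k % 6 = 2 ∨ k % 6 = 4 := by
  have hz0 : z ≠ 0 := by
    rintro rfl
    norm_num at hz
  have hz1 : z ≠ 1 := by
    rintro rfl
    norm_num at hz
  have hk : k = 6 * (k / 6) + k % 6 := (Int.mul_ediv_add_emod k 6).symm
  have h3' : z ^ (3 : ℕ) = -1 := by
    linear_combination (z + 1) * hz
  have h6 : z ^ (6 : ℤ) = 1 := by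
    have : z ^ (6 : ℕ) = 1 := by
      calc z ^ 6 = (z ^ 3) ^ 2 := by ring
        _ = 1 := by rw [h3']; ring
    exact_mod_cast this
  have hred : z ^ k = z ^ (k % 6) := by
    conv_lhs => rw [hk]
    rw [zpow_add₀ hz0, zpow_mul, h6, one_zpow, one_mul]
  rw [hred] at h
  have h1 : 0 ≤ k % 6 := Int.emod_nonneg _ (by norm_num)
  have h2 : k % 6 < 6 := Int.emod_lt_of_pos _ (by norm_num)
  generalize k % 6 = r at h h1 h2 ⊢
  interval_cases r
  · exfalso
    norm_num at h
  · exfalso
    rw [zpow_one] at h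
    have : 2 * z = 0 := by
      calc 2 * z = 1 + z + (z - 1) := by ring
        _ = 1 + z + z ^ 2 := by rw [hz]
        _ = 1 + z + z * z := by ring
        _ = 0 := h
    exact hz0 (by simpa using this)
  · left; rfl
  · exfalso
    have h3 : z ^ (3 : ℤ) = -1 := by exact_mod_cast h3'
    rw [h3] at h
    norm_num at h
  · right; rfl
  · exfalso
    have h5 : z ^ (5 : ℤ) = 1 - z := by
      have : z ^ (5 : ℕ) = 1 - z := by
        calc z ^ 5 = z ^ 3 * z ^ 2 := by ring
          _ = 1 - z := by rw [h3', hz]; ring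
      exact_mod_cast this
    rw [h5] at h
    have : 2 * (1 - z) = 0 := by
      calc 2 * (1 - z) = 1 + (1 - z) + (1 - 2 * z + (z - 1)) := by ring
        _ = 1 + (1 - z) + (1 - 2 * z + z ^ 2) := by rw [hz]
        _ = 1 + (1 - z) + (1 - z) * (1 - z) := by ring
        _ = 0 := h
    have h' : 1 - z = 0 := by simpa using this
    exact hz1 (sub_eq_zero.mp h').symm

/-! ### fixed points -/

theorem S_smul_I : ModularGroup.S • (UpperHalfPlane.I : ℍ) = UpperHalfPlane.I := by
  rw [UpperHalfPlane.ext_iff, modular_S_smul, UpperHalfPlane.coe_mk, UpperHalfPlane.coe_I]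
  rw [inv_neg, Complex.inv_I, neg_neg]

theorem Umat_smul_rho : Umat • (ρ : ℍ) = ρ := by
  unfold Umat
  rw [mul_smul, UpperHalfPlane.ext_iff, modular_S_smul, modular_T_smul, UpperHalfPlane.coe_mk,
    coe_vadd]
  have h := ρ_sq
  have hne : (-(((1 : ℝ) : ℂ) + (ρ : ℂ))) ≠ 0 := by
    intro h0
    have h1 : (ρ : ℂ) = -1 := by
      push_cast at h0
      linear_combination -h0
    rw [h1] at h
    norm_num at h
  symm
  refine eq_inv_of_mul_eq_one_left ?_
  push_cast
  linear_combination -h

theorem denom_Umat_rho : denom Umat (ρ : ℍ) = (ρ : ℂ) + 1 := by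
  rw [ModularGroup.denom_apply]
  have h10 : (Umat : SL(2, ℤ)) 1 0 = 1 := by
    simp [Umat, ModularGroup.coe_S, ModularGroup.coe_T, Matrix.SpecialLinearGroup.coe_mul,
      Matrix.mul_apply, Fin.sum_univ_two]
  have h11 : (Umat : SL(2, ℤ)) 1 1 = 1 := by
    simp [Umat, ModularGroup.coe_S, ModularGroup.coe_T, Matrix.SpecialLinearGroup.coe_mul,
      Matrix.mul_apply, Fin.sum_univ_two]
  rw [h10, h11]
  simp

variable {Γ : Subgroup SL(2, ℤ)}

/-- a translate vector evaluated at a fixed point `τ` of `g` is an eigenvector of `x ↦ g x` -/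
theorem vec_fixed_apply {k : ℤ} {f : ℍ → ℂ} (hf : ∀ γ ∈ Γ, f ∣[k] γ = f) (g : SL(2, ℤ)) (τ : ℍ)
    (hg : g • τ = τ) (x : X Γ) :
    vec Γ k f (g • x) τ = denom g τ ^ k * vec Γ k f x τ := by
  have h := vec_smul_apply hf (g • x) g τ
  rwa [hg, inv_smul_smul] at h

/-- precomposition with the action of `g` -/
def actMap (Γ : Subgroup SL(2, ℤ)) (g : SL(2, ℤ)) : (X Γ → ℂ) →ₗ[ℂ] (X Γ → ℂ) :=
  LinearMap.funLeft ℂ ℂ (fun x : X Γ => g • x)

@[simp] theorem actMap_apply (g : SL(2, ℤ)) (a : X Γ → ℂ) (x : X Γ) :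
    actMap Γ g a x = a (g • x) := rfl

end Elliptic

open Elliptic

variable {Γ : Subgroup SL(2, ℤ)} [Γ.FiniteIndex]

theorem finrank_Vminus_le (B : FreeBasis Γ) :
    Module.finrank ℂ (Vminus Γ) ≤ Nat.card {j : X Γ // B.k j % 4 = 2} := by
  classical
  set v : X Γ → X Γ → ℂ := fun j x => vec Γ (B.k j) (B.F j) x UpperHalfPlane.I with hv
  set L : (X Γ → ℂ) →ₗ[ℂ] (X Γ → ℂ) := actMap Γ ModularGroup.S + LinearMap.id with hLdef
  have hker : Vminus Γ = LinearMap.ker L := by
    ext a
    rw [LinearMap.mem_ker]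
    constructor
    · intro ha
      funext x
      exact ha x
    · intro ha x
      exact congrFun ha x
  have hL : ∀ j, L (v j) = (Complex.I ^ (B.k j) + 1) • v j := by
    intro j
    funext x
    have h := vec_fixed_apply (B.mem j).2.1 ModularGroup.S UpperHalfPlane.I S_smul_I x
    rw [ModularGroup.denom_S, UpperHalfPlane.coe_I] at h
    simp only [hLdef, hv, LinearMap.add_apply, LinearMap.id_apply, Pi.add_apply, actMap_apply,
      Pi.smul_apply, smul_eq_mul]
    rw [h]
    ring
  rw [hker]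
  refine (finrank_ker_le_of_eigen v (B.indep _) L _ hL).trans ?_
  refine Nat.card_le_card_of_injective
    (fun j => ⟨j.1, I_zpow_add_one_eq_zero j.2⟩) ?_
  intro a b hab
  exact Subtype.ext (congrArg (fun t => t.1) hab)

theorem finrank_Vzero_le (B : FreeBasis Γ) :
    Module.finrank ℂ (Vzero Γ) ≤ Nat.card {j : X Γ // B.k j % 6 = 2 ∨ B.k j % 6 = 4} := by
  classical
  set v : X Γ → X Γ → ℂ := fun j x => vec Γ (B.k j) (B.F j) x ρ with hv
  set L : (X Γ → ℂ) →ₗ[ℂ] (X Γ → ℂ) :=
    LinearMap.id + actMap Γ Umat + (actMap Γ Umat).comp (actMap Γ Umat) with hLdef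
  have hker : Vzero Γ = LinearMap.ker L := by
    ext a
    rw [LinearMap.mem_ker]
    constructor
    · intro ha
      funext x
      exact ha x
    · intro ha x
      exact congrFun ha x
  set z : ℂ := (ρ : ℂ) + 1 with hz
  have hz2 : z ^ 2 = z - 1 := by
    have h := ρ_sq
    rw [hz]
    linear_combination h
  have hL : ∀ j, L (v j) = (1 + z ^ (B.k j) + z ^ (B.k j) * z ^ (B.k j)) • v j := by
    intro j
    funext x
    have h1 := vec_fixed_apply (B.mem j).2.1 Umat ρ Umat_smul_rho x
    have h2 := vec_fixed_apply (B.mem j).2.1 Umat ρ Umat_smul_rho (Umat • x)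
    rw [denom_Umat_rho] at h1 h2
    simp only [hLdef, hv, LinearMap.add_apply, LinearMap.id_apply, Pi.add_apply, actMap_apply,
      Pi.smul_apply, smul_eq_mul, LinearMap.comp_apply]
    rw [h2, h1]
    ring
  rw [hker]
  refine (finrank_ker_le_of_eigen v (B.indep _) L _ hL).trans ?_
  refine Nat.card_le_card_of_injective
    (fun j => ⟨j.1, zpow_cyclotomic_three hz2 j.2⟩) ?_
  intro a b hab
  exact Subtype.ext (congrArg (fun t => t.1) hab)

end Fermat.Agent.S21
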