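import Fermat.Agent.S21.Defs

/-! # S21 module GROUPBOUND: `dim Hom(Γ,ℂ) + [SL₂ℤ:Γ] ≤ dim V⁻ + dim V⁰ + 1` (pure group theory,
only uses `SL(2,ℤ) = ⟨S,T⟩`). -/

set_option autoImplicit false

open UpperHalfPlane ModularForm CongruenceSubgroup Filter Topology
open scoped MatrixGroups ModularForm Manifold

namespace Fermat.Agent.S21

namespace GroupBound

variable (Γ : Subgroup SL(2, ℤ))

theorem kap_mem (g : SL(2, ℤ)) (x : X Γ) :
    (Quotient.out (g • x))⁻¹ * g * Quotient.out x ∈ Γ := by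
  rw [mul_assoc, ← QuotientGroup.eq]
  have h1 : ((Quotient.out (g • x) : SL(2, ℤ)) : X Γ) = g • x := QuotientGroup.out_eq' _
  have h2 : ((g * Quotient.out x : SL(2, ℤ)) : X Γ) = g • x := by
    conv_rhs => rw [← QuotientGroup.out_eq' x]
    rfl
  rw [h1, h2]

/-- the `Γ`-valued cocycle attached to the section `Quotient.out`. -/
noncomputable def kap (g : SL(2, ℤ)) (x : X Γ) : Γ :=
  ⟨(Quotient.out (g • x))⁻¹ * g * Quotient.out x, kap_mem Γ g x⟩

theorem kap_mul (g h : SL(2, ℤ)) (x : X Γ) :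
    kap Γ (g * h) x = kap Γ g (h • x) * kap Γ h x := by
  apply Subtype.ext
  simp only [kap, mul_smul, Subgroup.coe_mul]
  group

/-- the modified cocycle `c_φ(g)(x) + v(gx) - v(x)`. -/
noncomputable def cc (φ : Additive Γ →+ ℂ) (v : X Γ → ℂ) (g : SL(2, ℤ)) (x : X Γ) : ℂ :=
  φ (Additive.ofMul (kap Γ g x)) + v (g • x) - v x

theorem cc_mul (φ : Additive Γ →+ ℂ) (v : X Γ → ℂ) (g h : SL(2, ℤ)) (x : X Γ) :
    cc Γ φ v (g * h) x = cc Γ φ v g (h • x) + cc Γ φ v h x := by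
  simp only [cc, kap_mul, ofMul_mul, map_add, mul_smul]
  ring

theorem cc_one (φ : Additive Γ →+ ℂ) (v : X Γ → ℂ) (x : X Γ) : cc Γ φ v 1 x = 0 := by
  have h := cc_mul Γ φ v 1 1 x
  simp only [mul_one, one_smul] at h
  linear_combination -h

theorem cc_inv (φ : Additive Γ →+ ℂ) (v : X Γ → ℂ) (g : SL(2, ℤ)) (x : X Γ) :
    cc Γ φ v g⁻¹ x = - cc Γ φ v g (g⁻¹ • x) := by
  have h := cc_mul Γ φ v g g⁻¹ x
  rw [mul_inv_cancel, cc_one] at h
  linear_combination -h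

/-- the subgroup on which the modified cocycle vanishes -/
def vanish (φ : Additive Γ →+ ℂ) (v : X Γ → ℂ) : Subgroup SL(2, ℤ) where
  carrier := {g | ∀ x, cc Γ φ v g x = 0}
  one_mem' := fun x => cc_one Γ φ v x
  mul_mem' := by
    intro g h hg hh x
    rw [cc_mul, hg, hh, add_zero]
  inv_mem' := by
    intro g hg x
    rw [cc_inv, hg, neg_zero]

theorem neg_one_smul' (hneg : (-1 : SL(2, ℤ)) ∈ Γ) (x : X Γ) : (-1 : SL(2, ℤ)) • x = x := by
  induction x using QuotientGroup.induction_on with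
  | H h =>
    change ((((-1 : SL(2, ℤ)) * h : SL(2, ℤ))) : X Γ) = (h : X Γ)
    rw [eq_comm, QuotientGroup.eq]
    have : h⁻¹ * (-1 * h) = -1 := by
      simp
    rw [this]
    exact hneg

theorem cc_neg_one (hneg : (-1 : SL(2, ℤ)) ∈ Γ) (φ : Additive Γ →+ ℂ) (v : X Γ → ℂ) (x : X Γ) :
    cc Γ φ v (-1) x = 0 := by
  have h := cc_mul Γ φ v (-1) (-1) x
  have h1 : (-1 : SL(2, ℤ)) * (-1) = 1 := by simp
  rw [h1, cc_one, neg_one_smul' Γ hneg] at h
  linear_combination -(1/2 : ℂ) * h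

theorem S_mul_S : ModularGroup.S * ModularGroup.S = (-1 : SL(2, ℤ)) := by
  ext i j
  fin_cases i <;> fin_cases j <;> rfl

theorem U_cube : Umat * (Umat * Umat) = (-1 : SL(2, ℤ)) := by
  ext i j
  fin_cases i <;> fin_cases j <;> rfl

theorem cc_S_mem (hneg : (-1 : SL(2, ℤ)) ∈ Γ) (φ : Additive Γ →+ ℂ) (v : X Γ → ℂ) :
    cc Γ φ v ModularGroup.S ∈ Vminus Γ := by
  intro x
  rw [← cc_mul, S_mul_S, cc_neg_one Γ hneg]

theorem cc_U_mem (hneg : (-1 : SL(2, ℤ)) ∈ Γ) (φ : Additive Γ →+ ℂ) (v : X Γ → ℂ) :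
    cc Γ φ v Umat ∈ Vzero Γ := by
  intro x
  have h := cc_neg_one Γ hneg φ v x
  rw [← U_cube, cc_mul, cc_mul, mul_smul] at h
  linear_combination h

/-- `(φ, v) ↦ cc φ v g` as a linear map. -/
noncomputable def ccLin (g : SL(2, ℤ)) :
    ((Additive Γ →+ ℂ) × (X Γ → ℂ)) →ₗ[ℂ] (X Γ → ℂ) where
  toFun p := cc Γ p.1 p.2 g
  map_add' p q := by
    funext x
    simp only [cc, Prod.fst_add, Prod.snd_add, AddMonoidHom.add_apply, Pi.add_apply]
    ring
  map_smul' c p := by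
    funext x
    simp only [cc, Prod.smul_fst, Prod.smul_snd, AddMonoidHom.smul_apply, Pi.smul_apply,
      smul_eq_mul, RingHom.id_apply]
    ring

/-- The map `Θ`. -/
noncomputable def Theta (hneg : (-1 : SL(2, ℤ)) ∈ Γ) :
    ((Additive Γ →+ ℂ) × (X Γ → ℂ)) →ₗ[ℂ] (Vminus Γ × Vzero Γ) :=
  LinearMap.prod
    ((ccLin Γ ModularGroup.S).codRestrict (Vminus Γ) (fun p => cc_S_mem Γ hneg p.1 p.2))
    ((ccLin Γ Umat).codRestrict (Vzero Γ) (fun p => cc_U_mem Γ hneg p.1 p.2))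

theorem vanish_eq_top (φ : Additive Γ →+ ℂ) (v : X Γ → ℂ)
    (hS : cc Γ φ v ModularGroup.S = 0) (hU : cc Γ φ v Umat = 0) : vanish Γ φ v = ⊤ := by
  have hSm : ModularGroup.S ∈ vanish Γ φ v := fun x => congrFun hS x
  have hUm : Umat ∈ vanish Γ φ v := fun x => congrFun hU x
  have hTm : ModularGroup.T ∈ vanish Γ φ v := by
    have : ModularGroup.T = ModularGroup.S⁻¹ * Umat := by
      simp [Umat]
    rw [this]
    exact (vanish Γ φ v).mul_mem ((vanish Γ φ v).inv_mem hSm) hUm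
  rw [eq_top_iff, ← SpecialLinearGroup.SL2Z_generators, Subgroup.closure_le]
  rintro g (rfl | rfl)
  · exact hSm
  · exact hTm

theorem ker_aux (φ : Additive Γ →+ ℂ) (v : X Γ → ℂ)
    (hS : cc Γ φ v ModularGroup.S = 0) (hU : cc Γ φ v Umat = 0) :
    φ = 0 ∧ ∀ x, v x = v ((1 : SL(2, ℤ)) : X Γ) := by
  have htop := vanish_eq_top Γ φ v hS hU
  have hall : ∀ g x, cc Γ φ v g x = 0 := fun g x => by
    have : g ∈ vanish Γ φ v := by rw [htop]; trivial
    exact this x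
  have hφ : φ = 0 := by
    refine AddMonoidHom.ext fun γ' => ?_
    obtain ⟨γ, rfl⟩ := Additive.ofMul.surjective γ'
    set x0 : X Γ := ((1 : SL(2, ℤ)) : X Γ) with hx0
    have hfix : (γ : SL(2, ℤ)) • x0 = x0 := by
      change ((((γ : SL(2, ℤ)) * 1 : SL(2, ℤ))) : X Γ) = ((1 : SL(2, ℤ)) : X Γ)
      rw [eq_comm, QuotientGroup.eq]
      simp
    have hs0 : (Quotient.out x0 : SL(2, ℤ)) ∈ Γ := by
      have h1 : ((Quotient.out x0 : SL(2, ℤ)) : X Γ) = ((1 : SL(2, ℤ)) : X Γ) :=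
        QuotientGroup.out_eq' _
      rw [eq_comm, QuotientGroup.eq] at h1
      simpa using h1
    have hk : kap Γ (γ : SL(2, ℤ)) x0 = (⟨_, hs0⟩ : Γ)⁻¹ * γ * ⟨_, hs0⟩ := by
      apply Subtype.ext
      simp only [kap, hfix, Subgroup.coe_mul, Subgroup.coe_inv]
    have h := hall (γ : SL(2, ℤ)) x0
    simp only [cc, hfix, hk, ofMul_mul, ofMul_inv, map_add, map_neg] at h
    simp only [AddMonoidHom.zero_apply]
    linear_combination h
  refine ⟨hφ, fun x => ?_⟩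
  induction x using QuotientGroup.induction_on with
  | H g =>
    have h := hall g ((1 : SL(2, ℤ)) : X Γ)
    have hg : g • (((1 : SL(2, ℤ)) : X Γ)) = (g : X Γ) := by
      change (((g * 1 : SL(2, ℤ))) : X Γ) = (g : X Γ)
      rw [mul_one]
    simp only [cc, hφ, AddMonoidHom.zero_apply, hg] at h
    linear_combination h

theorem Theta_eq_zero_iff (hneg : (-1 : SL(2, ℤ)) ∈ Γ) (p : (Additive Γ →+ ℂ) × (X Γ → ℂ)) :
    Theta Γ hneg p = 0 ↔ cc Γ p.1 p.2 ModularGroup.S = 0 ∧ cc Γ p.1 p.2 Umat = 0 := by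
  rw [Prod.ext_iff]
  simp only [Theta, LinearMap.prod_apply, Prod.fst_zero, Prod.snd_zero,
    Subtype.ext_iff, ZeroMemClass.coe_zero]
  rfl

/-- `φ ↦ Θ (φ, 0)` is injective. -/
theorem inj_aux (hneg : (-1 : SL(2, ℤ)) ∈ Γ) :
    Function.Injective ((Theta Γ hneg).comp (LinearMap.inl ℂ (Additive Γ →+ ℂ) (X Γ → ℂ))) := by
  rw [← LinearMap.ker_eq_bot, LinearMap.ker_eq_bot']
  intro φ hφ
  rw [LinearMap.comp_apply, Theta_eq_zero_iff] at hφ
  exact (ker_aux Γ _ _ hφ.1 hφ.2).1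

theorem ker_le (hneg : (-1 : SL(2, ℤ)) ∈ Γ) :
    LinearMap.ker (Theta Γ hneg) ≤
      Submodule.span ℂ {((0 : Additive Γ →+ ℂ), (fun _ => (1 : ℂ) : X Γ → ℂ))} := by
  intro p hp
  rw [LinearMap.mem_ker, Theta_eq_zero_iff] at hp
  obtain ⟨h1, h2⟩ := ker_aux Γ _ _ hp.1 hp.2
  rw [Submodule.mem_span_singleton]
  refine ⟨p.2 ((1 : SL(2, ℤ)) : X Γ), ?_⟩
  refine Prod.ext ?_ ?_
  · simp [h1]
  · funext x
    simp [h2 x]

end GroupBound

open GroupBound in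
theorem group_bound (Γ : Subgroup SL(2, ℤ)) [Γ.FiniteIndex] (hneg : (-1 : SL(2, ℤ)) ∈ Γ) :
    Module.Finite ℂ (Additive Γ →+ ℂ) ∧
      Module.finrank ℂ (Additive Γ →+ ℂ) + Nat.card (X Γ)
        ≤ Module.finrank ℂ (Vminus Γ) + Module.finrank ℂ (Vzero Γ) + 1 := by
  have hfin : Module.Finite ℂ (Additive Γ →+ ℂ) :=
    Module.Finite.of_injective _ (inj_aux Γ hneg)
  refine ⟨hfin, ?_⟩
  have h1 := LinearMap.finrank_range_add_finrank_ker (Theta Γ hneg)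
  have h2 : Module.finrank ℂ (LinearMap.range (Theta Γ hneg)) ≤
      Module.finrank ℂ (Vminus Γ × Vzero Γ) := Submodule.finrank_le _
  have h3 : Module.finrank ℂ (LinearMap.ker (Theta Γ hneg)) ≤ 1 := by
    refine (Submodule.finrank_mono (ker_le Γ hneg)).trans ?_
    refine (finrank_span_le_card _).trans ?_
    simp
  rw [Module.finrank_prod] at h1 h2
  rw [Module.finrank_fintype_fun_eq_card, ← Nat.card_eq_fintype_card] at h1
  omega

end Fermat.Agent.S21
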