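import Fermat.Agent.S21.Cramer
import Fermat.Agent.S21.Elliptic
import Fermat.Agent.S21.CuspDual
import Fermat.Agent.S21.GroupBound

/-! # S21 module COUNT: `dim Hom(Γ₀(N),ℂ) ≤ dim M₂ + dim S₂`. -/

set_option autoImplicit false

open UpperHalfPlane ModularForm CongruenceSubgroup Filter Topology
open scoped MatrixGroups ModularForm Manifold

namespace Fermat.Agent.S21

namespace Count

variable {Γ : Subgroup SL(2, ℤ)}

/-- evaluation of all translates at a point, as a linear map -/
noncomputable def evalVec (Γ : Subgroup SL(2, ℤ)) (k : ℤ) (τ : ℍ) : (ℍ → ℂ) →ₗ[ℂ] (X Γ → ℂ) where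
  toFun f := fun x => vec Γ k f x τ
  map_add' f g := by
    funext x
    simp only [vec_add, Pi.add_apply]
  map_smul' c f := by
    funext x
    simp only [vec_smul, Pi.smul_apply, RingHom.id_apply]

theorem evalVec_apply (k : ℤ) (τ : ℍ) (f : ℍ → ℂ) (x : X Γ) :
    evalVec Γ k τ f x = vec Γ k f x τ := rfl

/-- a family of functions whose vectors of translates are independent consists of nonzero
functions -/
theorem ne_zero_of_indep {J : Type} (k : J → ℤ) (F : J → ℍ → ℂ) (τ : ℍ)
    (h : LinearIndependent ℂ (fun j : J => fun x : X Γ => vec Γ (k j) (F j) x τ)) (j : J) :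
    F j ≠ 0 := by
  intro h0
  apply h.ne_zero j
  have : (fun x : X Γ => vec Γ (k j) (F j) x τ) = evalVec Γ (k j) τ (F j) := rfl
  rw [this, h0, map_zero]

/-- sub-family of constant weight `w` is linearly independent as a family of functions -/
theorem linearIndependent_weight {J : Type} (k : J → ℤ) (F : J → ℍ → ℂ) (τ : ℍ)
    (h : LinearIndependent ℂ (fun j : J => fun x : X Γ => vec Γ (k j) (F j) x τ)) (w : ℤ) :
    LinearIndependent ℂ (fun j : {j : J // k j = w} => F j.1) := by
  have h1 : LinearIndependent ℂ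
      (fun j : {j : J // k j = w} => fun x : X Γ => vec Γ (k j.1) (F j.1) x τ) :=
    h.comp (fun j : {j : J // k j = w} => j.1) Subtype.val_injective
  have h2 : (fun j : {j : J // k j = w} => fun x : X Γ => vec Γ (k j.1) (F j.1) x τ)
      = (evalVec Γ w τ) ∘ (fun j : {j : J // k j = w} => F j.1) := by
    funext j
    simp only [Function.comp_apply]
    funext x
    rw [evalVec_apply, j.2]
  rw [h2] at h1
  exact LinearIndependent.of_comp _ h1

/-- cardinality bound from an independent family in a finite dimensional submodule -/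
theorem card_le_finrank {J : Type} [Finite J] (k : J → ℤ) (F : J → ℍ → ℂ) (τ : ℍ)
    (h : LinearIndependent ℂ (fun j : J => fun x : X Γ => vec Γ (k j) (F j) x τ)) (w : ℤ)
    (M : Submodule ℂ (ℍ → ℂ)) [Module.Finite ℂ M] (hM : ∀ j, k j = w → F j ∈ M) :
    Nat.card {j : J // k j = w} ≤ Module.finrank ℂ M := by
  classical
  have : Fintype {j : J // k j = w} := Fintype.ofFinite _
  have h1 := linearIndependent_weight k F τ h w
  have h2 : LinearIndependent ℂ (fun j : {j : J // k j = w} => (⟨F j.1, hM j.1 j.2⟩ : M)) := by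
    apply LinearIndependent.of_comp M.subtype
    exact h1
  rw [Nat.card_eq_fintype_card]
  exact h2.fintype_card_le_finrank

end Count

open _root_.Fermat.Agent.S21.Count

section

variable (N : ℕ) [NeZero N]

theorem Count.weights (B : FreeBasis (Gamma0 N)) (j : X (Gamma0 N)) :
    B.k j = 0 ∨ B.k j = 2 ∨ B.k j = 4 ∨ B.k j = 6 ∨ B.k j = 8 ∨ B.k j = 10 := by
  obtain ⟨G, hG, hGi⟩ := exists_dual_cusp N B
  have hF0 : B.F j ≠ 0 := ne_zero_of_indep B.k B.F UpperHalfPlane.I (B.indep _) j
  have hG0 : G j ≠ 0 :=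
    ne_zero_of_indep (fun j => 12 - B.k j) G UpperHalfPlane.I (hGi _) j
  have h1 : 0 ≤ B.k j := by
    by_contra hneg
    push Not at hneg
    have := B.mem j
    rw [MF_eq_bot_of_neg hneg, Submodule.mem_bot] at this
    exact hF0 this
  have h2 : ¬ Odd (B.k j) := by
    intro hodd
    have := B.mem j
    rw [MF_eq_bot_of_odd (neg_one_mem_Gamma0 N) hodd, Submodule.mem_bot] at this
    exact hF0 this
  have h3 : 0 < 12 - B.k j := by
    by_contra hneg
    push Not at hneg
    have := hG j
    rw [CF_eq_bot_of_nonpos hneg, Submodule.mem_bot] at this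
    exact hG0 this
  rw [Int.not_odd_iff_even] at h2
  obtain ⟨m, hm⟩ := h2
  omega

theorem Count.exists_weight_zero (B : FreeBasis (Gamma0 N)) : ∃ j, B.k j = 0 := by
  by_contra hne
  push Not at hne
  obtain ⟨r, hr, hsum⟩ := B.gen 0 _ (const_mem_MF (Gamma0 N) 1)
  have hr0 : ∀ j, r j = 0 := by
    intro j
    have hj := hr j
    have hpos : (0 : ℤ) - B.k j < 0 := by
      rcases Count.weights N B j with h | h | h | h | h | h
      · exact absurd h (hne j)
      all_goals omega
    rw [MF_eq_bot_of_neg hpos, Submodule.mem_bot] at hj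
    exact hj
  have : (fun _ : ℍ => (1 : ℂ)) = 0 := by
    rw [hsum]
    apply Finset.sum_eq_zero
    intro j _
    rw [hr0 j, zero_mul]
  have h1 := congrFun this UpperHalfPlane.I
  simp at h1

theorem Count.MF_two_le_span (B : FreeBasis (Gamma0 N)) :
    MF (Gamma0 N) 2 ≤ Submodule.span ℂ (Set.range B.F) := by
  intro f hf
  obtain ⟨r, hr, hsum⟩ := B.gen 2 f hf
  rw [hsum]
  apply Submodule.sum_mem
  intro j _
  have hj := hr j
  rcases Count.weights N B j with h | h | h | h | h | h
  · rw [h, sub_zero, MFtop_two_eq_bot, Submodule.mem_bot] at hj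
    rw [hj, zero_mul]
    exact Submodule.zero_mem _
  · rw [h, sub_self] at hj
    obtain ⟨c, hc⟩ := MF_zero_eq_const hj
    have : r j * B.F j = c • B.F j := by
      rw [hc]
      funext τ
      simp
    rw [this]
    exact Submodule.smul_mem _ _ (Submodule.subset_span ⟨j, rfl⟩)
  all_goals
    have hneg : (2 : ℤ) - B.k j < 0 := by omega
    rw [MF_eq_bot_of_neg hneg, Submodule.mem_bot] at hj
    rw [hj, zero_mul]
    exact Submodule.zero_mem _

end

theorem finite_MF_two (N : ℕ) [NeZero N] : Module.Finite ℂ (MF (Gamma0 N) 2) := by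
  obtain ⟨B⟩ := nonempty_freeBasis N
  have : Module.Finite ℂ (Submodule.span ℂ (Set.range B.F)) :=
    FiniteDimensional.span_of_finite ℂ (Set.finite_range B.F)
  exact Submodule.finiteDimensional_of_le (Count.MF_two_le_span N B)

theorem finite_CF_two (N : ℕ) [NeZero N] : Module.Finite ℂ (CF (Gamma0 N) 2) := by
  have := finite_MF_two N
  exact Submodule.finiteDimensional_of_le (CF_le_MF (Gamma0 N) 2)

theorem finrank_hom_le (N : ℕ) [NeZero N] :
    Module.finrank ℂ (Additive (Gamma0 N) →+ ℂ)
      ≤ Module.finrank ℂ (MF (Gamma0 N) 2) + Module.finrank ℂ (CF (Gamma0 N) 2) := by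
  classical
  obtain ⟨B⟩ := nonempty_freeBasis N
  obtain ⟨G, hG, hGi⟩ := exists_dual_cusp N B
  have := finite_MF_two N
  have := finite_CF_two N
  -- the two lower bounds
  have hm2 : Nat.card {j : X (Gamma0 N) // B.k j = 2} ≤ Module.finrank ℂ (MF (Gamma0 N) 2) :=
    card_le_finrank B.k B.F UpperHalfPlane.I (B.indep _) 2 _ (fun j hj => hj ▸ B.mem j)
  have hm10' : Nat.card {j : X (Gamma0 N) // 12 - B.k j = 2}
      ≤ Module.finrank ℂ (CF (Gamma0 N) 2) :=
    card_le_finrank (fun j => 12 - B.k j) G UpperHalfPlane.I (hGi _) 2 _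
      (fun j hj => by have := hG j; rwa [hj] at this)
  -- the group theoretic bound
  obtain ⟨-, hgb⟩ := group_bound (Gamma0 N) (neg_one_mem_Gamma0 N)
  have hV1 := finrank_Vminus_le B
  have hV2 := finrank_Vzero_le B
  obtain ⟨j0, hj0⟩ := Count.exists_weight_zero N B
  -- counting
  simp only [Nat.card_eq_fintype_card, Fintype.card_subtype, Finset.card_filter] at hm2 hm10' hV1 hV2
  have hcard : Nat.card (X (Gamma0 N)) = ∑ _j : X (Gamma0 N), 1 := by
    rw [Nat.card_eq_fintype_card]; simp
  have hm0 : 1 ≤ ∑ j : X (Gamma0 N), if B.k j = 0 then 1 else 0 := by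
    calc 1 = (if B.k j0 = 0 then 1 else 0) := by rw [if_pos hj0]
      _ ≤ _ := Finset.single_le_sum (f := fun j => if B.k j = 0 then 1 else 0)
        (fun _ _ => Nat.zero_le _) (Finset.mem_univ j0)
  have hkey : (∑ j : X (Gamma0 N), if B.k j % 4 = 2 then 1 else 0)
      + (∑ j : X (Gamma0 N), if (B.k j % 6 = 2 ∨ B.k j % 6 = 4) then 1 else 0)
      + (∑ j : X (Gamma0 N), if B.k j = 0 then 1 else 0)
      = (∑ _j : X (Gamma0 N), 1) + (∑ j : X (Gamma0 N), if B.k j = 2 then 1 else 0)
        + (∑ j : X (Gamma0 N), if 12 - B.k j = 2 then 1 else 0) := by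
    rw [← Finset.sum_add_distrib, ← Finset.sum_add_distrib, ← Finset.sum_add_distrib,
      ← Finset.sum_add_distrib]
    apply Finset.sum_congr rfl
    intro j _
    rcases Count.weights N B j with h | h | h | h | h | h <;> rw [h] <;> norm_num
  omega

end Fermat.Agent.S21
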