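import Fermat.Agent.S21.PeriodMap

/-! # S21 module MAXPRINCIPLE: injectivity of `(u,v) ↦ P(u) + ι P(v)` on cusp forms. -/

set_option autoImplicit false

open UpperHalfPlane ModularForm CongruenceSubgroup Filter Topology
open scoped MatrixGroups ModularForm Manifold

namespace Fermat.Agent.S21

open ModularCurve ModularCurve.Period

namespace MaxPrinciple

/-- `z ↦ A (δ • z)` is holomorphic. -/
theorem mdiff_comp_smul {A : ℍ → ℂ} (hA : MDiff A) (δ : SL(2, ℤ)) :
    MDiff (fun z : ℍ => A (δ • z)) := by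
  have h := mdifferentiable_smul (g := (δ : GL (Fin 2) ℝ)) (by simp)
  exact hA.comp h

/-- `exp ∘ A` is holomorphic. -/
theorem mdiff_cexp {A : ℍ → ℂ} (hA : MDiff A) : MDiff (fun z : ℍ => Complex.exp (A z)) := by
  rw [UpperHalfPlane.mdifferentiable_iff] at hA ⊢
  exact hA.cexp

/-- periodicity on `ℍ` gives periodicity of `f ∘ ofComplex`. -/
theorem periodic_comp_ofComplex {f : ℍ → ℂ} {h : ℝ} (hper : ∀ z : ℍ, f (h +ᵥ z) = f z) :
    Function.Periodic (f ∘ ofComplex) h := by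
  intro w
  by_cases! hw : 0 < Complex.im w
  · have : 0 < Complex.im (w + h) := by simp [hw]
    simp only [Function.comp_apply, ofComplex_apply_of_im_pos this, ofComplex_apply_of_im_pos hw]
    rw [← hper ⟨w, hw⟩]
    congr 1
    ext
    simp [add_comm]
  · have : Complex.im (w + h) ≤ 0 := by simpa using hw
    simp [ofComplex_apply_of_im_nonpos this, ofComplex_apply_of_im_nonpos hw]

/-- If `exp ∘ A` is constant then so is `A`. -/
theorem const_of_cexp_const {A : ℍ → ℂ} (hA : MDiff A) {C : ℂ}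
    (hC : ∀ z, Complex.exp (A z) = C) : ∃ c : ℂ, ∀ z, A z = c := by
  rw [UpperHalfPlane.mdifferentiable_iff] at hA
  have hopen : IsOpen {z : ℂ | 0 < z.im} := isOpen_lt continuous_const Complex.continuous_im
  have hconn : IsPreconnected {z : ℂ | 0 < z.im} :=
    (convex_halfSpace_im_gt 0).isPreconnected
  have hder : Set.EqOn (fderiv ℂ (A ∘ ofComplex)) 0 {z : ℂ | 0 < z.im} := by
    intro z hz
    have hd : DifferentiableAt ℂ (A ∘ ofComplex) z := hA.differentiableAt (hopen.mem_nhds hz)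
    have h1 : HasDerivAt (fun w => Complex.exp ((A ∘ ofComplex) w))
        (Complex.exp ((A ∘ ofComplex) z) * deriv (A ∘ ofComplex) z) z := hd.hasDerivAt.cexp
    have h2 : HasDerivAt (fun w => Complex.exp ((A ∘ ofComplex) w)) 0 z := by
      have : (fun w => Complex.exp ((A ∘ ofComplex) w)) = fun _ => C := by
        funext w
        exact hC _
      rw [this]
      exact hasDerivAt_const z C
    have h3 := h1.unique h2
    have h4 : deriv (A ∘ ofComplex) z = 0 :=
      (mul_eq_zero.mp h3).resolve_left (Complex.exp_ne_zero _)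
    ext
    simp [h4]
  obtain ⟨a, ha⟩ := hopen.exists_is_const_of_fderiv_eq_zero hconn hA hder
  refine ⟨a, fun z => ?_⟩
  have := ha (z : ℂ) z.2
  simpa using this

/-! ### the reflection `z ↦ -conj z` -/

/-- The reflection `z ↦ -conj z` of the upper half plane. -/
def refl (z : ℍ) : ℍ := ⟨-(starRingEnd ℂ) (z : ℂ), by simpa using z.2⟩

@[simp] theorem coe_refl (z : ℍ) : ((refl z : ℍ) : ℂ) = -(starRingEnd ℂ) (z : ℂ) := rfl

@[simp] theorem refl_refl (z : ℍ) : refl (refl z) = z := by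
  ext
  simp

theorem im_refl (z : ℍ) : (refl z).im = z.im := by
  change (-(starRingEnd ℂ) (z : ℂ)).im = _
  simp

theorem refl_smul (δ : SL(2, ℤ)) (z : ℍ) : refl (δ • z) = jConjSL δ • refl z := by
  ext
  rw [coe_refl, coe_specialLinearGroup_apply, coe_specialLinearGroup_apply, coe_refl]
  simp only [jConjSL_coe, jConjMat_apply_zero_zero, jConjMat_apply_zero_one,
    jConjMat_apply_one_zero, jConjMat_apply_one_one, map_div₀, map_add, map_mul,
    Complex.conj_ofReal, map_neg, Complex.ofReal_neg]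
  rw [← neg_div]
  congr 1 <;> ring

theorem refl_vadd (h : ℝ) (z : ℍ) : refl (h +ᵥ z) = (-h) +ᵥ refl z := by
  ext
  simp [coe_vadd]
  ring

theorem tendsto_refl : Tendsto refl atImInfty atImInfty := by
  rw [atImInfty, tendsto_comap_iff]
  have : UpperHalfPlane.im ∘ refl = UpperHalfPlane.im := funext im_refl
  rw [this]
  exact tendsto_comap

/-- `z ↦ conj (V (-conj z))`. -/
noncomputable def starFun (V : ℍ → ℂ) : ℍ → ℂ := fun z => (starRingEnd ℂ) (V (refl z))

theorem isPrim_starFun {V v : ℍ → ℂ} (hV : IsPrim V v) :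
    IsPrim (starFun V) (fun z => -(starRingEnd ℂ) (v (refl z))) := by
  intro τ
  -- `G w = V (ofComplex (-w))` has derivative `-v (refl τ)` at `conj τ`
  have h0 : HasDerivAt (V ∘ ofComplex) (v (refl τ)) (-(starRingEnd ℂ) (τ : ℂ)) := hV (refl τ)
  have h1 : HasDerivAt (fun w : ℂ => (V ∘ ofComplex) (-w)) (-(v (refl τ)))
      ((starRingEnd ℂ) (τ : ℂ)) := by
    have := HasDerivAt.comp ((starRingEnd ℂ) (τ : ℂ)) h0 (hasDerivAt_neg ((starRingEnd ℂ) (τ : ℂ)))
    rw [mul_neg_one] at this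
    exact this
  have h2 := h1.conj_conj
  rw [Complex.conj_conj, map_neg] at h2
  have hopen : IsOpen {z : ℂ | 0 < z.im} := isOpen_lt continuous_const Complex.continuous_im
  refine h2.congr_of_eventuallyEq ?_
  filter_upwards [hopen.mem_nhds τ.2] with w hw
  have hw' : 0 < (-(starRingEnd ℂ) w).im := by simpa using hw
  simp only [Function.comp_apply, starFun, ofComplex_apply_of_im_pos hw,
    ofComplex_apply_of_im_pos hw']
  rfl

/-- behaviour at the cusps of a primitive of a cusp form -/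
theorem prim_cusp_behaviour (N : ℕ) [NeZero N] {u U : ℍ → ℂ} (hu : u ∈ CF (Gamma0 N) 2)
    (hU : IsPrim U u) (δ : SL(2, ℤ)) :
    (∃ L : ℂ, Tendsto (fun z : ℍ => U (δ • z)) atImInfty (𝓝 L)) ∧
      ∀ z : ℍ, U (δ • ((N : ℝ) +ᵥ z)) = U (δ • z) := by
  obtain ⟨hu1, hu2, hu3⟩ := hu
  have hN : (0 : ℝ) < N := by exact_mod_cast Nat.pos_of_ne_zero (NeZero.ne N)
  obtain ⟨F, hF, hFlim, hFper⟩ := exists_prim_of_periodic hN (slash_periodic N hu2 δ)
    (mdiff_slash hu1 2 δ) (hu3 δ).isBoundedAtImInfty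
  have hval : valueAtInfty (u ∣[(2 : ℤ)] δ) = 0 := (hu3 δ).valueAtInfty_eq_zero
  obtain ⟨c, hc⟩ := (hU.comp_smul δ).eq_add_const hF
  simp only [hval, zero_mul, sub_zero, add_zero] at hFlim hFper
  refine ⟨⟨c, ?_⟩, fun z => ?_⟩
  · have h1 : Tendsto (fun z => F z + c) atImInfty (𝓝 (0 + c)) := hFlim.add_const c
    rw [zero_add] at h1
    exact h1.congr fun z => (hc z).symm
  · rw [hc, hc, hFper]

theorem starFun_cusp_behaviour {V : ℍ → ℂ} {h : ℝ}
    (hV : ∀ δ : SL(2, ℤ), (∃ L : ℂ, Tendsto (fun z : ℍ => V (δ • z)) atImInfty (𝓝 L)) ∧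
      ∀ z : ℍ, V (δ • (h +ᵥ z)) = V (δ • z)) (δ : SL(2, ℤ)) :
    (∃ L : ℂ, Tendsto (fun z : ℍ => starFun V (δ • z)) atImInfty (𝓝 L)) ∧
      ∀ z : ℍ, starFun V (δ • (h +ᵥ z)) = starFun V (δ • z) := by
  obtain ⟨⟨L, hL⟩, hper⟩ := hV (jConjSL δ)
  refine ⟨⟨(starRingEnd ℂ) L, ?_⟩, fun z => ?_⟩
  · have h1 : Tendsto (fun z : ℍ => V (jConjSL δ • refl z)) atImInfty (𝓝 L) :=
      hL.comp tendsto_refl
    have h2 := (Complex.continuous_conj.tendsto L).comp h1
    refine h2.congr fun z => ?_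
    simp only [Function.comp_apply, starFun, refl_smul]
  · simp only [starFun, refl_smul, refl_vadd]
    congr 1
    have := hper ((-h) +ᵥ refl z)
    rw [← this]
    congr 2
    ext
    simp

/-- a constant function has zero derivative -/
theorem eq_zero_of_isPrim_const {F f : ℍ → ℂ} (hF : IsPrim F f) {c : ℂ} (hc : ∀ z, F z = c) :
    ∀ z, f z = 0 := by
  intro z
  have h1 : F ∘ ofComplex = fun _ => c := funext fun w => hc _
  have h2 := hF z
  rw [h1] at h2
  exact h2.unique (hasDerivAt_const _ _)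

end MaxPrinciple

open MaxPrinciple Function.Periodic in
/-- Maximum principle on `Γ\ℍ ∪ cusps`: a holomorphic `A` whose real part is `Γ`-invariant and such
that every `A ∘ δ` is `h`-periodic with a limit at `i∞` is constant. -/
theorem const_of_re_invariant {Γ : Subgroup SL(2, ℤ)} [Γ.FiniteIndex] {A : ℍ → ℂ} (hA : MDiff A)
    (hinv : ∀ γ ∈ Γ, ∀ z : ℍ, (A (γ • z)).re = (A z).re) {h : ℝ} (hh : 0 < h)
    (hper : ∀ (δ : SL(2, ℤ)) (z : ℍ), A (δ • (h +ᵥ z)) = A (δ • z))
    (hlim : ∀ δ : SL(2, ℤ), ∃ L : ℂ, Tendsto (fun z : ℍ => A (δ • z)) atImInfty (𝓝 L)) :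
    ∃ c : ℂ, ∀ z, A z = c := by
  classical
  -- the functions `E δ`
  let E : SL(2, ℤ) → ℍ → ℂ := fun δ z => Complex.exp (A (δ • z))
  have hEdiff : ∀ δ, MDiff (E δ) := fun δ => mdiff_cexp (mdiff_comp_smul hA δ)
  have hEper : ∀ δ, Function.Periodic (E δ ∘ ofComplex) h := fun δ =>
    periodic_comp_ofComplex fun z => by simp only [E, hper δ z]
  have hEbdd : ∀ δ, IsBoundedAtImInfty (E δ) := fun δ => by
    obtain ⟨L, hL⟩ := hlim δ
    have : Tendsto (E δ) atImInfty (𝓝 (Complex.exp L)) :=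
      (Complex.continuous_exp.tendsto L).comp hL
    exact this.isBigO_one ℝ
  have hcdiff : ∀ δ, DifferentiableOn ℂ (cuspFunction h (E δ)) (Metric.ball 0 1) := fun δ =>
    differentiableOn_cuspFunction_ball hh (hEper δ) (hEdiff δ) (hEbdd δ)
  have hceq : ∀ δ (z : ℍ), cuspFunction h (E δ) (qParam h z) = E δ z := fun δ z =>
    eq_cuspFunction z hh.ne' (hEper δ)
  -- radius
  set r : ℝ := Real.exp (-Real.pi / h) with hr
  have hr0 : 0 ≤ r := (Real.exp_pos _).le
  have hr1 : r < 1 := by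
    rw [hr, Real.exp_lt_one_iff]
    exact div_neg_of_neg_of_pos (neg_lt_zero.mpr Real.pi_pos) hh
  -- maxima on the closed ball for each coset
  let rep : X Γ → SL(2, ℤ) := fun x => (Quotient.out x)⁻¹
  have hmax : ∀ x : X Γ, ∃ q ∈ Metric.closedBall (0 : ℂ) r,
      IsMaxOn (fun q => ‖cuspFunction h (E (rep x)) q‖) (Metric.closedBall (0 : ℂ) r) q :=
    fun x => (isCompact_closedBall (0 : ℂ) r).exists_isMaxOn (Metric.nonempty_closedBall.mpr hr0)
      ((hcdiff (rep x)).continuousOn.mono (Metric.closedBall_subset_ball hr1)).norm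
  choose qm hqm_mem hqm_max using hmax
  obtain ⟨x₀, hx₀⟩ := Finite.exists_max (fun x : X Γ => ‖cuspFunction h (E (rep x)) (qm x)‖)
  -- the key bound
  have hkey : ∀ q ∈ Metric.ball (0 : ℂ) 1,
      ‖cuspFunction h (E (rep x₀)) q‖ ≤ ‖cuspFunction h (E (rep x₀)) (qm x₀)‖ := by
    intro q hq
    rcases eq_or_ne q 0 with rfl | hq0
    · exact hqm_max x₀ (Metric.mem_closedBall_self hr0)
    · have hqn : ‖q‖ < 1 := mem_ball_zero_iff.mp hq
      let w : ℍ := ⟨invQParam h q, im_invQParam_pos_of_norm_lt_one hh hqn hq0⟩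
      have hw : qParam h (w : ℂ) = q := qParam_right_inv hh.ne' hq0
      obtain ⟨γ, hγ⟩ := ModularGroup.exists_one_half_le_im_smul w
      -- decompose `rep x₀ * γ⁻¹ = g * rep x₁`
      let x₁ : X Γ := QuotientGroup.mk (γ * (rep x₀)⁻¹)
      have hg : (rep x₀ * γ⁻¹) * (rep x₁)⁻¹ ∈ Γ := by
        have h1 : (QuotientGroup.mk (Quotient.out x₁) : X Γ) = QuotientGroup.mk (γ * (rep x₀)⁻¹) :=
          Quotient.out_eq x₁
        have h2 := QuotientGroup.eq.mp h1
        have h3 : (rep x₀ * γ⁻¹) * (rep x₁)⁻¹ = ((Quotient.out x₁)⁻¹ * (γ * (rep x₀)⁻¹))⁻¹ := by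
          simp only [rep]
          group
        rw [h3]
        exact Γ.inv_mem h2
      have hsm : rep x₀ • w = ((rep x₀ * γ⁻¹) * (rep x₁)⁻¹) • (rep x₁ • (γ • w)) := by
        simp only [← mul_smul]
        congr 1
        group
      have hnorm : ‖E (rep x₀) w‖ = ‖E (rep x₁) (γ • w)‖ := by
        simp only [E, Complex.norm_exp]
        rw [hsm, hinv _ hg]
      rw [← hw, hceq, hnorm, ← hceq]
      refine le_trans (hqm_max x₁ ?_) (hx₀ x₁)
      rw [mem_closedBall_zero_iff, norm_qParam, hr, Real.exp_le_exp]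
      rw [div_le_div_iff_of_pos_right hh]
      have : (1 : ℝ) / 2 ≤ ((γ • w : ℍ) : ℂ).im := hγ
      nlinarith [Real.pi_pos]
  have hconst := Complex.eq_const_of_exists_max (hcdiff (rep x₀))
    (Metric.closedBall_subset_ball hr1 (hqm_mem x₀)) (fun q hq => hkey q hq)
  refine const_of_cexp_const hA (C := cuspFunction h (E (rep x₀)) (qm x₀)) fun z => ?_
  have h1 := hconst (x := qParam h (((rep x₀)⁻¹ • z : ℍ) : ℂ))
    (mem_ball_zero_iff.mpr (norm_qParam_lt_one hh ((rep x₀)⁻¹ • z).2))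
  rw [hceq] at h1
  simpa [E] using h1

open MaxPrinciple in
theorem perHom_injective_cusp (N : ℕ) [NeZero N] (u v : MF (Gamma0 N) 2)
    (hu : (u : ℍ → ℂ) ∈ CF (Gamma0 N) 2) (hv : (v : ℍ → ℂ) ∈ CF (Gamma0 N) 2)
    (h : perHom N u + charInvolution N ℂ ℂ (perHom N v) = 0) : u = 0 ∧ v = 0 := by
  obtain ⟨U, hU⟩ := exists_prim N u.2
  obtain ⟨V, hV⟩ := exists_prim N v.2
  have hN : (0 : ℝ) < N := by exact_mod_cast Nat.pos_of_ne_zero (NeZero.ne N)
  have hVs := isPrim_starFun hV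
  have hUc := prim_cusp_behaviour N hu hU
  have hVc := starFun_cusp_behaviour (prim_cusp_behaviour N hv hV)
  -- transformation laws
  have hrel : ∀ γ : Gamma0 N, perHom N u (Additive.ofMul γ)
      = -perHom N v (Additive.ofMul (jConjGamma0 N γ)) := by
    intro γ
    have := DFunLike.congr_fun h (Additive.ofMul γ)
    simp only [AddMonoidHom.add_apply, charInvolution_apply, toMul_ofMul,
      AddMonoidHom.zero_apply] at this
    exact eq_neg_of_add_eq_zero_left this
  have hUt : ∀ (γ : Gamma0 N) (z : ℍ), U ((γ : SL(2, ℤ)) • z)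
      = U z - perHom N v (Additive.ofMul (jConjGamma0 N γ)) := by
    intro γ z
    have := perHom_apply N u hU γ z
    rw [hrel] at this
    linear_combination -this
  have hVt : ∀ (γ : Gamma0 N) (z : ℍ), starFun V ((γ : SL(2, ℤ)) • z)
      = starFun V z + (starRingEnd ℂ) (perHom N v (Additive.ofMul (jConjGamma0 N γ))) := by
    intro γ z
    have := perHom_apply N v hV (jConjGamma0 N γ) (refl z)
    simp only [starFun, refl_smul]
    rw [this, jConjGamma0_coe, map_sub]
    ring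
  -- first combination
  obtain ⟨c₁, hc₁⟩ : ∃ c : ℂ, ∀ z, (U + starFun V) z = c := by
    refine const_of_re_invariant (Γ := Gamma0 N) (hU.add hVs).mdiff ?_ hN ?_ ?_
    · intro γ hγ z
      have h1 := hUt ⟨γ, hγ⟩ z
      have h2 := hVt ⟨γ, hγ⟩ z
      simp only at h1 h2
      simp only [Pi.add_apply, h1, h2, Complex.add_re, Complex.sub_re, Complex.conj_re]
      ring
    · intro δ z
      simp only [Pi.add_apply, (hUc δ).2 z, (hVc δ).2 z]
    · intro δ
      obtain ⟨L₁, hL₁⟩ := (hUc δ).1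
      obtain ⟨L₂, hL₂⟩ := (hVc δ).1
      exact ⟨L₁ + L₂, hL₁.add hL₂⟩
  obtain ⟨c₂, hc₂⟩ : ∃ c : ℂ, ∀ z, (Complex.I • (U + (-1 : ℂ) • starFun V)) z = c := by
    refine const_of_re_invariant (Γ := Gamma0 N)
      ((hU.add (hVs.smul (-1))).smul Complex.I).mdiff ?_ hN ?_ ?_
    · intro γ hγ z
      have h1 := hUt ⟨γ, hγ⟩ z
      have h2 := hVt ⟨γ, hγ⟩ z
      simp only at h1 h2
      simp only [Pi.add_apply, Pi.smul_apply, smul_eq_mul, h1, h2, Complex.mul_re, Complex.I_re,
        Complex.I_im, Complex.add_im, Complex.sub_im, Complex.mul_im, Complex.neg_re,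
        Complex.neg_im, Complex.one_re, Complex.one_im, Complex.conj_im, Complex.add_re,
        Complex.conj_re]
      ring
    · intro δ z
      simp only [Pi.add_apply, Pi.smul_apply, (hUc δ).2 z, (hVc δ).2 z]
    · intro δ
      obtain ⟨L₁, hL₁⟩ := (hUc δ).1
      obtain ⟨L₂, hL₂⟩ := (hVc δ).1
      exact ⟨Complex.I • (L₁ + (-1 : ℂ) • L₂), (hL₁.add (hL₂.const_smul (-1 : ℂ))).const_smul _⟩
  have hUconst : ∀ z, U z = (c₁ - Complex.I * c₂) / 2 := by
    intro z
    have h1 := hc₁ z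
    have h2 := hc₂ z
    simp only [Pi.add_apply, Pi.smul_apply, smul_eq_mul] at h1 h2
    rw [← h1, ← h2]
    linear_combination ((1 : ℂ) / 2 * (U z - starFun V z)) * Complex.I_sq
  have hVconst : ∀ z, starFun V z = (c₁ + Complex.I * c₂) / 2 := by
    intro z
    have h1 := hc₁ z
    have h2 := hc₂ z
    simp only [Pi.add_apply, Pi.smul_apply, smul_eq_mul] at h1 h2
    rw [← h1, ← h2]
    linear_combination (-(1 : ℂ) / 2 * (U z - starFun V z)) * Complex.I_sq
  have hu0 := eq_zero_of_isPrim_const hU hUconst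
  have hv0 := eq_zero_of_isPrim_const hVs hVconst
  refine ⟨Subtype.ext (funext hu0), Subtype.ext (funext fun z => ?_)⟩
  have := hv0 (refl z)
  simpa using this

end Fermat.Agent.S21
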