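import Fermat.Agent.S21.Defs

/-! # S21 module BASIC: elementary API for `MF`, `CF`, `vec`, bridge to Mathlib's bundled forms. -/

set_option autoImplicit false

open UpperHalfPlane ModularForm CongruenceSubgroup Filter Topology
open scoped MatrixGroups ModularForm Manifold

namespace Fermat.Agent.S21

variable {Γ : Subgroup SL(2, ℤ)} {k l : ℤ} {f g : ℍ → ℂ}

theorem CF_le_MF (Γ : Subgroup SL(2, ℤ)) (k : ℤ) : CF Γ k ≤ MF Γ k := by
  rintro f ⟨h1, h2, h3⟩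
  exact ⟨h1, h2, fun δ => (h3 δ).boundedAtFilter⟩

theorem MF_mono {Γ Γ' : Subgroup SL(2, ℤ)} (h : Γ ≤ Γ') (k : ℤ) : MF Γ' k ≤ MF Γ k := by
  rintro f ⟨h1, h2, h3⟩
  exact ⟨h1, fun γ hγ => h2 γ (h hγ), h3⟩

theorem mul_mem_MF (hf : f ∈ MF Γ k) (hg : g ∈ MF Γ l) : f * g ∈ MF Γ (k + l) := by
  obtain ⟨hf1, hf2, hf3⟩ := hf
  obtain ⟨hg1, hg2, hg3⟩ := hg
  refine ⟨hf1.mul hg1, fun γ hγ => by rw [mul_slash_SL2, hf2 γ hγ, hg2 γ hγ], fun δ => ?_⟩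
  rw [mul_slash_SL2]
  exact (hf3 δ).mul (hg3 δ)

theorem mul_mem_MF' {m : ℤ} (hf : f ∈ MF Γ k) (hg : g ∈ MF Γ l) (hm : k + l = m) :
    f * g ∈ MF Γ m := hm ▸ mul_mem_MF hf hg

theorem mul_mem_CF (hf : f ∈ MF Γ k) (hg : g ∈ CF Γ l) : f * g ∈ CF Γ (k + l) := by
  obtain ⟨hf1, hf2, hf3⟩ := hf
  obtain ⟨hg1, hg2, hg3⟩ := hg
  refine ⟨hf1.mul hg1, fun γ hγ => by rw [mul_slash_SL2, hf2 γ hγ, hg2 γ hγ], fun δ => ?_⟩
  rw [mul_slash_SL2]
  exact (hf3 δ).mul_zeroAtFilter (hg3 δ)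

theorem const_mem_MF (Γ : Subgroup SL(2, ℤ)) (c : ℂ) : (fun _ => c) ∈ MF Γ 0 := by
  have h : ∀ δ : SL(2, ℤ), (fun _ : ℍ => c) ∣[(0 : ℤ)] δ = fun _ => c := by
    intro δ
    ext τ
    simp [SL_slash_apply]
  refine ⟨mdifferentiable_const, fun γ _ => h γ, fun δ => ?_⟩
  rw [h]
  exact const_boundedAtFilter _ c

/-- slashing a form by any element of `SL(2,ℤ)` keeps it holomorphic -/
theorem mdiff_slash (hf : MDiff f) (k : ℤ) (δ : SL(2, ℤ)) : MDiff (f ∣[k] δ) := by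
  rw [SL_slash]
  exact hf.slash k _

/-! ### bridge to Mathlib -/

theorem mem_MF_iff_exists [Γ.FiniteIndex] :
    f ∈ MF Γ k ↔ ∃ F : ModularForm (Γ : Subgroup (GL (Fin 2) ℝ)) k, ⇑F = f := by
  constructor
  · rintro ⟨h1, h2, h3⟩
    refine ⟨{ toFun := f, slash_action_eq' := ?_, holo' := h1, bdd_at_cusps' := ?_ }, rfl⟩
    · rintro _ ⟨γ, hγ, rfl⟩
      exact h2 γ hγ
    · intro c hc
      rw [Subgroup.IsArithmetic.isCusp_iff_isCusp_SL2Z] at hc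
      rw [OnePoint.isBoundedAt_iff_forall_SL2Z hc]
      exact fun γ _ => h3 γ
  · rintro ⟨F, rfl⟩
    refine ⟨F.holo', fun γ hγ => ?_, fun δ => ModularFormClass.bdd_at_infty_slash F δ⟩
    exact F.slash_action_eq' _ ⟨γ, hγ, rfl⟩

theorem mem_CF_iff_exists [Γ.FiniteIndex] :
    f ∈ CF Γ k ↔ ∃ F : CuspForm (Γ : Subgroup (GL (Fin 2) ℝ)) k, ⇑F = f := by
  constructor
  · rintro ⟨h1, h2, h3⟩
    refine ⟨{ toFun := f, slash_action_eq' := ?_, holo' := h1, zero_at_cusps' := ?_ }, rfl⟩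
    · rintro _ ⟨γ, hγ, rfl⟩
      exact h2 γ hγ
    · intro c hc
      rw [Subgroup.IsArithmetic.isCusp_iff_isCusp_SL2Z] at hc
      rw [OnePoint.isZeroAt_iff_forall_SL2Z hc]
      exact fun γ _ => h3 γ
  · rintro ⟨F, rfl⟩
    refine ⟨F.holo', fun γ hγ => ?_, fun δ => CuspFormClass.zero_at_infty_slash F δ⟩
    exact F.slash_action_eq' _ ⟨γ, hγ, rfl⟩

theorem mem_MF_top_iff_exists : f ∈ MF ⊤ k ↔ ∃ F : ModularForm 𝒮ℒ k, ⇑F = f := by
  constructor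
  · rintro ⟨h1, h2, h3⟩
    refine ⟨{ toFun := f, slash_action_eq' := ?_, holo' := h1, bdd_at_cusps' := ?_ }, rfl⟩
    · rintro _ ⟨γ, rfl⟩
      exact h2 γ trivial
    · intro c hc
      rw [OnePoint.isBoundedAt_iff_forall_SL2Z hc]
      exact fun γ _ => h3 γ
  · rintro ⟨F, rfl⟩
    refine ⟨F.holo', fun γ _ => ?_, fun δ => ModularFormClass.bdd_at_infty_slash F δ⟩
    exact F.slash_action_eq' _ ⟨γ, rfl⟩

theorem mem_CF_top_iff_exists : f ∈ CF ⊤ k ↔ ∃ F : CuspForm 𝒮ℒ k, ⇑F = f := by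
  constructor
  · rintro ⟨h1, h2, h3⟩
    refine ⟨{ toFun := f, slash_action_eq' := ?_, holo' := h1, zero_at_cusps' := ?_ }, rfl⟩
    · rintro _ ⟨γ, rfl⟩
      exact h2 γ trivial
    · intro c hc
      rw [OnePoint.isZeroAt_iff_forall_SL2Z hc]
      exact fun γ _ => h3 γ
  · rintro ⟨F, rfl⟩
    refine ⟨F.holo', fun γ _ => ?_, fun δ => CuspFormClass.zero_at_infty_slash F δ⟩
    exact F.slash_action_eq' _ ⟨γ, rfl⟩

/-! ### vanishing -/

theorem MF_eq_bot_of_neg [Γ.FiniteIndex] (hk : k < 0) : MF Γ k = ⊥ := by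
  rw [eq_bot_iff]
  intro f hf
  obtain ⟨F, rfl⟩ := mem_MF_iff_exists.mp hf
  rw [ModularForm.isZero_of_neg_weight hk F]
  simp

theorem MF_zero_eq_const [Γ.FiniteIndex] (hf : f ∈ MF Γ 0) : ∃ c : ℂ, f = fun _ => c := by
  obtain ⟨F, rfl⟩ := mem_MF_iff_exists.mp hf
  obtain ⟨c, hc⟩ := ModularForm.eq_const_of_weight_zero F
  exact ⟨c, hc⟩

theorem MF_eq_bot_of_odd (hΓ : -1 ∈ Γ) (hk : Odd k) : MF Γ k = ⊥ := by
  rw [eq_bot_iff]
  rintro f ⟨-, h2, -⟩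
  have h := h2 _ hΓ
  rw [Submodule.mem_bot]
  ext τ
  have h' := congrFun h τ
  rw [SL_slash_apply] at h'
  have hd : denom ((-1 : SL(2, ℤ)) : GL (Fin 2) ℝ) τ = -1 := by
    simp [denom]
  have hs : (-1 : SL(2, ℤ)) • τ = τ := by
    simp
  rw [hd, hs, hk.neg.neg_one_zpow] at h'
  have : (2 : ℂ) * f τ = 0 := by linear_combination -h'
  simpa using this

theorem CF_eq_bot_of_nonpos [Γ.FiniteIndex] (hk : k ≤ 0) : CF Γ k = ⊥ := by
  rw [eq_bot_iff]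
  intro f hf
  rcases hk.lt_or_eq with hk | rfl
  · have := CF_le_MF Γ k hf
    rwa [MF_eq_bot_of_neg hk] at this
  · obtain ⟨c, rfl⟩ := MF_zero_eq_const (CF_le_MF Γ 0 hf)
    have h3 := hf.2.2 1
    rw [SlashAction.slash_one] at h3
    have h : Tendsto (fun _ : ℍ => c) atImInfty (𝓝 0) := h3
    have hc : c = 0 := tendsto_nhds_unique tendsto_const_nhds h
    rw [Submodule.mem_bot, hc]
    rfl

/-! ### translates -/

theorem vec_mk (hf : ∀ γ ∈ Γ, f ∣[k] γ = f) (h : SL(2, ℤ)) :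
    vec Γ k f (QuotientGroup.mk h : X Γ) = f ∣[k] h⁻¹ := by
  unfold vec
  obtain ⟨γ, hγ⟩ := QuotientGroup.mk_out_eq_mul Γ h
  have : (Quotient.out (QuotientGroup.mk h : X Γ)) = h * γ := hγ
  rw [this, mul_inv_rev, SlashAction.slash_mul, hf _ (Γ.inv_mem γ.2)]

theorem vec_one (hf : ∀ γ ∈ Γ, f ∣[k] γ = f) :
    vec Γ k f (QuotientGroup.mk 1 : X Γ) = f := by
  rw [vec_mk hf, inv_one, SlashAction.slash_one]

theorem vec_slash (hf : ∀ γ ∈ Γ, f ∣[k] γ = f) (x : X Γ) (g : SL(2, ℤ)) :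
    (vec Γ k f x) ∣[k] g = vec Γ k f (g⁻¹ • x) := by
  induction x using QuotientGroup.induction_on with
  | H h =>
    rw [vec_mk hf, ← SlashAction.slash_mul]
    have : g⁻¹ • (QuotientGroup.mk h : X Γ) = QuotientGroup.mk (g⁻¹ * h) := rfl
    rw [this, vec_mk hf, mul_inv_rev, inv_inv]

/-- pointwise form of `vec_slash` -/
theorem vec_smul_apply (hf : ∀ γ ∈ Γ, f ∣[k] γ = f) (x : X Γ) (g : SL(2, ℤ)) (τ : ℍ) :
    vec Γ k f x (g • τ) = denom g τ ^ k * vec Γ k f (g⁻¹ • x) τ := by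
  rw [← vec_slash hf, SL_slash_apply, mul_comm, mul_assoc, ← zpow_add₀ (denom_ne_zero _ _)]
  simp

theorem vec_add (k : ℤ) (f g : ℍ → ℂ) (x : X Γ) : vec Γ k (f + g) x = vec Γ k f x + vec Γ k g x := by
  unfold vec
  rw [SlashAction.add_slash]

theorem vec_smul (k : ℤ) (c : ℂ) (f : ℍ → ℂ) (x : X Γ) : vec Γ k (c • f) x = c • vec Γ k f x := by
  unfold vec
  rw [SL_smul_slash]

theorem vec_mul (k l : ℤ) (f g : ℍ → ℂ) (x : X Γ) :
    vec Γ (k + l) (f * g) x = vec Γ k f x * vec Γ l g x := by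
  unfold vec
  rw [mul_slash_SL2]

/-- a level one factor comes out of `vec` -/
theorem vec_mul_levelOne {r : ℍ → ℂ} (hr : r ∈ MF ⊤ k) (l : ℤ) (f : ℍ → ℂ) (x : X Γ) :
    vec Γ (k + l) (r * f) x = r * vec Γ l f x := by
  rw [vec_mul]
  congr 1
  exact hr.2.1 _ trivial

theorem vec_mdiff (hf : MDiff f) (k : ℤ) (x : X Γ) : MDiff (vec Γ k f x) :=
  mdiff_slash hf k _

theorem vec_isBoundedAtImInfty (hf : f ∈ MF Γ k) (x : X Γ) : IsBoundedAtImInfty (vec Γ k f x) :=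
  hf.2.2 _

theorem vec_isZeroAtImInfty (hf : f ∈ CF Γ k) (x : X Γ) : IsZeroAtImInfty (vec Γ k f x) :=
  hf.2.2 _

/-! ### `Γ₀(N)` -/

theorem neg_one_mem_Gamma0 (N : ℕ) : (-1 : SL(2, ℤ)) ∈ Gamma0 N := by
  simp [Gamma0_mem]

theorem T_mem_Gamma0 (N : ℕ) : ModularGroup.T ∈ Gamma0 N := by
  rw [Gamma0_mem]
  simp [ModularGroup.coe_T]

theorem conj_T_pow_mem_Gamma0 (N : ℕ) (δ : SL(2, ℤ)) :
    δ * ModularGroup.T ^ N * δ⁻¹ ∈ Gamma0 N := by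
  rw [Gamma0_mem]
  have hT : (ModularGroup.T ^ N : SL(2, ℤ)) = ModularGroup.T ^ (N : ℤ) := by simp
  rw [hT]
  have h : ((δ * ModularGroup.T ^ (N : ℤ) * δ⁻¹ : SL(2, ℤ)) 1 0 : ℤ)
      = - (N : ℤ) * (δ 1 0) ^ 2 := by
    rw [Matrix.SpecialLinearGroup.coe_mul, Matrix.SpecialLinearGroup.coe_mul,
      ModularGroup.coe_T_zpow, Matrix.SpecialLinearGroup.coe_inv, Matrix.adjugate_fin_two]
    simp [Matrix.mul_apply, Fin.sum_univ_two]
    ring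
  rw [h]
  simp

/-- every translate of a form on `Γ₀(N)` is `N`-periodic -/
theorem slash_periodic (N : ℕ) (hf : ∀ γ ∈ Gamma0 N, f ∣[k] γ = f) (δ : SL(2, ℤ)) :
    Function.Periodic ((f ∣[k] δ) ∘ ofComplex) (N : ℝ) := by
  have h1 : (f ∣[k] δ) ∣[k] (ModularGroup.T ^ (N : ℤ)) = f ∣[k] δ := by
    have := hf _ (conj_T_pow_mem_Gamma0 N δ)
    rw [SlashAction.slash_mul, SlashAction.slash_mul] at this
    have h2 := congrArg (fun F => F ∣[k] δ) this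
    simp only [← SlashAction.slash_mul] at h2
    rw [← SlashAction.slash_mul]
    simpa [mul_assoc] using h2
  intro z
  simp only [Function.comp_apply]
  by_cases hz : 0 < z.im
  · have hz' : 0 < (z + (N : ℝ)).im := by simpa using hz
    rw [ofComplex_apply_of_im_pos hz, ofComplex_apply_of_im_pos hz']
    have h3 := congrFun h1 ⟨z, hz⟩
    rw [SL_slash_apply, modular_T_zpow_smul] at h3
    have hd : denom ((ModularGroup.T ^ (N : ℤ) : SL(2, ℤ)) : GL (Fin 2) ℝ) (⟨z, hz⟩ : ℍ) = 1 := by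
      rw [ModularGroup.denom_apply, ModularGroup.coe_T_zpow]
      simp
    rw [hd] at h3
    simp only [one_zpow, mul_one] at h3
    rw [← h3]
    refine congrArg _ (UpperHalfPlane.ext ?_)
    simp [add_comm]
  · have hz' : ¬ 0 < (z + (N : ℝ)).im := by simpa using hz
    rw [ofComplex_apply_of_im_nonpos (not_lt.mp hz), ofComplex_apply_of_im_nonpos (not_lt.mp hz')]

end Fermat.Agent.S21
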