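import Fermat.Agent.S21.Basic

/-! # S21 module LEVELONE: facts on level one forms `MF ⊤ k` (all from Mathlib's level one theory). -/

set_option autoImplicit false

open UpperHalfPlane ModularForm CongruenceSubgroup Filter Topology
open scoped MatrixGroups ModularForm Manifold

namespace Fermat.Agent.S21

/-- `E₄` as a plain function -/
noncomputable def E4 : ℍ → ℂ := ⇑ModularForm.E₄
/-- `E₆` as a plain function -/
noncomputable def E6 : ℍ → ℂ := ⇑ModularForm.E₆
/-- `Δ` as a plain function -/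
noncomputable def Dl : ℍ → ℂ := ModularForm.discriminant

theorem E4_mem : E4 ∈ MF ⊤ 4 := mem_MF_top_iff_exists.mpr ⟨ModularForm.E₄, rfl⟩

theorem E6_mem : E6 ∈ MF ⊤ 6 := mem_MF_top_iff_exists.mpr ⟨ModularForm.E₆, rfl⟩

theorem Dl_mem : Dl ∈ CF ⊤ 12 := mem_CF_top_iff_exists.mpr ⟨CuspForm.discriminant, rfl⟩

theorem Dl_ne_zero (τ : ℍ) : Dl τ ≠ 0 := ModularForm.discriminant_ne_zero τ

theorem E4_cube_sub_E6_sq : E4 ^ 3 - E6 ^ 2 = (1728 : ℂ) • Dl := by
  funext z
  have h := ModularForm.discriminant_eq_E₄_cube_sub_E₆_sq z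
  simp only [Pi.sub_apply, Pi.pow_apply, Pi.smul_apply, smul_eq_mul, E4, E6, Dl]
  rw [h]
  ring

namespace LevelOne

/-- the decay function `|q|` -/
noncomputable abbrev qabs : ℍ → ℝ := fun τ : ℍ => Real.exp (-2 * Real.pi * τ.im)

theorem qabs_tendsto : Tendsto qabs atImInfty (𝓝 0) := by
  have h1 : Tendsto (fun τ : ℍ => τ.im) atImInfty atTop := tendsto_comap
  have h2 : Tendsto (fun τ : ℍ => -(2 * Real.pi * τ.im)) atImInfty atBot :=
    tendsto_neg_atTop_atBot.comp (h1.const_mul_atTop Real.two_pi_pos)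
  refine (Real.tendsto_exp_atBot.comp h2).congr fun τ => ?_
  simp only [Function.comp, qabs]
  congr 1
  ring

/-- bundled level one forms: exponential approach to the value at infinity -/
theorem bundled_sub_isBigO {k : ℤ} (F : ModularForm 𝒮ℒ k) :
    (fun τ : ℍ => F τ - valueAtInfty F) =O[atImInfty] qabs := by
  have h := UpperHalfPlane.exp_decay_sub_atImInfty (h := 1) (f := ⇑F) one_pos
    (SlashInvariantFormClass.periodic_comp_ofComplex F one_mem_strictPeriods_SL)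
    (ModularFormClass.holo F) (ModularFormClass.bdd_at_infty F)
  refine h.congr_right fun τ => ?_
  simp only [qabs, div_one]

theorem bundled_tendsto {k : ℤ} (F : ModularForm 𝒮ℒ k) :
    Tendsto F atImInfty (𝓝 (valueAtInfty F)) := by
  have h := (bundled_sub_isBigO F).trans_tendsto qabs_tendsto
  have h2 := h.add_const (valueAtInfty F)
  simpa using h2

theorem bundled_valueAtInfty {k : ℤ} (F : ModularForm 𝒮ℒ k) :
    valueAtInfty F = (qExpansion 1 F).coeff 0 :=
  (UpperHalfPlane.qExpansion_coeff_zero one_pos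
    (ModularFormClass.analyticAt_cuspFunction_zero F one_pos one_mem_strictPeriods_SL)
    (SlashInvariantFormClass.periodic_comp_ofComplex F one_mem_strictPeriods_SL)).symm

/-- every level one form has a limit at `i∞` and approaches it exponentially fast -/
theorem exists_limit {k : ℤ} {f : ℍ → ℂ} (hf : f ∈ MF ⊤ k) :
    ∃ c : ℂ, Tendsto f atImInfty (𝓝 c) ∧ (fun τ : ℍ => f τ - c) =O[atImInfty] qabs := by
  obtain ⟨F, rfl⟩ := mem_MF_top_iff_exists.mp hf
  exact ⟨valueAtInfty F, bundled_tendsto F, bundled_sub_isBigO F⟩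

theorem sub_isBigO_of_tendsto {k : ℤ} {f : ℍ → ℂ} (hf : f ∈ MF ⊤ k) {c : ℂ}
    (hc : Tendsto f atImInfty (𝓝 c)) : (fun τ : ℍ => f τ - c) =O[atImInfty] qabs := by
  obtain ⟨c', h1, h2⟩ := exists_limit hf
  rwa [tendsto_nhds_unique hc h1]

theorem slash_eq_self {k : ℤ} {f : ℍ → ℂ} (hf : f ∈ MF ⊤ k) (δ : SL(2, ℤ)) : f ∣[k] δ = f :=
  hf.2.1 δ (Subgroup.mem_top δ)

end LevelOne

open LevelOne

theorem E4_tendsto : Tendsto E4 atImInfty (𝓝 1) := by
  have h := bundled_tendsto ModularForm.E₄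
  rw [bundled_valueAtInfty, EisensteinSeries.E_qExpansion_coeff_zero _ ⟨2, rfl⟩] at h
  exact h

theorem E6_tendsto : Tendsto E6 atImInfty (𝓝 1) := by
  have h := bundled_tendsto ModularForm.E₆
  rw [bundled_valueAtInfty, EisensteinSeries.E_qExpansion_coeff_zero _ ⟨3, rfl⟩] at h
  exact h

/-- `|q| = O(Δ)` at `i∞` (Mathlib: `exp_isBigO_discriminant`) -/
theorem exp_isBigO_Dl : (fun τ : ℍ => Real.exp (-2 * Real.pi * τ.im)) =O[atImInfty] Dl :=
  ModularForm.exp_isBigO_discriminant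

theorem Dl_tendsto : Tendsto Dl atImInfty (𝓝 0) := ModularForm.discriminant_isZeroAtImInfty

/-- `Δ = O(|q|)` at `i∞` -/
theorem Dl_isBigO_exp : Dl =O[atImInfty] (fun τ : ℍ => Real.exp (-2 * Real.pi * τ.im)) := by
  have h := sub_isBigO_of_tendsto (CF_le_MF ⊤ 12 Dl_mem) Dl_tendsto
  refine h.congr_left fun τ => ?_
  rw [sub_zero]

theorem MFtop_two_eq_bot : MF ⊤ 2 = ⊥ := by
  rw [eq_bot_iff]
  intro f hf
  obtain ⟨F, rfl⟩ := mem_MF_top_iff_exists.mp hf
  have h := ModularForm.levelOne_weight_two_rank_zero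
  rw [rank_zero_iff] at h
  have : F = 0 := Subsingleton.elim _ _
  rw [this]
  exact Submodule.zero_mem _

/-- division by `Δ`: a form all of whose translates are `O(q)` is `Δ` times a form -/
theorem div_Dl_mem {Γ : Subgroup SL(2, ℤ)} {k : ℤ} {f : ℍ → ℂ} (hf : f ∈ MF Γ k)
    (hO : ∀ δ : SL(2, ℤ), (f ∣[k] δ) =O[atImInfty]
      (fun τ : ℍ => Real.exp (-2 * Real.pi * τ.im))) :
    ∃ g ∈ MF Γ (k - 12), f = Dl * g := by
  have hD : ∀ δ : SL(2, ℤ), Dl ∣[(12 : ℤ)] δ = Dl := fun δ =>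
    slash_eq_self (CF_le_MF ⊤ 12 Dl_mem) δ
  have hsl : ∀ δ : SL(2, ℤ), (f / Dl) ∣[k - 12] δ = (f ∣[k] δ) / Dl := fun δ => by
    rw [div_slash_SL2, hD]
  refine ⟨f / Dl, ⟨?_, ?_, ?_⟩, ?_⟩
  · exact hf.1.div (CF_le_MF ⊤ 12 Dl_mem).1 Dl_ne_zero
  · intro γ hγ
    rw [hsl, hf.2.1 γ hγ]
  · intro δ
    rw [hsl, IsBoundedAtImInfty, BoundedAtFilter]
    exact (Asymptotics.div_isBoundedUnder_of_isBigO ((hO δ).trans exp_isBigO_Dl)).isBigO_one ℝ
  · funext τ
    simp only [Pi.mul_apply, Pi.div_apply]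
    rw [mul_div_cancel₀ _ (Dl_ne_zero τ)]

namespace LevelOne

/-- auxiliary: for even `n ≥ 4` a form `A → 1` of weight `n` lying in the ideal `(E₄, E₆)` -/
theorem exists_monomial (m : ℕ) : ∀ n : ℤ, (n = 4 + 2 * m) →
    ∃ A ∈ MF ⊤ n, Tendsto A atImInfty (𝓝 1) ∧
      ∃ a ∈ MF ⊤ (n - 4), ∃ b ∈ MF ⊤ (n - 6), A = E4 * a + E6 * b := by
  induction m using Nat.strong_induction_on with
  | _ m ih =>
    intro n hn
    rcases m with _ | _ | m
    · -- n = 4
      obtain rfl : n = 4 := by simpa using hn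
      refine ⟨E4, E4_mem, E4_tendsto, fun _ => 1, const_mem_MF ⊤ 1, 0, Submodule.zero_mem _, ?_⟩
      funext τ
      simp
    · -- n = 6
      obtain rfl : n = 6 := by simpa using hn
      refine ⟨E6, E6_mem, E6_tendsto, 0, Submodule.zero_mem _, fun _ => 1, const_mem_MF ⊤ 1, ?_⟩
      funext τ
      simp
    · obtain ⟨A, hA, hA1, -⟩ := ih m (by omega) (n - 4) (by push_cast at hn ⊢; omega)
      refine ⟨E4 * A, mul_mem_MF' E4_mem hA (by ring), ?_, A, hA, 0, Submodule.zero_mem _, ?_⟩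
      · have h := E4_tendsto.mul hA1
        rw [one_mul] at h
        exact h
      · simp

end LevelOne

/-- every level one form of nonzero weight lies in the ideal `(E₄, E₆)` -/
theorem MFtop_decomp {n : ℤ} (hn : n ≠ 0) {r : ℍ → ℂ} (hr : r ∈ MF ⊤ n) :
    ∃ a ∈ MF ⊤ (n - 4), ∃ b ∈ MF ⊤ (n - 6), r = E4 * a + E6 * b := by
  have hzero : r = 0 → ∃ a ∈ MF ⊤ (n - 4), ∃ b ∈ MF ⊤ (n - 6), r = E4 * a + E6 * b := by
    rintro rfl
    exact ⟨0, Submodule.zero_mem _, 0, Submodule.zero_mem _, by simp⟩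
  by_cases hneg : n < 0
  · apply hzero
    have := MF_eq_bot_of_neg (Γ := ⊤) hneg
    rw [this] at hr
    simpa using hr
  rcases Int.even_or_odd n with he | ho
  swap
  · apply hzero
    have := MF_eq_bot_of_odd (Γ := ⊤) (Subgroup.mem_top _) ho
    rw [this] at hr
    simpa using hr
  by_cases h2 : n = 2
  · subst h2
    apply hzero
    rw [MFtop_two_eq_bot] at hr
    simpa using hr
  obtain ⟨t, ht⟩ := he
  have h4 : 4 ≤ n := by omega
  obtain ⟨A, hA, hA1, a, ha, b, hb, hAab⟩ :=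
    exists_monomial (t - 2).toNat n (by
      have : ((t - 2).toNat : ℤ) = t - 2 := Int.toNat_of_nonneg (by omega)
      rw [this]; omega)
  obtain ⟨c, hc, -⟩ := exists_limit hr
  -- `r - c A` is a cusp form
  have hmem : r - c • A ∈ MF ⊤ n := Submodule.sub_mem _ hr (Submodule.smul_mem _ c hA)
  have hlim : Tendsto (r - c • A) atImInfty (𝓝 0) := by
    have h := hc.sub (hA1.const_smul c)
    rw [smul_eq_mul, mul_one, sub_self] at h
    exact h
  have hO := sub_isBigO_of_tendsto hmem hlim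
  obtain ⟨g, hg, hgeq⟩ := div_Dl_mem hmem (fun δ => by
    rw [slash_eq_self hmem δ]
    refine hO.congr_left fun τ => ?_
    rw [sub_zero])
  have hDl : Dl = (1728 : ℂ)⁻¹ • (E4 ^ 3 - E6 ^ 2) := by
    rw [E4_cube_sub_E6_sq, smul_smul]
    simp
  refine ⟨c • a + (1728 : ℂ)⁻¹ • (E4 * E4 * g), ?_, c • b - (1728 : ℂ)⁻¹ • (E6 * g), ?_, ?_⟩
  · refine Submodule.add_mem _ (Submodule.smul_mem _ c ha) (Submodule.smul_mem _ _ ?_)
    exact mul_mem_MF' (mul_mem_MF' E4_mem E4_mem rfl) hg (by ring)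
  · refine Submodule.sub_mem _ (Submodule.smul_mem _ c hb) (Submodule.smul_mem _ _ ?_)
    exact mul_mem_MF' E6_mem hg (by ring)
  · have : r = c • A + Dl * g := by rw [← hgeq]; abel
    rw [this, hAab, hDl]
    funext τ
    simp only [Pi.add_apply, Pi.smul_apply, Pi.mul_apply, Pi.sub_apply, Pi.pow_apply, smul_eq_mul]
    ring

/-- for every even `n ≥ 4` there is a level one form of weight `n` which is `1 + O(q)` -/
theorem exists_MFtop_one_add {n : ℤ} (hn : 4 ≤ n) (he : Even n) :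
    ∃ A ∈ MF ⊤ n, (fun τ : ℍ => A τ - 1) =O[atImInfty]
      (fun τ : ℍ => Real.exp (-2 * Real.pi * τ.im)) := by
  obtain ⟨t, ht⟩ := he
  obtain ⟨A, hA, hA1, -⟩ :=
    exists_monomial (t - 2).toNat n (by
      have : ((t - 2).toNat : ℤ) = t - 2 := Int.toNat_of_nonneg (by omega)
      rw [this]; omega)
  exact ⟨A, hA, sub_isBigO_of_tendsto hA hA1⟩

/-- a level one form tending to `0` at `i∞` which equals `c • A` with ... : evaluation at infinity.
If `Δ * g` is a constant multiple `c` of a function tending to `1`, then `c = 0`. -/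
theorem eq_zero_of_smul_eq_Dl_mul {c : ℂ} {A g : ℍ → ℂ} {n : ℤ} (hA : Tendsto A atImInfty (𝓝 1))
    (hg : g ∈ MF ⊤ n) (h : c • A = Dl * g) : c = 0 := by
  obtain ⟨d, hd, -⟩ := exists_limit hg
  have h1 : Tendsto (c • A) atImInfty (𝓝 c) := by
    have h := hA.const_smul c
    rw [smul_eq_mul, mul_one] at h
    exact h
  have h2 : Tendsto (Dl * g) atImInfty (𝓝 0) := by
    have h := Dl_tendsto.mul hd
    rw [zero_mul] at h
    exact h
  rw [h] at h1
  exact tendsto_nhds_unique h1 h2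

end Fermat.Agent.S21
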