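import Mathlib
import Fermat.Prelude.Def_ModularCurve_PeriodHomPair

/-!
# S21 (Eichler-Shimura, weight 2): shared definitions

All modular forms are handled as plain functions `ℍ → ℂ` lying in submodules `MF Γ k`, `CF Γ k`
of the function space; this avoids all casts between weights.
-/

set_option autoImplicit false

open UpperHalfPlane ModularForm CongruenceSubgroup Filter Topology
open scoped MatrixGroups ModularForm Manifold

namespace Fermat.Agent.S21

/-- Modular forms of weight `k` for `Γ ≤ SL(2,ℤ)`, as a submodule of the space of all functions. -/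
def MF (Γ : Subgroup SL(2, ℤ)) (k : ℤ) : Submodule ℂ (ℍ → ℂ) where
  carrier := {f | MDiff f ∧ (∀ γ ∈ Γ, f ∣[k] γ = f) ∧
    ∀ δ : SL(2, ℤ), IsBoundedAtImInfty (f ∣[k] δ)}
  zero_mem' := by
    refine ⟨mdifferentiable_const, fun γ _ => by simp, fun δ => ?_⟩
    simpa using zero_form_isBoundedAtImInfty
  add_mem' := by
    rintro f g ⟨hf1, hf2, hf3⟩ ⟨hg1, hg2, hg3⟩
    refine ⟨hf1.add hg1, fun γ hγ => by rw [SlashAction.add_slash, hf2 γ hγ, hg2 γ hγ],
      fun δ => ?_⟩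
    rw [SlashAction.add_slash]
    exact (hf3 δ).add (hg3 δ)
  smul_mem' := by
    rintro c f ⟨hf1, hf2, hf3⟩
    refine ⟨hf1.const_smul c, fun γ hγ => by rw [SL_smul_slash, hf2 γ hγ], fun δ => ?_⟩
    rw [SL_smul_slash]
    exact (hf3 δ).const_smul_left c

/-- Cusp forms of weight `k` for `Γ ≤ SL(2,ℤ)`, as a submodule of the space of all functions. -/
def CF (Γ : Subgroup SL(2, ℤ)) (k : ℤ) : Submodule ℂ (ℍ → ℂ) where
  carrier := {f | MDiff f ∧ (∀ γ ∈ Γ, f ∣[k] γ = f) ∧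
    ∀ δ : SL(2, ℤ), IsZeroAtImInfty (f ∣[k] δ)}
  zero_mem' := by
    refine ⟨mdifferentiable_const, fun γ _ => by simp, fun δ => ?_⟩
    rw [SlashAction.zero_slash]
    exact (zero_zeroAtFilter atImInfty : ZeroAtFilter atImInfty (0 : ℍ → ℂ))
  add_mem' := by
    rintro f g ⟨hf1, hf2, hf3⟩ ⟨hg1, hg2, hg3⟩
    refine ⟨hf1.add hg1, fun γ hγ => by rw [SlashAction.add_slash, hf2 γ hγ, hg2 γ hγ],
      fun δ => ?_⟩
    rw [SlashAction.add_slash]
    exact (hf3 δ).add (hg3 δ)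
  smul_mem' := by
    rintro c f ⟨hf1, hf2, hf3⟩
    refine ⟨hf1.const_smul c, fun γ hγ => by rw [SL_smul_slash, hf2 γ hγ], fun δ => ?_⟩
    rw [SL_smul_slash]
    exact (hf3 δ).smul c

theorem mem_MF_iff {Γ : Subgroup SL(2, ℤ)} {k : ℤ} {f : ℍ → ℂ} :
    f ∈ MF Γ k ↔ MDiff f ∧ (∀ γ ∈ Γ, f ∣[k] γ = f) ∧
      ∀ δ : SL(2, ℤ), IsBoundedAtImInfty (f ∣[k] δ) := Iff.rfl

theorem mem_CF_iff {Γ : Subgroup SL(2, ℤ)} {k : ℤ} {f : ℍ → ℂ} :
    f ∈ CF Γ k ↔ MDiff f ∧ (∀ γ ∈ Γ, f ∣[k] γ = f) ∧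
      ∀ δ : SL(2, ℤ), IsZeroAtImInfty (f ∣[k] δ) := Iff.rfl

/-- The coset space `SL(2,ℤ)/Γ` (left cosets `hΓ`), with its left `SL(2,ℤ)`-action. -/
abbrev X (Γ : Subgroup SL(2, ℤ)) : Type := SL(2, ℤ) ⧸ Γ

noncomputable instance instFintypeX (Γ : Subgroup SL(2, ℤ)) [Γ.FiniteIndex] : Fintype (X Γ) :=
  Fintype.ofFinite _

/-- The translate of `f` attached to the coset `x = hΓ`, namely `f ∣[k] h⁻¹`
(well defined if `f` is `Γ`-invariant). -/
noncomputable def vec (Γ : Subgroup SL(2, ℤ)) (k : ℤ) (f : ℍ → ℂ) (x : X Γ) : ℍ → ℂ :=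
  f ∣[k] (Quotient.out x)⁻¹

/-- `F` is a holomorphic primitive of `f` on the upper half plane. -/
def IsPrim (F f : ℍ → ℂ) : Prop := ∀ τ : ℍ, HasDerivAt (F ∘ ofComplex) (f τ) ↑τ

/-- The matrix `U = S * T` of order 3 in `PSL(2,ℤ)`; it fixes `ρ = exp(2πi/3)`. -/
def Umat : SL(2, ℤ) := ModularGroup.S * ModularGroup.T

/-- `{a : X → ℂ | a (S x) + a x = 0}`. -/
def Vminus (Γ : Subgroup SL(2, ℤ)) : Submodule ℂ (X Γ → ℂ) where
  carrier := {a | ∀ x, a (ModularGroup.S • x) + a x = 0}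
  zero_mem' := by intro x; simp
  add_mem' := by
    intro a b ha hb x
    have h1 := ha x
    have h2 := hb x
    simp only [Pi.add_apply]
    linear_combination h1 + h2
  smul_mem' := by
    intro c a ha x
    have h1 := ha x
    simp only [Pi.smul_apply, smul_eq_mul]
    linear_combination c * h1

/-- `{b : X → ℂ | b x + b (U x) + b (U² x) = 0}`. -/
def Vzero (Γ : Subgroup SL(2, ℤ)) : Submodule ℂ (X Γ → ℂ) where
  carrier := {b | ∀ x, b x + b (Umat • x) + b (Umat • Umat • x) = 0}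
  zero_mem' := by intro x; simp
  add_mem' := by
    intro a b ha hb x
    have h1 := ha x
    have h2 := hb x
    simp only [Pi.add_apply]
    linear_combination h1 + h2
  smul_mem' := by
    intro c a ha x
    have h1 := ha x
    simp only [Pi.smul_apply, smul_eq_mul]
    linear_combination c * h1

/-- A homogeneous basis of `⨁ₖ MF Γ k` over the ring of level one forms, indexed by the coset
space, whose matrix of translates is invertible at *every* point of `ℍ`. -/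
structure FreeBasis (Γ : Subgroup SL(2, ℤ)) [Γ.FiniteIndex] where
  /-- weights -/
  k : X Γ → ℤ
  /-- the forms -/
  F : X Γ → ℍ → ℂ
  mem : ∀ j, F j ∈ MF Γ (k j)
  gen : ∀ (w : ℤ), ∀ f ∈ MF Γ w, ∃ r : X Γ → ℍ → ℂ,
    (∀ j, r j ∈ MF ⊤ (w - k j)) ∧ f = ∑ j, r j * F j
  indep : ∀ τ : ℍ, LinearIndependent ℂ (fun j : X Γ => fun x : X Γ => vec Γ (k j) (F j) x τ)

end Fermat.Agent.S21
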