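import Fermat.Agent.S21.LevelOne

/-! # S21 module HOMBASIS: `⨁ MF Γ k` is a free graded module over `ℂ[E₄,E₆]`. -/

set_option autoImplicit false

open UpperHalfPlane ModularForm CongruenceSubgroup Filter Topology
open scoped MatrixGroups ModularForm Manifold

namespace Fermat.Agent.S21

theorem E4_slash (δ : SL(2, ℤ)) : E4 ∣[(4 : ℤ)] δ = E4 := E4_mem.2.1 δ (Subgroup.mem_top δ)

theorem E6_slash (δ : SL(2, ℤ)) : E6 ∣[(6 : ℤ)] δ = E6 := E6_mem.2.1 δ (Subgroup.mem_top δ)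

theorem E4_mul_mem {Γ : Subgroup SL(2, ℤ)} {w w' : ℤ} {a : ℍ → ℂ} (ha : a ∈ MF Γ w)
    (h : 4 + w = w') : E4 * a ∈ MF Γ w' :=
  mul_mem_MF' (MF_mono le_top 4 E4_mem) ha h

theorem E6_mul_mem {Γ : Subgroup SL(2, ℤ)} {w w' : ℤ} {a : ℍ → ℂ} (ha : a ∈ MF Γ w)
    (h : 6 + w = w') : E6 * a ∈ MF Γ w' :=
  mul_mem_MF' (MF_mono le_top 6 E6_mem) ha h

/-- `(E₄, E₆)` is a regular sequence on `⨁ MF Γ k`. -/
theorem regular_sequence {Γ : Subgroup SL(2, ℤ)} {w : ℤ} {a b : ℍ → ℂ}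
    (ha : a ∈ MF Γ (w - 4)) (hb : b ∈ MF Γ (w - 6)) (h : E4 * a + E6 * b = 0) :
    ∃ c ∈ MF Γ (w - 10), a = E6 * c ∧ b = -(E4 * c) := by
  -- the numerator
  set f : ℍ → ℂ := (-(1728 : ℂ)⁻¹) • (E4 * (E4 * b) + E6 * a) with hf
  have hfmem : f ∈ MF Γ (w + 2) := by
    refine Submodule.smul_mem _ _ (Submodule.add_mem _ ?_ ?_)
    · exact E4_mul_mem (E4_mul_mem hb (w' := w - 2) (by ring)) (by ring)
    · exact E6_mul_mem ha (by ring)
  have hD : ∀ τ, E4 τ ^ 3 - E6 τ ^ 2 = 1728 * Dl τ := fun τ => by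
    have := congrFun E4_cube_sub_E6_sq τ
    simpa using this
  have hO : ∀ δ : SL(2, ℤ), (f ∣[w + 2] δ) =O[atImInfty]
      (fun τ : ℍ => Real.exp (-2 * Real.pi * τ.im)) := by
    intro δ
    set a' := a ∣[w - 4] δ with ha'
    set b' := b ∣[w - 6] δ with hb'
    have hrel : E4 * a' + E6 * b' = 0 := by
      have h1 : (E4 * a + E6 * b) ∣[w] δ = 0 := by rw [h]; simp
      rw [SlashAction.add_slash, show w = 4 + (w - 4) by ring, mul_slash_SL2, E4_slash] at h1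
      rw [show 4 + (w - 4) = 6 + (w - 6) by ring, mul_slash_SL2, E6_slash] at h1
      exact h1
    have hfs : f ∣[w + 2] δ = (-(1728 : ℂ)⁻¹) • (E4 * (E4 * b') + E6 * a') := by
      rw [hf, SL_smul_slash, SlashAction.add_slash]
      congr 2
      · rw [show w + 2 = 4 + (4 + (w - 6)) by ring, mul_slash_SL2, mul_slash_SL2, E4_slash]
      · rw [show w + 2 = 6 + (w - 4) by ring, mul_slash_SL2, E6_slash]
    have hkey : ∀ τ, E4 τ * (f ∣[w + 2] δ) τ = -(Dl τ * b' τ) := by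
      intro τ
      have h2 := congrFun hrel τ
      simp only [Pi.add_apply, Pi.mul_apply, Pi.zero_apply] at h2
      rw [hfs]
      simp only [Pi.smul_apply, Pi.add_apply, Pi.mul_apply, smul_eq_mul]
      have h3 := hD τ
      linear_combination (-(1728 : ℂ)⁻¹) * E6 τ * h2 - (1728 : ℂ)⁻¹ * b' τ * h3
    have hb'bd : b' =O[atImInfty] (fun _ : ℍ => (1 : ℝ)) := hb.2.2 δ
    have hE4inv : (fun τ => (E4 τ)⁻¹) =O[atImInfty] (fun _ : ℍ => (1 : ℝ)) :=
      (E4_tendsto.inv₀ one_ne_zero).isBigO_one ℝ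
    have hev : ∀ᶠ τ in atImInfty, E4 τ ≠ 0 :=
      E4_tendsto.eventually_ne one_ne_zero
    have heq : (f ∣[w + 2] δ) =ᶠ[atImInfty] fun τ => -(Dl τ * b' τ) * (E4 τ)⁻¹ := by
      filter_upwards [hev] with τ hτ
      rw [← hkey τ]
      field_simp
    refine heq.trans_isBigO ?_
    have := ((Dl_isBigO_exp.mul hb'bd).neg_left).mul hE4inv
    simpa using this
  obtain ⟨c, hc, hfc⟩ := div_Dl_mem hfmem hO
  refine ⟨c, by rwa [show w + 2 - 12 = w - 10 by ring] at hc, ?_, ?_⟩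
  · funext τ
    have h1 := congrFun hfc τ
    have h2 := congrFun h τ
    simp only [hf, Pi.smul_apply, Pi.add_apply, Pi.mul_apply, smul_eq_mul, Pi.zero_apply] at h1 h2
    have h3 := hD τ
    have h4 : (1728 * Dl τ) * (a τ - E6 τ * c τ) = 0 := by
      linear_combination (1728 * E6 τ) * h1 - a τ * h3 + E4 τ ^ 2 * h2
    have h5 : (1728 * Dl τ) ≠ 0 := mul_ne_zero (by norm_num) (Dl_ne_zero τ)
    simpa [sub_eq_zero] using (mul_eq_zero.mp h4).resolve_left h5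
  · funext τ
    have h1 := congrFun hfc τ
    have h2 := congrFun h τ
    simp only [hf, Pi.smul_apply, Pi.add_apply, Pi.mul_apply, smul_eq_mul, Pi.zero_apply] at h1 h2
    have h3 := hD τ
    have h4 : (1728 * Dl τ) * (b τ + E4 τ * c τ) = 0 := by
      linear_combination (-1728 * E4 τ) * h1 - b τ * h3 - E6 τ * h2
    have h5 : (1728 * Dl τ) ≠ 0 := mul_ne_zero (by norm_num) (Dl_ne_zero τ)
    have h6 := (mul_eq_zero.mp h4).resolve_left h5
    simp only [Pi.neg_apply, Pi.mul_apply]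
    linear_combination h6


namespace HB

/-- the ring of all functions on `ℍ` -/
abbrev Fn : Type := ℍ → ℂ

variable (Γ : Subgroup SL(2, ℤ))

/-- `E₄ M_{w-4} + E₆ M_{w-6}` -/
noncomputable def Nsub (w : ℤ) : Submodule ℂ Fn :=
  (MF Γ (w - 4)).map (LinearMap.mulLeft ℂ E4) ⊔ (MF Γ (w - 6)).map (LinearMap.mulLeft ℂ E6)

variable {Γ}

theorem mem_Nsub_iff {w : ℤ} {f : Fn} :
    f ∈ Nsub Γ w ↔ ∃ a ∈ MF Γ (w - 4), ∃ b ∈ MF Γ (w - 6), f = E4 * a + E6 * b := by
  unfold Nsub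
  rw [Submodule.mem_sup]
  constructor
  · rintro ⟨_, ⟨a, ha, rfl⟩, _, ⟨b, hb, rfl⟩, rfl⟩
    exact ⟨a, ha, b, hb, rfl⟩
  · rintro ⟨a, ha, b, hb, rfl⟩
    exact ⟨_, ⟨a, ha, rfl⟩, _, ⟨b, hb, rfl⟩, rfl⟩

theorem Nsub_le (w : ℤ) : Nsub Γ w ≤ MF Γ w := by
  intro f hf
  obtain ⟨a, ha, b, hb, rfl⟩ := mem_Nsub_iff.mp hf
  exact Submodule.add_mem _ (E4_mul_mem ha (by ring)) (E6_mul_mem hb (by ring))

variable (Γ)

/-- the quotient `M_w / (E₄ M_{w-4} + E₆ M_{w-6})` -/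
abbrev Quo (w : ℤ) : Type := (MF Γ w) ⧸ (Nsub Γ w).comap (MF Γ w).subtype

/-- index set of a basis of the quotient -/
abbrev Idx (w : ℤ) : Type := ↥(Module.Basis.ofVectorSpaceIndex ℂ (Quo Γ w))

/-- basis of the quotient -/
noncomputable def bas (w : ℤ) : Module.Basis (Idx Γ w) ℂ (Quo Γ w) :=
  Module.Basis.ofVectorSpace ℂ (Quo Γ w)

/-- lifts of the basis vectors -/
noncomputable def lft (w : ℤ) (i : Idx Γ w) : MF Γ w :=
  (Submodule.mkQ_surjective ((Nsub Γ w).comap (MF Γ w).subtype) (bas Γ w i)).choose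

theorem mkQ_lft (w : ℤ) (i : Idx Γ w) :
    Submodule.mkQ ((Nsub Γ w).comap (MF Γ w).subtype) (lft Γ w i) = bas Γ w i :=
  (Submodule.mkQ_surjective ((Nsub Γ w).comap (MF Γ w).subtype) (bas Γ w i)).choose_spec

/-- the index type of the homogeneous basis -/
abbrev JJ : Type := Σ w : ℤ, Idx Γ w

/-- weights -/
def kk (j : JJ Γ) : ℤ := j.1

/-- the forms -/
noncomputable def FF (j : JJ Γ) : Fn := (lft Γ j.1 j.2 : Fn)

theorem FF_mem (j : JJ Γ) : FF Γ j ∈ MF Γ (kk Γ j) := (lft Γ j.1 j.2).2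

/-- (Q1) every form is a combination of the lifts modulo `Nsub`. -/
theorem exists_sub_mem_Nsub {w : ℤ} {f : Fn} (hf : f ∈ MF Γ w) :
    ∃ c : Idx Γ w →₀ ℂ, f - ∑ i ∈ c.support, c i • FF Γ ⟨w, i⟩ ∈ Nsub Γ w := by
  set P := (Nsub Γ w).comap (MF Γ w).subtype with hP
  set c := (bas Γ w).repr (P.mkQ ⟨f, hf⟩) with hc
  refine ⟨c, ?_⟩
  have hl : ∀ i, P.mkQ (lft Γ w i) = bas Γ w i := mkQ_lft Γ w
  have h1 : P.mkQ (⟨f, hf⟩ - ∑ i ∈ c.support, c i • lft Γ w i) = 0 := by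
    rw [map_sub, map_sum]
    simp only [map_smul, hl]
    have := (bas Γ w).linearCombination_repr (P.mkQ ⟨f, hf⟩)
    rw [Finsupp.linearCombination_apply, Finsupp.sum] at this
    rw [← hc] at this
    rw [this, sub_self]
  rw [Submodule.mkQ_apply, Submodule.Quotient.mk_eq_zero, hP, Submodule.mem_comap] at h1
  simpa [FF] using h1

/-- (Q2) the lifts are independent modulo `Nsub`. -/
theorem eq_zero_of_sum_mem_Nsub {w : ℤ} (s : Finset (Idx Γ w)) (g : Idx Γ w → ℂ)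
    (h : ∑ i ∈ s, g i • FF Γ ⟨w, i⟩ ∈ Nsub Γ w) : ∀ i ∈ s, g i = 0 := by
  set P := (Nsub Γ w).comap (MF Γ w).subtype with hP
  have hli := (bas Γ w).linearIndependent
  rw [linearIndependent_iff'] at hli
  apply hli s g
  have h1 : P.mkQ (∑ i ∈ s, g i • lft Γ w i) = 0 := by
    rw [Submodule.mkQ_apply, Submodule.Quotient.mk_eq_zero, hP, Submodule.mem_comap]
    simpa [FF] using h
  have hl : ∀ i, P.mkQ (lft Γ w i) = bas Γ w i := mkQ_lft Γ w
  rw [map_sum] at h1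
  simpa only [map_smul, hl] using h1

/-- admissible coefficient families of total weight `w` -/
def IsCoeff (w : ℤ) (r : JJ Γ →₀ Fn) : Prop := ∀ j, r j ∈ MF ⊤ (w - kk Γ j)

/-- evaluation `∑ r_j F_j` -/
noncomputable abbrev ev : (JJ Γ →₀ Fn) →ₗ[Fn] Fn := Finsupp.linearCombination Fn (FF Γ)

variable {Γ}

theorem ev_mem {w : ℤ} {r : JJ Γ →₀ Fn} (hr : IsCoeff Γ w r) : ev Γ r ∈ MF Γ w := by
  rw [Finsupp.linearCombination_apply, Finsupp.sum]
  refine Submodule.sum_mem _ fun j _ => ?_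
  exact mul_mem_MF' (MF_mono le_top _ (hr j)) (FF_mem Γ j) (by ring)

theorem IsCoeff.add {w : ℤ} {r s : JJ Γ →₀ Fn} (hr : IsCoeff Γ w r) (hs : IsCoeff Γ w s) :
    IsCoeff Γ w (r + s) := fun j => by
  rw [Finsupp.add_apply]; exact Submodule.add_mem _ (hr j) (hs j)

theorem IsCoeff.sub {w : ℤ} {r s : JJ Γ →₀ Fn} (hr : IsCoeff Γ w r) (hs : IsCoeff Γ w s) :
    IsCoeff Γ w (r - s) := fun j => by
  rw [Finsupp.sub_apply]; exact Submodule.sub_mem _ (hr j) (hs j)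

theorem IsCoeff.smul {w n w' : ℤ} {r : JJ Γ →₀ Fn} {e : Fn} (he : e ∈ MF ⊤ n)
    (hr : IsCoeff Γ w r) (h : n + w = w') : IsCoeff Γ w' (e • r) := fun j => by
  rw [Finsupp.smul_apply, smul_eq_mul]
  exact mul_mem_MF' he (hr j) (by rw [← h]; ring)

theorem isCoeff_zero (w : ℤ) : IsCoeff Γ w 0 := fun _ => Submodule.zero_mem _

theorem isCoeff_single (w : ℤ) (i : Idx Γ w) (c : ℂ) :
    IsCoeff Γ w (Finsupp.single (⟨w, i⟩ : JJ Γ) (fun _ => c)) := by
  classical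
  intro j
  rw [Finsupp.single_apply]
  split_ifs with h
  · subst h
    simpa [kk] using const_mem_MF ⊤ c
  · exact Submodule.zero_mem _

/-- generation -/
theorem generation [Γ.FiniteIndex] (n : ℕ) : ∀ w : ℤ, w < n → ∀ f ∈ MF Γ w,
    ∃ r : JJ Γ →₀ Fn, IsCoeff Γ w r ∧ ev Γ r = f := by
  induction n with
  | zero =>
    intro w hw f hf
    rw [MF_eq_bot_of_neg (by simpa using hw), Submodule.mem_bot] at hf
    exact ⟨0, isCoeff_zero w, by rw [hf, map_zero]⟩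
  | succ n ih =>
    intro w hw f hf
    obtain ⟨c, hc⟩ := exists_sub_mem_Nsub Γ hf
    obtain ⟨a, ha, b, hb, hab⟩ := mem_Nsub_iff.mp hc
    obtain ⟨ra, hra, hra'⟩ := ih (w - 4) (by push_cast at hw; omega) a ha
    obtain ⟨rb, hrb, hrb'⟩ := ih (w - 6) (by push_cast at hw; omega) b hb
    refine ⟨∑ i ∈ c.support, Finsupp.single (⟨w, i⟩ : JJ Γ) (fun _ => c i) + (E4 • ra + E6 • rb),
      ?_, ?_⟩
    · refine IsCoeff.add ?_ ((hra.smul E4_mem (by ring)).add (hrb.smul E6_mem (by ring)))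
      intro j
      rw [Finsupp.finsetSum_apply]
      exact Submodule.sum_mem _ fun i _ => isCoeff_single w i (c i) j
    · rw [map_add, map_add, map_smul, map_smul, hra', hrb', map_sum]
      simp only [Finsupp.linearCombination_single, smul_eq_mul]
      have : f = ∑ i ∈ c.support, c i • FF Γ ⟨w, i⟩ + (E4 * a + E6 * b) := by
        rw [← hab]; abel
      rw [this]
      congr 1

theorem kk_nonneg [Γ.FiniteIndex] (j : JJ Γ) : 0 ≤ kk Γ j := by
  by_contra hlt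
  push Not at hlt
  obtain ⟨w, i⟩ := j
  have hbot : MF Γ w = ⊥ := MF_eq_bot_of_neg hlt
  have hsub : Subsingleton (MF Γ w) := by
    rw [hbot]; infer_instance
  have hsub2 : Subsingleton (Quo Γ w) := inferInstance
  exact (bas Γ w).ne_zero i (Subsingleton.elim _ _)

/-- decomposition of coefficient families vanishing in weight `w` -/
theorem exists_decomp {w : ℤ} {r : JJ Γ →₀ Fn} (hr : IsCoeff Γ w r)
    (h0 : ∀ j, kk Γ j = w → r j = 0) :
    ∃ α β : JJ Γ →₀ Fn, IsCoeff Γ (w - 4) α ∧ IsCoeff Γ (w - 6) β ∧ r = E4 • α + E6 • β := by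
  classical
  have key : ∀ j, ∃ a b : Fn, a ∈ MF ⊤ (w - 4 - kk Γ j) ∧ b ∈ MF ⊤ (w - 6 - kk Γ j) ∧
      r j = E4 * a + E6 * b ∧ (r j = 0 → a = 0 ∧ b = 0) := by
    intro j
    by_cases hj : r j = 0
    · exact ⟨0, 0, Submodule.zero_mem _, Submodule.zero_mem _, by simp [hj], fun _ => ⟨rfl, rfl⟩⟩
    · have hne : w - kk Γ j ≠ 0 := fun h => hj (h0 j (by omega))
      obtain ⟨a, ha, b, hb, hab⟩ := MFtop_decomp hne (hr j)
      refine ⟨a, b, ?_, ?_, hab, fun h => absurd h hj⟩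
      · rwa [show w - 4 - kk Γ j = w - kk Γ j - 4 by ring]
      · rwa [show w - 6 - kk Γ j = w - kk Γ j - 6 by ring]
  choose a b ha hb hab h0' using key
  refine ⟨Finsupp.onFinset r.support a ?_, Finsupp.onFinset r.support b ?_, ha, hb, ?_⟩
  · intro j hj
    rw [Finsupp.mem_support_iff]
    exact fun h => hj (h0' j h).1
  · intro j hj
    rw [Finsupp.mem_support_iff]
    exact fun h => hj (h0' j h).2
  · ext1 j
    simp only [Finsupp.add_apply, Finsupp.smul_apply, Finsupp.onFinset_apply, smul_eq_mul]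
    exact hab j

/-- the weight `w` part of a relation -/
theorem eq_zero_of_ev_mem_Nsub {w : ℤ} {r : JJ Γ →₀ Fn} (hr : IsCoeff Γ w r)
    (h0 : ∀ j, kk Γ j ≠ w → r j = 0) (h : ev Γ r ∈ Nsub Γ w) : r = 0 := by
  classical
  have hinj : Set.InjOn (Sigma.mk w : Idx Γ w → JJ Γ) ((Sigma.mk w) ⁻¹' ↑r.support) :=
    fun _ _ _ _ h => sigma_mk_injective h
  have hconst : ∀ i : Idx Γ w, r ⟨w, i⟩ = fun _ => r ⟨w, i⟩ I := by
    intro i
    have h1 := hr ⟨w, i⟩
    simp only [kk, sub_self] at h1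
    obtain ⟨c, hc⟩ := MF_zero_eq_const h1
    rw [hc]
  have hsum : ev Γ r = ∑ i ∈ r.support.preimage (Sigma.mk w) hinj, (r ⟨w, i⟩ I) • FF Γ ⟨w, i⟩ := by
    rw [Finsupp.linearCombination_apply, Finsupp.sum]
    rw [← Finset.sum_preimage (Sigma.mk w) r.support hinj (fun j => r j • FF Γ j)]
    · refine Finset.sum_congr rfl fun i _ => ?_
      conv_lhs => rw [hconst i]
      rfl
    · rintro ⟨w', i⟩ _ hx
      have : w' ≠ w := by
        rintro rfl
        exact hx ⟨i, rfl⟩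
      rw [h0 ⟨w', i⟩ this, zero_smul]
  rw [hsum] at h
  have hz := eq_zero_of_sum_mem_Nsub Γ _ _ h
  ext1 ⟨w', i⟩
  by_cases hw : w' = w
  · subst hw
    by_cases hi : (⟨w', i⟩ : JJ Γ) ∈ r.support
    · have := hz i (by simpa using hi)
      rw [hconst i, this]; rfl
    · simpa using hi
  · exact h0 _ hw

/-- independence -/
theorem independence [Γ.FiniteIndex] (n : ℕ) : ∀ w : ℤ, w < n → ∀ r : JJ Γ →₀ Fn,
    IsCoeff Γ w r → ev Γ r = 0 → r = 0 := by
  classical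
  induction n with
  | zero =>
    intro w hw r hr _
    ext1 j
    have h1 := hr j
    have h2 := kk_nonneg j
    rw [MF_eq_bot_of_neg (by push_cast at hw; omega), Submodule.mem_bot] at h1
    simpa using h1
  | succ n ih =>
    intro w hw r hr hev
    set r₁ := r.filter (fun j => kk Γ j = w) with hr₁
    set r₂ := r.filter (fun j => ¬ kk Γ j = w) with hr₂
    have hsplit : r₁ + r₂ = r := Finsupp.filter_add_filter_not r _
    have hc₁ : IsCoeff Γ w r₁ := fun j => by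
      rw [hr₁, Finsupp.filter_apply]
      split_ifs
      · exact hr j
      · exact Submodule.zero_mem _
    have hc₂ : IsCoeff Γ w r₂ := fun j => by
      rw [hr₂, Finsupp.filter_apply]
      split_ifs
      · exact Submodule.zero_mem _
      · exact hr j
    obtain ⟨α, β, hα, hβ, hαβ⟩ := exists_decomp hc₂ (fun j hj => by
      rw [hr₂, Finsupp.filter_apply, if_neg (not_not.mpr hj)])
    have hev2 : ev Γ r₁ + (E4 * ev Γ α + E6 * ev Γ β) = 0 := by
      rw [← hev, ← hsplit, map_add, hαβ, map_add, map_smul, map_smul, smul_eq_mul, smul_eq_mul]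
    have h₁ : r₁ = 0 := by
      refine eq_zero_of_ev_mem_Nsub hc₁ (fun j hj => by
        rw [hr₁, Finsupp.filter_apply, if_neg hj]) ?_
      rw [eq_neg_of_add_eq_zero_left hev2]
      exact Submodule.neg_mem _ (mem_Nsub_iff.mpr ⟨_, ev_mem hα, _, ev_mem hβ, rfl⟩)
    rw [h₁, map_zero, zero_add] at hev2
    obtain ⟨c, hc, hc1, hc2⟩ := regular_sequence (ev_mem hα) (ev_mem hβ) hev2
    obtain ⟨γ, hγ, hγ'⟩ := generation n (w - 10) (by push_cast at hw; omega) c hc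
    have hA : α - E6 • γ = 0 := by
      refine ih (w - 4) (by push_cast at hw; omega) _ (hα.sub (hγ.smul E6_mem (by ring))) ?_
      rw [map_sub, map_smul, hγ', hc1, smul_eq_mul, sub_self]
    have hB : β + E4 • γ = 0 := by
      refine ih (w - 6) (by push_cast at hw; omega) _ (hβ.add (hγ.smul E4_mem (by ring))) ?_
      rw [map_add, map_smul, hγ', hc2, smul_eq_mul, neg_add_cancel]
    rw [← hsplit, h₁, zero_add, hαβ, sub_eq_zero.mp hA, eq_neg_of_add_eq_zero_left hB,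
      smul_neg, smul_comm E4 E6 γ, add_neg_cancel]

end HB

/-- Existence of a homogeneous basis (index type possibly infinite at this stage).
`Finsupp.linearCombination (ℍ → ℂ) F r = ∑ j, r j * F j`. -/
theorem exists_hom_basis (Γ : Subgroup SL(2, ℤ)) [Γ.FiniteIndex] :
    ∃ (J : Type) (k : J → ℤ) (F : J → ℍ → ℂ), (∀ j, F j ∈ MF Γ (k j)) ∧
      (∀ (w : ℤ), ∀ f ∈ MF Γ w, ∃ r : J →₀ (ℍ → ℂ), (∀ j, r j ∈ MF ⊤ (w - k j)) ∧
        Finsupp.linearCombination (ℍ → ℂ) F r = f) ∧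
      (∀ (w : ℤ) (r : J →₀ (ℍ → ℂ)), (∀ j, r j ∈ MF ⊤ (w - k j)) →
        Finsupp.linearCombination (ℍ → ℂ) F r = 0 → r = 0) := by
  refine ⟨HB.JJ Γ, HB.kk Γ, HB.FF Γ, HB.FF_mem Γ, fun w f hf => ?_, fun w r hr h => ?_⟩
  · exact HB.generation (w.toNat + 1) w (by push_cast; have := Int.self_le_toNat w; omega) f hf
  · exact HB.independence (w.toNat + 1) w (by push_cast; have := Int.self_le_toNat w; omega) r hr h

end Fermat.Agent.S21
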