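import Fermat.Agent.S21.Primitive
import Fermat.Agent.S21.Parabolic

/-! # S21 module PERIODMAP: the period homomorphism of a weight 2 form on `Γ₀(N)`, comparison with the
frozen `ModularCurve.periodMap`. -/

set_option autoImplicit false

open UpperHalfPlane ModularForm CongruenceSubgroup Filter Topology
open scoped MatrixGroups ModularForm Manifold

namespace Fermat.Agent.S21

open ModularCurve ModularCurve.Period

variable (N : ℕ) [NeZero N]

namespace PeriodMapAux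

/-- every translate of a weight `2` form on `Γ₀(N)` has a normalised primitive -/
theorem exists_prim_slash {f : ℍ → ℂ} (hf : f ∈ MF (Gamma0 N) 2) (δ : SL(2, ℤ)) :
    ∃ G : ℍ → ℂ, IsPrim G (f ∣[(2 : ℤ)] δ) ∧
      Tendsto (fun τ : ℍ => G τ - valueAtInfty (f ∣[(2 : ℤ)] δ) * τ) atImInfty (𝓝 0) := by
  have hN : (0 : ℝ) < (N : ℝ) := by exact_mod_cast Nat.pos_of_ne_zero (NeZero.ne N)
  obtain ⟨G, hG, hG2, -⟩ := exists_prim_of_periodic hN (slash_periodic N hf.2.1 δ)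
    (mdiff_slash hf.1 2 δ) (hf.2.2 δ)
  exact ⟨G, hG, hG2⟩

/-- the increment of a primitive along `γ ∈ Γ₀(N)` does not depend on the base point -/
theorem prim_smul_sub {f F : ℍ → ℂ} {Γ : Subgroup SL(2, ℤ)} (hf : ∀ γ ∈ Γ, f ∣[(2 : ℤ)] γ = f)
    (hF : IsPrim F f) (γ : SL(2, ℤ)) (hγ : γ ∈ Γ) (z w : ℍ) :
    F (γ • z) - F z = F (γ • w) - F w := by
  have h1 : IsPrim (fun τ => F (γ • τ)) f := by
    have := hF.comp_smul γ
    rwa [hf γ hγ] at this
  obtain ⟨c, hc⟩ := h1.eq_add_const hF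
  rw [hc z, hc w]
  ring

/-- the increment does not depend on the primitive -/
theorem prim_sub_eq {f F G : ℍ → ℂ} (hF : IsPrim F f) (hG : IsPrim G f) (z w : ℍ) :
    F z - F w = G z - G w := by
  obtain ⟨c, hc⟩ := hF.eq_add_const hG
  rw [hc z, hc w]
  ring

theorem tendsto_vadd_atImInfty (x : ℝ) : Tendsto (fun τ : ℍ => x +ᵥ τ) atImInfty atImInfty := by
  rw [atImInfty, tendsto_comap_iff]
  have : (im ∘ fun τ : ℍ => x +ᵥ τ) = im := by
    funext τ
    simp [vadd_im]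
  rw [this]
  exact tendsto_comap

end PeriodMapAux

open PeriodMapAux

theorem exists_prim {f : ℍ → ℂ} (hf : f ∈ MF (Gamma0 N) 2) : ∃ F, IsPrim F f := by
  obtain ⟨G, hG, -⟩ := exists_prim_slash N hf 1
  rw [SlashAction.slash_one] at hG
  exact ⟨G, hG⟩

/-- a chosen primitive -/
noncomputable def chosenPrim (f : MF (Gamma0 N) 2) : ℍ → ℂ := (exists_prim N f.2).choose

theorem chosenPrim_isPrim (f : MF (Gamma0 N) 2) : IsPrim (chosenPrim N f) f :=
  (exists_prim N f.2).choose_spec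

/-- the period homomorphism of a single form -/
noncomputable def perHomAux (f : MF (Gamma0 N) 2) : Additive (Gamma0 N) →+ ℂ where
  toFun γ := chosenPrim N f (((Additive.toMul γ : Gamma0 N) : SL(2, ℤ)) • UpperHalfPlane.I)
    - chosenPrim N f UpperHalfPlane.I
  map_zero' := by simp
  map_add' γ δ := by
    have h := prim_smul_sub f.2.2.1 (chosenPrim_isPrim N f)
      ((Additive.toMul γ : Gamma0 N) : SL(2, ℤ)) (Additive.toMul γ).2
      (((Additive.toMul δ : Gamma0 N) : SL(2, ℤ)) • UpperHalfPlane.I) UpperHalfPlane.I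
    have hsmul : ((Additive.toMul (γ + δ) : Gamma0 N) : SL(2, ℤ)) • UpperHalfPlane.I
        = ((Additive.toMul γ : Gamma0 N) : SL(2, ℤ)) •
          (((Additive.toMul δ : Gamma0 N) : SL(2, ℤ)) • UpperHalfPlane.I) := by
      rw [← mul_smul]; rfl
    rw [hsmul]
    linear_combination h

theorem perHomAux_apply (f : MF (Gamma0 N) 2) {F : ℍ → ℂ} (hF : IsPrim F f) (γ : Gamma0 N)
    (z : ℍ) : perHomAux N f (Additive.ofMul γ) = F ((γ : SL(2, ℤ)) • z) - F z := by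
  rw [prim_smul_sub f.2.2.1 hF (γ : SL(2, ℤ)) γ.2 z UpperHalfPlane.I]
  exact prim_sub_eq (chosenPrim_isPrim N f) hF _ _

/-- The period homomorphism, linear in the form. -/
noncomputable def perHom : MF (Gamma0 N) 2 →ₗ[ℂ] (Additive (Gamma0 N) →+ ℂ) where
  toFun := perHomAux N
  map_add' f g := by
    refine AddMonoidHom.ext fun γ => ?_
    have h : IsPrim (chosenPrim N f + chosenPrim N g) ((f + g : MF (Gamma0 N) 2) : ℍ → ℂ) :=
      (chosenPrim_isPrim N f).add (chosenPrim_isPrim N g)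
    have h1 := perHomAux_apply N (f + g) h (Additive.toMul γ) UpperHalfPlane.I
    have h2 := perHomAux_apply N f (chosenPrim_isPrim N f) (Additive.toMul γ) UpperHalfPlane.I
    have h3 := perHomAux_apply N g (chosenPrim_isPrim N g) (Additive.toMul γ) UpperHalfPlane.I
    simp only [ofMul_toMul] at h1 h2 h3
    rw [AddMonoidHom.add_apply, h1, h2, h3]
    simp only [Pi.add_apply]
    ring
  map_smul' c f := by
    refine AddMonoidHom.ext fun γ => ?_
    have h : IsPrim (c • chosenPrim N f) ((c • f : MF (Gamma0 N) 2) : ℍ → ℂ) :=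
      (chosenPrim_isPrim N f).smul c
    have h1 := perHomAux_apply N (c • f) h (Additive.toMul γ) UpperHalfPlane.I
    have h2 := perHomAux_apply N f (chosenPrim_isPrim N f) (Additive.toMul γ) UpperHalfPlane.I
    simp only [ofMul_toMul] at h1 h2
    rw [RingHom.id_apply, AddMonoidHom.smul_apply, h1, h2]
    simp only [Pi.smul_apply, smul_eq_mul]
    ring

theorem perHom_apply (f : MF (Gamma0 N) 2) {F : ℍ → ℂ} (hF : IsPrim F f) (γ : Gamma0 N) (z : ℍ) :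
    perHom N f (Additive.ofMul γ) = F ((γ : SL(2, ℤ)) • z) - F z :=
  perHomAux_apply N f hF γ z

omit [NeZero N] in
/-- the translate `f ∣ δ` is invariant under `T ^ m` as soon as `± δ T ^ m δ⁻¹ ∈ Γ₀(N)` -/
theorem PeriodMapAux.slash_T_zpow {f : ℍ → ℂ} (hf : f ∈ MF (Gamma0 N) 2) (δ : SL(2, ℤ)) (m : ℤ)
    (h : δ * ModularGroup.T ^ m * δ⁻¹ ∈ Gamma0 N) :
    (f ∣[(2 : ℤ)] δ) ∣[(2 : ℤ)] (ModularGroup.T ^ m) = f ∣[(2 : ℤ)] δ := by
  have h1 : δ * ModularGroup.T ^ m = (δ * ModularGroup.T ^ m * δ⁻¹) * δ := by group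
  rw [← SlashAction.slash_mul, h1, SlashAction.slash_mul, hf.2.1 _ h]

/-- increment of a primitive of `f ∣ δ` under `T ^ m` -/
theorem PeriodMapAux.prim_T_zpow {f : ℍ → ℂ} (hf : f ∈ MF (Gamma0 N) 2) (δ : SL(2, ℤ)) (m : ℤ)
    (h : δ * ModularGroup.T ^ m * δ⁻¹ ∈ Gamma0 N) {G : ℍ → ℂ} (hG : IsPrim G (f ∣[(2 : ℤ)] δ))
    (w : ℍ) :
    G (ModularGroup.T ^ m • w) - G w = m * valueAtInfty (f ∣[(2 : ℤ)] δ) := by
  obtain ⟨G', hG', hlim⟩ := exists_prim_slash N hf δ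
  rw [prim_sub_eq hG hG']
  set a := valueAtInfty (f ∣[(2 : ℤ)] δ) with ha
  have h1 : IsPrim (fun τ => G' (ModularGroup.T ^ m • τ)) (f ∣[(2 : ℤ)] δ) := by
    have := hG'.comp_smul (ModularGroup.T ^ m)
    rwa [slash_T_zpow N hf δ m h] at this
  obtain ⟨c, hc⟩ := h1.eq_add_const hG'
  have hc' : ∀ τ : ℍ, G' ((m : ℝ) +ᵥ τ) = G' τ + c := by
    intro τ
    rw [← modular_T_zpow_smul]
    exact hc τ
  have hlim2 : Tendsto (fun τ : ℍ => G' ((m : ℝ) +ᵥ τ) - a * (((m : ℝ) +ᵥ τ : ℍ) : ℂ)) atImInfty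
      (𝓝 0) := hlim.comp (tendsto_vadd_atImInfty (m : ℝ))
  have hlim3 := hlim2.sub hlim
  have hfun : (fun τ : ℍ => (G' ((m : ℝ) +ᵥ τ) - a * (((m : ℝ) +ᵥ τ : ℍ) : ℂ)) -
      (G' τ - a * (τ : ℂ))) = fun _ => c - a * m := by
    funext τ
    rw [hc' τ, coe_vadd]
    push_cast
    ring
  rw [hfun, sub_zero] at hlim3
  have hcm : c - a * m = 0 := tendsto_nhds_unique tendsto_const_nhds hlim3
  have hw : G' (ModularGroup.T ^ m • w) = G' w + c := hc w
  rw [hw]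
  linear_combination hcm

/-- value of the period hom on parabolic elements -/
theorem perHom_parabolic (f : MF (Gamma0 N) 2) (δ : SL(2, ℤ)) (m : ℤ) (γ : Gamma0 N)
    (hγ : (γ : SL(2, ℤ)) = δ * ModularGroup.T ^ m * δ⁻¹ ∨
      (γ : SL(2, ℤ)) = -(δ * ModularGroup.T ^ m * δ⁻¹)) :
    perHom N f (Additive.ofMul γ) = m * valueAtInfty ((f : ℍ → ℂ) ∣[(2 : ℤ)] δ) := by
  obtain ⟨F, hF⟩ := exists_prim N f.2
  have hmem : δ * ModularGroup.T ^ m * δ⁻¹ ∈ Gamma0 N := by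
    rcases hγ with h | h
    · rw [← h]; exact γ.2
    · have h2 : δ * ModularGroup.T ^ m * δ⁻¹ = (-1 : SL(2, ℤ)) * (γ : SL(2, ℤ)) := by
        rw [h]; simp
      rw [h2]
      exact (Gamma0 N).mul_mem (neg_one_mem_Gamma0 N) γ.2
  have hact : ∀ z : ℍ, (γ : SL(2, ℤ)) • z = (δ * ModularGroup.T ^ m * δ⁻¹) • z := by
    intro z
    rcases hγ with h | h
    · rw [h]
    · rw [h, ModularGroup.SL_neg_smul]
  have hG : IsPrim (fun τ => F (δ • τ)) ((f : ℍ → ℂ) ∣[(2 : ℤ)] δ) := hF.comp_smul δ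
  have key := prim_T_zpow N f.2 δ m hmem hG UpperHalfPlane.I
  rw [perHom_apply N f hF γ (δ • UpperHalfPlane.I), hact, ← key]
  simp only [mul_smul, inv_smul_smul]

theorem perHom_mem_parabolicHoms (f : MF (Gamma0 N) 2) (hf : (f : ℍ → ℂ) ∈ CF (Gamma0 N) 2) :
    perHom N f ∈ parabolicHoms ℂ (Gamma0 N) ℂ := by
  rw [mem_parabolicHoms_iff]
  intro γ hγ
  obtain ⟨δ, m, h⟩ := exists_conj_T_zpow (γ : SL(2, ℤ)) hγ
  rw [perHom_parabolic N f δ m γ h, (hf.2.2 δ).valueAtInfty_eq_zero, mul_zero]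

/-- if the period hom of `f` is parabolic then `f` is a cusp form -/
theorem mem_CF_of_perHom_parabolic (f : MF (Gamma0 N) 2)
    (h : perHom N f ∈ parabolicHoms ℂ (Gamma0 N) ℂ) : (f : ℍ → ℂ) ∈ CF (Gamma0 N) 2 := by
  rw [mem_parabolicHoms_iff] at h
  refine ⟨f.2.1, f.2.2.1, fun δ => ?_⟩
  have hN : (0 : ℝ) < (N : ℝ) := by exact_mod_cast Nat.pos_of_ne_zero (NeZero.ne N)
  have hmem : δ * ModularGroup.T ^ (N : ℤ) * δ⁻¹ ∈ Gamma0 N := by
    rw [zpow_natCast]; exact conj_T_pow_mem_Gamma0 N δ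
  have htr : (((⟨_, hmem⟩ : Gamma0 N) : SL(2, ℤ)) : Matrix (Fin 2) (Fin 2) ℤ).trace ^ 2 = 4 := by
    simp only [Matrix.SpecialLinearGroup.coe_mul]
    rw [Matrix.trace_mul_cycle, ← Matrix.SpecialLinearGroup.coe_mul, inv_mul_cancel,
      Matrix.SpecialLinearGroup.coe_one, one_mul, ModularGroup.coe_T_zpow, Matrix.trace_fin_two_of]
    norm_num
  have h0 := h ⟨_, hmem⟩ htr
  rw [perHom_parabolic N f δ (N : ℤ) ⟨_, hmem⟩ (Or.inl rfl)] at h0
  have hN' : ((N : ℤ) : ℂ) ≠ 0 := by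
    exact_mod_cast NeZero.ne N
  have hv : valueAtInfty ((f : ℍ → ℂ) ∣[(2 : ℤ)] δ) = 0 := by
    rcases mul_eq_zero.1 h0 with h1 | h1
    · exact absurd h1 hN'
    · exact h1
  have := tendsto_valueAtInfty hN (slash_periodic N f.2.2.1 δ) (mdiff_slash f.2.1 2 δ) (f.2.2.2 δ)
  rw [hv] at this
  exact this

theorem coe_cuspForm_mem_CF (f : CuspForm (Gamma0 N) 2) : (f : ℍ → ℂ) ∈ CF (Gamma0 N) 2 :=
  mem_CF_iff_exists.2 ⟨f, rfl⟩

theorem coe_cuspForm_mem_MF (f : CuspForm (Gamma0 N) 2) : (f : ℍ → ℂ) ∈ MF (Gamma0 N) 2 :=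
  CF_le_MF _ _ (coe_cuspForm_mem_CF N f)

/-- cusp forms have an equivariant primitive in the sense of the frozen definition -/
theorem exists_hasEquivariantPrimitive (f : CuspForm (Gamma0 N) 2) :
    ∃ F : ℍ → ℂ, HasEquivariantPrimitive N f F := by
  have hC := coe_cuspForm_mem_CF N f
  have hM := coe_cuspForm_mem_MF N f
  have hlimδ : ∀ δ : SL(2, ℤ), ∃ G : ℍ → ℂ, IsPrim G ((f : ℍ → ℂ) ∣[(2 : ℤ)] δ) ∧
      Tendsto G atImInfty (𝓝 0) := by
    intro δ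
    obtain ⟨G, hG, hG2⟩ := exists_prim_slash N hM δ
    refine ⟨G, hG, ?_⟩
    rw [(hC.2.2 δ).valueAtInfty_eq_zero] at hG2
    simpa using hG2
  obtain ⟨F, hF, hF0⟩ := hlimδ 1
  rw [SlashAction.slash_one] at hF
  refine ⟨F, hF, hF0, fun γ => ⟨F ((γ : SL(2, ℤ)) • UpperHalfPlane.I) - F UpperHalfPlane.I,
    fun z => prim_smul_sub hM.2.1 hF (γ : SL(2, ℤ)) γ.2 z UpperHalfPlane.I⟩, fun δ => ?_⟩
  obtain ⟨G, hG, hG0⟩ := hlimδ δ
  obtain ⟨c, hc⟩ := (hF.comp_smul δ).eq_add_const hG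
  refine ⟨c, ?_⟩
  have : (fun w : ℍ => F (δ • w)) = fun w => G w + c := funext hc
  rw [this]
  simpa using hG0.add_const c

/-- the frozen period map is our `perHom` -/
theorem periodMap_eq_perHom (f : CuspForm (Gamma0 N) 2) :
    periodMap N f = perHom N ⟨f, coe_cuspForm_mem_MF N f⟩ := by
  obtain ⟨F, hF⟩ := exists_hasEquivariantPrimitive N f
  obtain ⟨F₀, h₀, h⟩ := periodMap_def N f hF
  rw [h]
  refine AddMonoidHom.ext fun γ => ?_
  have h1 := perHom_apply N ⟨f, coe_cuspForm_mem_MF N f⟩ (F := F₀) h₀.1 (Additive.toMul γ)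
    UpperHalfPlane.I
  simp only [ofMul_toMul] at h1
  rw [h1]
  rfl

end Fermat.Agent.S21
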