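import Fermat.Agent.S21.Basic

/-! # S21 module PRIMITIVE: primitives on `ℍ` of periodic holomorphic functions bounded at `i∞`. -/

set_option autoImplicit false

open UpperHalfPlane ModularForm CongruenceSubgroup Filter Topology
open scoped MatrixGroups ModularForm Manifold

namespace Fermat.Agent.S21

/-- two primitives differ by a constant -/
theorem IsPrim.eq_add_const {F G f : ℍ → ℂ} (hF : IsPrim F f) (hG : IsPrim G f) :
    ∃ c : ℂ, ∀ τ, F τ = G τ + c := by
  set D : ℂ → ℂ := fun z => (F ∘ ofComplex) z - (G ∘ ofComplex) z with hD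
  have hder : ∀ z ∈ upperHalfPlaneSet, HasDerivAt D 0 z := by
    intro z hz
    have h1 := hF ⟨z, hz⟩
    have h2 := hG ⟨z, hz⟩
    have h3 := h1.sub h2
    rw [sub_self] at h3
    exact h3
  have hconst : ∀ x ∈ upperHalfPlaneSet, ∀ y ∈ upperHalfPlaneSet, D x = D y := by
    intro x hx y hy
    refine isOpen_upperHalfPlaneSet.is_const_of_deriv_eq_zero
      (convex_halfSpace_im_gt 0).isPreconnected
      (fun z hz => (hder z hz).differentiableAt.differentiableWithinAt)
      (fun z hz => (hder z hz).deriv) hx hy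
  refine ⟨D I, fun τ => ?_⟩
  have h := hconst τ τ.im_pos I I.im_pos
  have h2 : D τ = F τ - G τ := by simp [hD]
  rw [← h, h2]
  ring

theorem IsPrim.add {F G f g : ℍ → ℂ} (hF : IsPrim F f) (hG : IsPrim G g) :
    IsPrim (F + G) (f + g) := fun τ => (hF τ).add (hG τ)

theorem IsPrim.smul {F f : ℍ → ℂ} (c : ℂ) (hF : IsPrim F f) : IsPrim (c • F) (c • f) :=
  fun τ => (hF τ).const_smul c

theorem IsPrim.mdiff {F f : ℍ → ℂ} (hF : IsPrim F f) : MDiff F :=
  fun τ => UpperHalfPlane.mdifferentiableAt_iff.mpr (hF τ).differentiableAt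

/-- chain rule: `F ∘ γ` is a primitive of `f ∣[2] γ` -/
theorem IsPrim.comp_smul {F f : ℍ → ℂ} (hF : IsPrim F f) (γ : SL(2, ℤ)) :
    IsPrim (fun τ => F (γ • τ)) (f ∣[(2 : ℤ)] γ) := by
  intro τ
  have hdet1 : ((γ : GL (Fin 2) ℝ)).val.det = 1 :=
    (Matrix.SpecialLinearGroup.map (Int.castRingHom ℝ) γ).det_coe
  have hdet : 0 < ((γ : GL (Fin 2) ℝ)).val.det := by rw [hdet1]; exact one_pos
  have h1 := (hasStrictDerivAt_smul hdet τ).hasDerivAt
  have h2 : HasDerivAt (F ∘ ofComplex) (f (γ • τ)) (↑((γ : GL (Fin 2) ℝ) • ofComplex (τ : ℂ))) := by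
    rw [ofComplex_apply]
    exact hF (γ • τ)
  have h3 := h2.comp (τ : ℂ) h1
  have h4 : ((fun τ => F (γ • τ)) ∘ ofComplex) =
      ((F ∘ ofComplex) ∘ fun z => (↑((γ : GL (Fin 2) ℝ) • ofComplex z) : ℂ)) := by
    funext z
    simp only [Function.comp_apply, ofComplex_apply]
    rfl
  rw [h4]
  refine h3.congr_deriv ?_
  rw [SL_slash_apply, hdet1, zpow_neg, Complex.ofReal_one, one_div]
  norm_cast

/-- a holomorphic periodic function bounded at `i∞` tends to its `valueAtInfty` -/
theorem tendsto_valueAtInfty {f : ℍ → ℂ} {h : ℝ} (hh : 0 < h)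
    (hper : Function.Periodic (f ∘ ofComplex) h) (hhol : MDiff f) (hbdd : IsBoundedAtImInfty f) :
    Tendsto f atImInfty (𝓝 (valueAtInfty f)) := by
  have han := analyticAt_cuspFunction_zero hh hper hhol hbdd
  have h0 := cuspFunction_apply_zero hh han hper
  have : (cuspFunction h f ∘ fun τ ↦ Function.Periodic.qParam h τ : ℍ → ℂ) = f := by
    funext τ
    simpa using eq_cuspFunction τ hh.ne' hper
  have h1 := han.continuousAt.tendsto.comp (qParam_tendsto_atImInfty hh)
  rw [this, h0] at h1
  exact h1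

/-- Existence of a primitive (via a primitive of `(cuspFunction - a₀)/q` on the unit disc,
`DifferentiableOn.isExactOn_ball`). -/
theorem exists_prim_of_periodic {f : ℍ → ℂ} {h : ℝ} (hh : 0 < h)
    (hper : Function.Periodic (f ∘ ofComplex) h) (hhol : MDiff f) (hbdd : IsBoundedAtImInfty f) :
    ∃ F : ℍ → ℂ, IsPrim F f ∧
      Tendsto (fun τ : ℍ => F τ - valueAtInfty f * τ) atImInfty (𝓝 0) ∧
      ∀ τ : ℍ, F (h +ᵥ τ) = F τ + valueAtInfty f * h := by
  set c := cuspFunction h f with hc
  have hcd : DifferentiableOn ℂ c (Metric.ball 0 1) :=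
    differentiableOn_cuspFunction_ball hh hper hhol hbdd
  have han := analyticAt_cuspFunction_zero hh hper hhol hbdd
  have h0 : c 0 = valueAtInfty f := cuspFunction_apply_zero hh han hper
  have hgd : DifferentiableOn ℂ (dslope c 0) (Metric.ball 0 1) :=
    (Complex.differentiableOn_dslope (Metric.ball_mem_nhds 0 one_pos)).mpr hcd
  obtain ⟨G, hG0, hG⟩ := hgd.isExactOn_ball.with_val_at 0 0
  set K : ℂ := h / (2 * Real.pi * Complex.I) with hK
  have hpi : (2 * Real.pi * Complex.I : ℂ) ≠ 0 := by
    simp [Real.pi_ne_zero]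
  have hhC : (h : ℂ) ≠ 0 := by exact_mod_cast hh.ne'
  refine ⟨fun τ => valueAtInfty f * τ + K * G (Function.Periodic.qParam h τ), ?_, ?_, ?_⟩
  · intro τ
    have hq : ‖Function.Periodic.qParam h (τ : ℂ)‖ < 1 :=
      Function.Periodic.norm_qParam_lt_one hh τ.im_pos
    have hqd : HasDerivAt (Function.Periodic.qParam h)
        (Function.Periodic.qParam h τ * (2 * Real.pi * Complex.I / h)) (τ : ℂ) := by
      unfold Function.Periodic.qParam
      have h1 : HasDerivAt (fun z : ℂ => 2 * Real.pi * Complex.I * z / h)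
          (2 * Real.pi * Complex.I / h) (τ : ℂ) := by
        simpa using ((hasDerivAt_id (τ : ℂ)).const_mul (2 * Real.pi * Complex.I)).div_const (h : ℂ)
      exact h1.cexp
    have hGq := (hG _ (by simpa using hq)).comp (τ : ℂ) hqd
    have hlin : HasDerivAt (fun z : ℂ => valueAtInfty f * z) (valueAtInfty f) (τ : ℂ) := by
      simpa using (hasDerivAt_id (τ : ℂ)).const_mul (valueAtInfty f)
    have htot := hlin.add (hGq.const_mul K)
    have hval : valueAtInfty f + K * (dslope c 0 (Function.Periodic.qParam h τ) *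
        (Function.Periodic.qParam h τ * (2 * Real.pi * Complex.I / h))) = f τ := by
      have h1 := sub_smul_dslope c 0 (Function.Periodic.qParam h (τ : ℂ))
      rw [sub_zero, smul_eq_mul, h0, hc, eq_cuspFunction τ hh.ne' hper] at h1
      have h2 : K * (2 * Real.pi * Complex.I / h) = 1 := by
        rw [hK]; field_simp
      calc _ = valueAtInfty f + (K * (2 * Real.pi * Complex.I / h)) *
            (Function.Periodic.qParam h τ * dslope (cuspFunction h f) 0
              (Function.Periodic.qParam h τ)) := by ring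
        _ = f τ := by rw [h2, h1]; ring
    rw [hval] at htot
    refine htot.congr_of_eventuallyEq ?_
    filter_upwards [isOpen_upperHalfPlaneSet.mem_nhds τ.im_pos] with z hz
    simp only [Function.comp_apply, ofComplex_apply_of_im_pos hz, Pi.add_apply]
  · have hGc : ContinuousAt G 0 := (hG 0 (by simp)).continuousAt
    have h1 := (hGc.tendsto.comp (qParam_tendsto_atImInfty hh)).const_mul K
    rw [hG0, mul_zero] at h1
    refine h1.congr fun τ => ?_
    simp
  · intro τ
    have hq : Function.Periodic.qParam h ((h +ᵥ τ : ℍ) : ℂ) = Function.Periodic.qParam h (τ : ℂ) := by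
      rw [coe_vadd]
      unfold Function.Periodic.qParam
      have : 2 * (Real.pi : ℂ) * Complex.I * ((h : ℂ) + τ) / h =
          2 * Real.pi * Complex.I * τ / h + 2 * Real.pi * Complex.I := by
        field_simp
        ring
      rw [this, Complex.exp_add, Complex.exp_two_pi_mul_I, mul_one]
    simp only [hq]
    rw [coe_vadd]
    ring

end Fermat.Agent.S21
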