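import Fermat.Agent.S21.Basic

/-! # S21 module SERRE: the Serre derivative maps `MF Γ k` to `MF Γ (k+2)`. -/

set_option autoImplicit false

open UpperHalfPlane ModularForm CongruenceSubgroup Filter Topology
open scoped MatrixGroups ModularForm Manifold

namespace Fermat.Agent.S21

/-- `E₂` is bounded at `i∞`. -/
theorem E2_isBoundedAtImInfty : IsBoundedAtImInfty EisensteinSeries.E2 :=
  EisensteinSeries.isBoundedAtImInfty_E2

/-- Cauchy estimate: the derivative of a holomorphic function bounded at `i∞` is bounded at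
`i∞`. -/
theorem normalizedDeriv_isBoundedAtImInfty {f : ℍ → ℂ} (hf : MDiff f)
    (hb : IsBoundedAtImInfty f) : IsBoundedAtImInfty (Derivative.normalizedDerivOfComplex f) := by
  rw [isBoundedAtImInfty_iff] at hb ⊢
  obtain ⟨M, A, hMA⟩ := hb
  rw [UpperHalfPlane.mdifferentiable_iff] at hf
  refine ⟨‖(2 * Real.pi * Complex.I)⁻¹‖ * M, max A 0 + 2, fun z hz => ?_⟩
  have him : ∀ w ∈ Metric.closedBall (z : ℂ) 1, max A 0 + 1 ≤ w.im := by
    intro w hw
    have h1 : |(w - z).im| ≤ 1 :=
      (Complex.abs_im_le_norm _).trans (by simpa [dist_eq_norm] using hw)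
    have h2 := (abs_le.mp h1).1
    simp only [Complex.sub_im, coe_im] at h2
    linarith
  have hpos : ∀ w ∈ Metric.closedBall (z : ℂ) 1, 0 < w.im := fun w hw => by
    have := him w hw
    have := le_max_right A 0
    linarith
  have hd : DiffContOnCl ℂ (f ∘ ofComplex) (Metric.ball (z : ℂ) 1) := by
    apply DifferentiableOn.diffContOnCl
    rw [closure_ball _ one_ne_zero]
    exact hf.mono fun w hw => hpos w hw
  have hC : ∀ w ∈ Metric.sphere (z : ℂ) 1, ‖(f ∘ ofComplex) w‖ ≤ M := by
    intro w hw
    have hw' := Metric.sphere_subset_closedBall hw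
    apply hMA
    rw [ofComplex_apply_of_im_pos (hpos w hw')]
    have := him w hw'
    have := le_max_left A 0
    show A ≤ w.im
    linarith
  have := Complex.norm_deriv_le_of_forall_mem_sphere_norm_le one_pos hd hC
  rw [div_one] at this
  unfold Derivative.normalizedDerivOfComplex
  rw [norm_mul]
  exact mul_le_mul_of_nonneg_left this (norm_nonneg _)

/-- The Serre derivative of a holomorphic function bounded at `i∞` is bounded at `i∞`. -/
theorem serreDerivative_isBoundedAtImInfty {f : ℍ → ℂ} (c : ℂ) (hf : MDiff f)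
    (hb : IsBoundedAtImInfty f) : IsBoundedAtImInfty (Derivative.serreDerivative c f) := by
  have h1 := normalizedDeriv_isBoundedAtImInfty hf hb
  have h2 : IsBoundedAtImInfty ((c * 12⁻¹) • (EisensteinSeries.E2 * f)) :=
    (E2_isBoundedAtImInfty.mul hb).const_smul_left _
  have h3 : Derivative.serreDerivative c f =
      Derivative.normalizedDerivOfComplex f + (-1 : ℂ) • ((c * 12⁻¹) • (EisensteinSeries.E2 * f)) := by
    ext z
    simp [Derivative.serreDerivative]
    ring
  rw [h3]
  exact h1.add (h2.const_smul_left _)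

theorem serre_mem_MF {Γ : Subgroup SL(2, ℤ)} {k : ℤ} {f : ℍ → ℂ} (hf : f ∈ MF Γ k) :
    Derivative.serreDerivative (k : ℂ) f ∈ MF Γ (k + 2) := by
  obtain ⟨h1, h2, h3⟩ := hf
  refine ⟨Derivative.serreDerivative_mdifferentiable _ h1,
    fun γ hγ => Derivative.serreDerivative_slash_invariant h1 (h2 γ hγ), fun δ => ?_⟩
  rw [Derivative.serreDerivative_slash_equivariant h1]
  exact serreDerivative_isBoundedAtImInfty _ (mdiff_slash h1 k δ) (h3 δ)

/-- The derivative of a translate, in terms of the translate of the Serre derivative. -/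
theorem hasDerivAt_vec {Γ : Subgroup SL(2, ℤ)} {k : ℤ} {f : ℍ → ℂ} (hf : f ∈ MF Γ k) (x : X Γ)
    (τ : ℍ) :
    HasDerivAt (vec Γ k f x ∘ ofComplex)
      (2 * Real.pi * Complex.I * (vec Γ (k + 2) (Derivative.serreDerivative (k : ℂ) f) x τ
        + k * 12⁻¹ * EisensteinSeries.E2 τ * vec Γ k f x τ)) ↑τ := by
  obtain ⟨h1, -, -⟩ := hf
  have hg : MDiff (vec Γ k f x) := mdiff_slash h1 k _
  have hd : HasDerivAt (vec Γ k f x ∘ ofComplex) (deriv (vec Γ k f x ∘ ofComplex) τ) τ :=
    (UpperHalfPlane.mdifferentiableAt_iff.mp (hg τ)).hasDerivAt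
  convert hd using 1
  have h2 : vec Γ (k + 2) (Derivative.serreDerivative (k : ℂ) f) x =
      Derivative.serreDerivative (k : ℂ) (vec Γ k f x) :=
    Derivative.serreDerivative_slash_equivariant h1
  rw [h2]
  have hpi : (2 * Real.pi * Complex.I : ℂ) ≠ 0 := Complex.two_pi_I_ne_zero
  simp only [Derivative.serreDerivative_apply, Derivative.normalizedDerivOfComplex]
  field_simp
  ring

end Fermat.Agent.S21
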